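import Fermat.Agent.ModField.Igusa.NoRoot

/-!
# Igusa's lower bound: the fields `k(j, j(q^d) : d ∣ N)` have degree at least `ψ(N)` over `k(j)`
-/

set_option autoImplicit false
set_option linter.style.haveILetI false
set_option linter.unusedSectionVars false
set_option synthInstance.maxHeartbeats 200000
set_option maxHeartbeats 3200000

noncomputable section

namespace FA.ModField

open HahnSeries ModularCurve IntermediateField

variable {k : Type} [Field k] [IsAlgClosed k]

variable (k) in
/-- The induction statement: degree bound and an embedding in `q^(1/N)` sending `j(q^(p^i))` to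
`j(q^(1/p^i))`. -/
def GoodLevel (N : ℕ) [NeZero N] : Prop :=
  ∃ σ : towerField k N →+* LaurentSeries k,
    (∀ c : baseJ k, σ (algebraMap (baseJ k) (towerField k N) c) =
      qExpand k N (c : LaurentSeries k)) ∧
    (∀ (r i : ℕ) (hne : NeZero (r ^ i)), r.Prime → r ^ i ∣ N → ∀ (x : towerField k N),
      (x : LaurentSeries k) = @qExpand k _ (r ^ i) hne (jqModC k) →
        ∀ (e : ℕ) (_ : NeZero e), e * r ^ i = N → σ x = sj k 1 e) ∧
    FiniteDimensional (baseJ k) (towerField k N) ∧
    dedekindPsi N ≤ Module.finrank (baseJ k) (towerField k N)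

theorem goodLevel_one : GoodLevel k 1 := by
  have hbot : towerField k 1 = ⊥ := by
    rw [IntermediateField.adjoin_eq_bot_iff]
    rintro x ⟨r, i, hne, hr, hdvd, rfl⟩
    rw [IntermediateField.coe_bot]
    refine ⟨⟨jqModC k, mem_adjoin_simple_self k _⟩, ?_⟩
    rw [qExpand_congr (Nat.dvd_one.1 hdvd), qExpand_one_apply]
    rfl
  refine ⟨(towerField k 1).val.toRingHom, fun c => ?_, fun r i hne hr hdvd x hx e he0 he => ?_,
    ?_, ?_⟩
  · rw [qExpand_one_apply]; rfl
  · show (x : LaurentSeries k) = _
    have he1 : e = 1 := Nat.eq_one_of_mul_eq_one_right he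
    rw [hx, qExpand_congr (Nat.dvd_one.1 hdvd), sj_congr he1, sj_one]
  · rw [hbot]; infer_instance
  · rw [dedekindPsi_one, hbot, IntermediateField.finrank_bot]

/-- The factors of a product of distinct linear factors are products of some of them. -/
theorem factor_roots {F : Type*} [Field F] {ι : Type*} [Fintype ι] (R : ι → F)
    (hR : Function.Injective R) {G : Polynomial F} (hG : G.Monic)
    (hdvd : G ∣ ∏ i, (Polynomial.X - Polynomial.C (R i))) :
    ∃ S : Finset ι, (∀ i, i ∈ S ↔ G.eval (R i) = 0) ∧ S.card = G.natDegree := by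
  classical
  refine ⟨Finset.univ.filter fun i => G.eval (R i) = 0, fun i => by simp, ?_⟩
  have hne : (∏ i, (Polynomial.X - Polynomial.C (R i))) ≠ 0 :=
    (Polynomial.monic_prod_X_sub_C _ _).ne_zero
  have hsp : G.Splits :=
    (Polynomial.Splits.prod fun i _ => Polynomial.Splits.X_sub_C (R i)).of_dvd hne hdvd
  have hsub := Polynomial.roots.le_of_dvd hne hdvd
  have hnd : G.roots.Nodup := by
    refine Multiset.nodup_of_le hsub ?_
    exact Polynomial.nodup_roots (Polynomial.separable_prod_X_sub_C_iff.2 hR)
  rw [hsp.natDegree_eq_card_roots, ← Multiset.toFinset_card_of_nodup hnd,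
    ← Finset.card_image_of_injective _ hR]
  congr 1
  ext z
  simp only [Finset.mem_image, Finset.mem_filter, Finset.mem_univ, true_and,
    Multiset.mem_toFinset, Polynomial.mem_roots hG.ne_zero]
  constructor
  · rintro ⟨i, hi, rfl⟩
    exact hi
  · intro hz
    have h1 : (∏ i, (Polynomial.X - Polynomial.C (R i))).IsRoot z := hz.dvd hdvd
    rw [Polynomial.IsRoot, Polynomial.eval_prod, Finset.prod_eq_zero_iff] at h1
    obtain ⟨i, -, hi⟩ := h1
    rw [Polynomial.eval_sub, Polynomial.eval_X, Polynomial.eval_C, sub_eq_zero] at hi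
    exact ⟨i, hi ▸ hz, hi.symm⟩

/-- A set of indices modulo a prime stable under a nonzero translation is empty or everything. -/
theorem orbit_full (p : ℕ) [Fact p.Prime] (m : ℕ) (hpm : ¬ p ∣ m) (S : Finset (Option (Fin p)))
    (hstab : ∀ b b' : Fin p, ((b' : ℕ) : ZMod p) = ((b : ℕ) : ZMod p) + (m : ZMod p) →
      some b ∈ S → some b' ∈ S) {b₀ : Fin p} (h₀ : some b₀ ∈ S) (b : Fin p) : some b ∈ S := by
  have hm : (m : ZMod p) ≠ 0 := by rwa [Ne, ZMod.natCast_eq_zero_iff]
  have hp : 0 < p := (Fact.out : p.Prime).pos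
  have key : ∀ t : ℕ, ∀ b' : Fin p,
      ((b' : ℕ) : ZMod p) = ((b₀ : ℕ) : ZMod p) + (t : ZMod p) * (m : ZMod p) → some b' ∈ S := by
    intro t
    induction t with
    | zero =>
      intro b' hb'
      rw [Nat.cast_zero, zero_mul, add_zero, ZMod.natCast_eq_natCast_iff'] at hb'
      rw [Nat.mod_eq_of_lt b'.2, Nat.mod_eq_of_lt b₀.2] at hb'
      rwa [Fin.ext hb']
    | succ t ih =>
      intro b' hb'
      let c : Fin p := ⟨(((b₀ : ℕ) : ZMod p) + (t : ZMod p) * (m : ZMod p)).val, ZMod.val_lt _⟩
      have hc : ((c : ℕ) : ZMod p) = ((b₀ : ℕ) : ZMod p) + (t : ZMod p) * (m : ZMod p) := by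
        show (((((b₀ : ℕ) : ZMod p) + (t : ZMod p) * (m : ZMod p)).val : ℕ) : ZMod p) = _
        rw [ZMod.natCast_val, ZMod.cast_id]
      refine hstab c b' ?_ (ih c hc)
      rw [hb', hc]
      push_cast
      ring
  refine key ((((b : ℕ) : ZMod p) - ((b₀ : ℕ) : ZMod p)) / (m : ZMod p)).val b ?_
  rw [ZMod.natCast_val, ZMod.cast_id, div_mul_cancel₀ _ hm]
  ring

theorem subRoot_congr (p : ℕ) [NeZero p] (ζ c : kˣ) {d d' : ℕ} [NeZero d] [NeZero d']
    (h : d = d') (i : Option (Fin p)) : subRoot p ζ c d i = subRoot p ζ c d' i := by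
  subst h; rfl

theorem goodLevel_mul_prime (p : ℕ) [Fact p.Prime] (e m M : ℕ) [NeZero m] [NeZero M]
    (hM : M = p ^ e * m) (hpm : ¬ p ∣ m)
    (hk : ∀ r : ℕ, r.Prime → r ∣ M * p → (r : k) ≠ 0) (h : GoodLevel k M) :
    GoodLevel k (M * p) := by
  classical
  obtain ⟨σ, hσK, hσg, hfin, hdim⟩ := h
  have hpp : p.Prime := Fact.out
  haveI := hfin
  let K := baseJ k
  let E := towerField k M
  have hpk : (p : k) ≠ 0 := hk p hpp (dvd_mul_left p M)
  obtain ⟨ζ, hζ⟩ := exists_zeta p hpk
  obtain ⟨Φ, hΦm, hΦ⟩ := exists_phi p ζ hζ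
  have hpeM : p ^ e ∣ M := hM ▸ dvd_mul_right _ _
  have hpeM' : ¬ p ^ (e + 1) ∣ M := by
    rw [hM, pow_succ, Nat.mul_dvd_mul_iff_left (pow_pos hpp.pos e)]
    exact hpm
  set x : LaurentSeries k := qExpand k (p ^ (e + 1)) (jqModC k) with hx
  set a : E := ⟨_, mem_towerField hpp hpeM⟩ with ha
  set cE : k →+* E := (algebraMap K E).comp (algebraMap k K) with hcE
  have hcEval : ∀ s : k, ((cE s : E) : LaurentSeries k) = HahnSeries.C s := fun s => by
    show algebraMap k (LaurentSeries k) s = _
    rw [algebraMap_laurentSeries_eq_single, HahnSeries.C_apply]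
  set qa : Polynomial E := Φ.map (Polynomial.eval₂RingHom cE a) with hqa
  -- the equation over `E`, seen in `q^(1/p)`
  set θ : E →+* LaurentSeries k := (qExpand k p).comp E.val.toRingHom with hθdef
  have hqθ : qa.map θ = ∏ i, (Polynomial.X - Polynomial.C (subRoot p ζ 1 (p ^ e) i)) := by
    rw [hqa, Polynomial.map_map, ← hΦ 1 (p ^ e)]
    congr 1
    apply Polynomial.ringHom_ext
    · intro r
      simp only [RingHom.comp_apply, Polynomial.coe_eval₂RingHom, Polynomial.eval₂_C, hθdef]
      show qExpand k p ((cE r : E) : LaurentSeries k) = _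
      rw [hcEval, qExpand_C]
    · simp only [RingHom.comp_apply, Polynomial.coe_eval₂RingHom, Polynomial.eval₂_X, hθdef]
      show qExpand k p (qExpand k (p ^ e) (jqModC k)) = _
      rw [← sj_one, qExpand_sj, one_pow, sj_congr (mul_comm p (p ^ e))]
  have hxnone : qExpand k p x = subRoot p ζ 1 (p ^ e) none := by
    rw [hx, ← sj_one, qExpand_sj, subRoot, one_pow,
      sj_congr (by ring : p * p ^ (e + 1) = p ^ e * (p * p))]
  have hqroot : Polynomial.aeval x qa = 0 := by
    apply (qExpand k p).injective
    rw [map_zero, Polynomial.aeval_def, Polynomial.hom_eval₂,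
      show (qExpand k p).comp (algebraMap E (LaurentSeries k)) = θ from rfl, ← Polynomial.eval_map,
      hqθ, Polynomial.eval_prod]
    exact Finset.prod_eq_zero (Finset.mem_univ none) (by simp [hxnone])
  have hqm : qa.Monic := hΦm.map _
  have hqdeg : qa.natDegree = p + 1 := by
    rw [← hqm.natDegree_map θ, hqθ, Polynomial.natDegree_finsetProd_X_sub_C_eq_card,
      Finset.card_univ, Fintype.card_option, Fintype.card_fin]
  have hint : IsIntegral E x := ⟨qa, hqm, hqroot⟩
  set g := minpoly E x with hg
  have hgdvd : g ∣ qa := minpoly.dvd E x hqroot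
  -- the embedding
  set σ' : E →+* LaurentSeries k := (qExpand k p).comp σ with hσ'
  have hcσ : ∀ s : k, σ (cE s) = HahnSeries.C s := fun s => by
    rw [hcE, RingHom.comp_apply, hσK]
    show qExpand k M (algebraMap k (LaurentSeries k) s) = _
    rw [algebraMap_laurentSeries_eq_single, qExpand_single, mul_zero, HahnSeries.C_apply]
  have hqσ : qa.map σ' = ∏ i, (Polynomial.X - Polynomial.C (subRoot p ζ 1 m i)) := by
    rw [hqa, Polynomial.map_map, ← hΦ 1 m]
    congr 1
    apply Polynomial.ringHom_ext
    · intro r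
      simp only [RingHom.comp_apply, Polynomial.coe_eval₂RingHom, Polynomial.eval₂_C, hσ', hcσ,
        qExpand_C]
    · simp only [RingHom.comp_apply, Polynomial.coe_eval₂RingHom, Polynomial.eval₂_X, hσ']
      rw [hσg p e inferInstance hpp hpeM a rfl m inferInstance (by rw [hM, mul_comm]), qExpand_sj,
        one_pow, sj_congr (mul_comm p m)]
  set G := g.map σ' with hG
  have hGm : G.Monic := (minpoly.monic hint).map _
  have hGdvd : G ∣ ∏ i, (Polynomial.X - Polynomial.C (subRoot p ζ 1 m i)) :=
    hqσ ▸ Polynomial.map_dvd σ' hgdvd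
  obtain ⟨S, hS, hScard⟩ := factor_roots _ (subRoot_injective p hζ 1 m) hGm hGdvd
  have hGdeg : G.natDegree = g.natDegree := (minpoly.monic hint).natDegree_map σ'
  -- stability under `T ↦ ζ T`
  have hstab : ∀ b b' : Fin p, ((b' : ℕ) : ZMod p) = ((b : ℕ) : ZMod p) + (m : ZMod p) →
      some b ∈ S → some b' ∈ S := by
    intro b b' hbb hb
    rw [hS] at hb ⊢
    have hfix : G.map (twist ζ) = G := by
      rw [hG, Polynomial.map_map]
      congr 1
      refine RingHom.ext fun z => ?_
      simp only [hσ', RingHom.comp_apply]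
      rw [twist_qExpand, hζ.pow_eq_one, twist_one_apply]
    have h1 := congrArg (twist ζ) hb
    rw [map_zero, ← Polynomial.eval_map_apply, hfix] at h1
    have heq : twist ζ (subRoot p ζ 1 m (some b)) = subRoot p ζ 1 m (some b') := by
      have hpow : ζ ^ (b' : ℕ) = ζ ^ (m + (b : ℕ)) := by
        rw [pow_eq_pow_iff_modEq, ← hζ.eq_orderOf, ← ZMod.natCast_eq_natCast_iff, hbb]
        push_cast
        ring
      rw [subRoot, subRoot, twist_sj, one_mul, one_mul, ← _root_.pow_add, hpow]
    rwa [heq] at h1
  have hSpos : 0 < S.card := by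
    rw [hScard, hGdeg]
    exact minpoly.natDegree_pos hint
  have hsome : ∀ {b₀ : Fin p}, some b₀ ∈ S → ∀ b, some b ∈ S := fun h₀ b =>
    orbit_full p m hpm S hstab h₀ b
  let zero' : Fin p := ⟨0, hpp.pos⟩
  have hdeg : (e = 0 → g.natDegree = p + 1) ∧ (0 < e → g.natDegree = p) ∧ some zero' ∈ S := by
    rcases Nat.eq_zero_or_pos e with he | he
    · have huniv : S = Finset.univ := by
        by_contra hne
        obtain ⟨y, hy⟩ : ∃ y : E, qa.eval y = 0 := by
          by_cases hb : ∃ b₀ : Fin p, some b₀ ∈ S
          · obtain ⟨b₀, hb₀⟩ := hb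
            obtain ⟨H, hH⟩ := hgdvd
            have hnone : none ∉ S := fun h => hne (Finset.eq_univ_iff_forall.2 fun i => by
              cases i with
              | none => exact h
              | some b => exact hsome hb₀ b)
            have hScard' : S.card = p := by
              rw [show S = Finset.univ.erase none from ?_, Finset.card_erase_of_mem (Finset.mem_univ _),
                Finset.card_univ, Fintype.card_option, Fintype.card_fin, Nat.add_sub_cancel]
              ext i
              cases i with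
              | none => simp [hnone]
              | some b => simp [hsome hb₀ b]
            have hHm : H.Monic := (minpoly.monic hint).of_mul_monic_left (hH ▸ hqm)
            have hHd : H.natDegree = 1 := by
              have := congrArg Polynomial.natDegree hH
              rw [hqdeg, (minpoly.monic hint).natDegree_mul hHm, ← hGdeg, ← hScard, hScard'] at this
              omega
            refine ⟨-H.coeff 0, ?_⟩
            rw [hH, Polynomial.eval_mul, hHm.eq_X_add_C hHd]
            simp
          · have h1 : S.card ≤ 1 := by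
              refine Finset.card_le_one.2 fun i hi j hj => ?_
              cases i with
              | none =>
                cases j with
                | none => rfl
                | some b => exact absurd ⟨b, hj⟩ hb
              | some b => exact absurd ⟨b, hi⟩ hb
            obtain ⟨z, hz⟩ := minpoly.natDegree_eq_one_iff.1
              (show (minpoly E x).natDegree = 1 by rw [← hg, ← hGdeg, ← hScard]; omega)
            refine ⟨z, (algebraMap E (LaurentSeries k)).injective ?_⟩
            rw [map_zero, ← Polynomial.eval_map_apply, Polynomial.eval_map, hz]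
            exact hqroot
        have h2 : (qa.map θ).eval (θ y) = 0 := by rw [Polynomial.eval_map_apply, hy, map_zero]
        rw [hqθ, Polynomial.eval_prod, Finset.prod_eq_zero_iff] at h2
        obtain ⟨i₀, -, hi₀⟩ := h2
        rw [Polynomial.eval_sub, Polynomial.eval_X, Polynomial.eval_C, sub_eq_zero] at hi₀
        refine no_root M p ?_ hk hfin ζ hζ y i₀ ?_
        · rw [hM, he, pow_zero, one_mul]; exact hpm
        · rw [← subRoot_congr p ζ 1 (by rw [he, pow_zero] : p ^ e = 1)]
          exact hi₀
      refine ⟨fun _ => ?_, fun h => absurd h (by omega), by rw [huniv]; exact Finset.mem_univ _⟩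
      rw [← hGdeg, ← hScard, huniv, Finset.card_univ, Fintype.card_option, Fintype.card_fin]
    · obtain ⟨e', rfl⟩ : ∃ e', e = e' + 1 := ⟨e - 1, by omega⟩
      have hnone : none ∉ S := by
        intro h
        rw [hS] at h
        have hy' : p ^ e' ∣ M := dvd_trans (pow_dvd_pow p (Nat.le_succ e')) hpeM
        set y : E := ⟨_, mem_towerField hpp hy'⟩ with hy
        have hσy : σ' y = subRoot p ζ 1 m none := by
          rw [hσ', RingHom.comp_apply, hσg p e' inferInstance hpp hy' y rfl (p * m) inferInstance
            (by rw [hM]; ring), qExpand_sj, subRoot, one_pow,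
            sj_congr (by ring : p * (p * m) = m * (p * p))]
        rw [← hσy, hG, Polynomial.eval_map_apply, map_eq_zero_iff σ' σ'.injective] at h
        have hd1 := Polynomial.degree_eq_one_of_irreducible_of_root (minpoly.irreducible hint) h
        obtain ⟨z, hz⟩ := minpoly.natDegree_eq_one_iff.1
          (Polynomial.natDegree_eq_of_degree_eq_some hd1)
        rw [hg, ← hz, minpoly.eq_X_sub_C, Polynomial.eval_sub, Polynomial.eval_X, Polynomial.eval_C,
          sub_eq_zero] at h
        have hxy : x = qExpand k (p ^ e') (jqModC k) := by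
          rw [← hz, ← h]; rfl
        rw [hx, ← sj_one, ← sj_one] at hxy
        have := Nat.pow_right_injective hpp.two_le (sj_inj hxy).2
        omega
      have h₀ : ∃ b₀, some b₀ ∈ S := by
        obtain ⟨i, hi⟩ := Finset.card_pos.1 hSpos
        cases i with
        | none => exact absurd hi hnone
        | some b => exact ⟨b, hi⟩
      obtain ⟨b₀, hb₀⟩ := h₀
      refine ⟨fun h => absurd h (by omega), fun _ => ?_, hsome hb₀ _⟩
      rw [← hGdeg, ← hScard, show S = Finset.univ.erase none from ?_,
        Finset.card_erase_of_mem (Finset.mem_univ _), Finset.card_univ, Fintype.card_option,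
        Fintype.card_fin, Nat.add_sub_cancel]
      ext i
      cases i with
      | none => simp [hnone]
      | some b => simp [hsome hb₀ b]
  obtain ⟨hdeg0, hdegpos, h0S⟩ := hdeg
  -- extend the embedding
  set r₀ : LaurentSeries k := subRoot p ζ 1 m (some zero') with hr₀
  have hr₀g : g.eval₂ σ' r₀ = 0 := by
    rw [← Polynomial.eval_map]
    exact (hS _).1 h0S
  set σ1 : E⟮x⟯ →+* LaurentSeries k := (AdjoinRoot.lift σ' r₀ hr₀g).comp
    (IntermediateField.adjoinRootEquivAdjoin E hint).symm.toRingEquiv.toRingHom with hσ1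
  have hσ1E : ∀ z : E, σ1 (algebraMap E E⟮x⟯ z) = σ' z := fun z => by
    show AdjoinRoot.lift σ' r₀ hr₀g
      ((IntermediateField.adjoinRootEquivAdjoin E hint).symm (algebraMap E E⟮x⟯ z)) = _
    rw [AlgEquiv.commutes, AdjoinRoot.algebraMap_eq, AdjoinRoot.lift_of]
  have hσ1x : σ1 (IntermediateField.AdjoinSimple.gen E x) = r₀ := by
    show AdjoinRoot.lift σ' r₀ hr₀g
      ((IntermediateField.adjoinRootEquivAdjoin E hint).symm (IntermediateField.AdjoinSimple.gen E x)) = _
    rw [← IntermediateField.adjoinRootEquivAdjoin_apply_root E hint, AlgEquiv.symm_apply_apply,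
      AdjoinRoot.lift_root]
  have hgens : ppGens k (M * p) = ppGens k M ∪ {x} := ppGens_mul_prime hpp hpeM hpeM'
  have hE' : IntermediateField.restrictScalars K E⟮x⟯ = towerField k (M * p) := by
    show _ = IntermediateField.adjoin K (ppGens k (M * p))
    rw [hgens]
    exact IntermediateField.adjoin_adjoin_left K (ppGens k M) {x}
  haveI : FiniteDimensional E E⟮x⟯ := IntermediateField.adjoin.finiteDimensional hint
  unfold GoodLevel
  rw [← hE']
  refine ⟨σ1, fun c => ?_, fun r i hne hr hdvd z hz e' he0 he' => ?_, ?_, ?_⟩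
  · have hc : algebraMap K (IntermediateField.restrictScalars K E⟮x⟯) c =
        algebraMap E E⟮x⟯ (algebraMap K E c) := rfl
    rw [hc]
    refine (hσ1E _).trans ?_
    rw [hσ', RingHom.comp_apply, hσK, qExpand_qExpand, qExpand_congr (mul_comm p M)]
  · have hmem : qExpand k (r ^ i) (jqModC k) ∈ ppGens k M ∪ {x} :=
      hgens ▸ ⟨r, i, hne, hr, hdvd, rfl⟩
    rcases hmem with ⟨r', i', hne', hr', hdvd', heq⟩ | heq
    · rw [← sj_one, ← sj_one] at heq
      have hri : r ^ i = r' ^ i' := (sj_inj heq).2
      have hdM : r ^ i ∣ M := hri ▸ hdvd'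
      obtain ⟨d, hd⟩ := hdM
      haveI : NeZero d := ⟨fun h => NeZero.ne M (by rw [hd, h, mul_zero])⟩
      set w : E := ⟨_, mem_towerField hr (Dvd.intro d hd.symm)⟩ with hw
      have hzw : z = algebraMap E E⟮x⟯ w := Subtype.ext hz
      rw [hzw]
      refine (hσ1E w).trans ?_
      rw [hσ', RingHom.comp_apply, hσg r i hne hr (Dvd.intro d hd.symm) w rfl d inferInstance
        (by rw [hd, mul_comm]), qExpand_sj]
      refine sj_congr (Nat.eq_of_mul_eq_mul_right (Nat.pos_of_ne_zero hne.out) ?_)
      rw [he', hd]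
      ring
    · rw [Set.mem_singleton_iff] at heq
      have hzx : z = IntermediateField.AdjoinSimple.gen E x := Subtype.ext (hz.trans heq)
      rw [hzx]
      refine hσ1x.trans ?_
      rw [hx, ← sj_one, ← sj_one] at heq
      have hri : r ^ i = p ^ (e + 1) := (sj_inj heq).2
      rw [hr₀, subRoot]
      simp only [zero', pow_zero, mul_one]
      refine sj_congr (Nat.eq_of_mul_eq_mul_right (pow_pos hpp.pos (e + 1)) ?_)
      rw [← hri, he', hri, hM, pow_succ]
      ring
  · haveI : Module.Finite K E⟮x⟯ := Module.Finite.trans E E⟮x⟯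
    exact this
  · have hrk : Module.finrank K (IntermediateField.restrictScalars K E⟮x⟯) =
        Module.finrank K E * g.natDegree := by
      rw [← IntermediateField.adjoin.finrank hint]
      exact (Module.finrank_mul_finrank K E E⟮x⟯).symm
    rw [hrk]
    have hcop : ∀ t, (p ^ t).Coprime m := fun t =>
      Nat.Coprime.pow_left t ((Nat.Prime.coprime_iff_not_dvd hpp).2 hpm)
    rcases Nat.eq_zero_or_pos e with he | he
    · rw [hdeg0 he]
      have hMm : M = m := by rw [hM, he, pow_zero, one_mul]
      rw [congrArg dedekindPsi hMm] at hdim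
      rw [hMm]
      have h2 := FA.Dim.dedekindPsi_mul (hcop 1)
      rw [pow_one] at h2
      rw [mul_comm m p, h2, dedekindPsi_prime hpp, mul_comm]
      exact Nat.mul_le_mul_right _ hdim
    · rw [hdegpos he]
      obtain ⟨e', rfl⟩ : ∃ e', e = e' + 1 := ⟨e - 1, by omega⟩
      rw [congrArg dedekindPsi hM, FA.Dim.dedekindPsi_mul (hcop _),
        FA.Dim.dedekindPsi_prime_pow hpp] at hdim
      rw [hM, show p ^ (e' + 1) * m * p = p ^ (e' + 2) * m by ring,
        FA.Dim.dedekindPsi_mul (hcop _), FA.Dim.dedekindPsi_prime_pow hpp]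
      calc (p ^ (e' + 1 + 1) + p ^ (e' + 1)) * dedekindPsi m
          = (p ^ (e' + 1) + p ^ e') * dedekindPsi m * p := by ring
        _ ≤ _ := Nat.mul_le_mul_right _ hdim

theorem goodLevel (N : ℕ) [NeZero N] (hk : ∀ r : ℕ, r.Prime → r ∣ N → (r : k) ≠ 0) :
    GoodLevel k N := by
  revert hk
  induction N using Nat.strong_induction_on generalizing ‹NeZero N› with
  | _ N ih =>
    intro hk
    rcases eq_or_ne N 1 with rfl | hN1
    · exact goodLevel_one
    obtain ⟨p, hp, hpN⟩ := Nat.exists_prime_and_dvd hN1
    obtain ⟨M, hMN⟩ := hpN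
    have hN0 : N ≠ 0 := NeZero.ne N
    rw [mul_comm] at hMN
    subst hMN
    have hM0 : M ≠ 0 := fun h => hN0 (by rw [h, zero_mul])
    haveI : NeZero M := ⟨hM0⟩
    haveI : Fact p.Prime := ⟨hp⟩
    obtain ⟨e, m, hpm, hM⟩ := Nat.exists_eq_pow_mul_and_not_dvd hM0 p hp.ne_one
    haveI : NeZero m := ⟨fun h => hM0 (by rw [hM, h, mul_zero])⟩
    exact goodLevel_mul_prime p e m M hM hpm hk
      (ih M (lt_mul_of_one_lt_right (Nat.pos_of_ne_zero hM0) hp.one_lt)
        fun r hr h => hk r hr (h.mul_right p))

/-- `ψ(N)` monomials in the `j(q^d)`, `d ∣ N`, independent over `k(j)`. -/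
theorem exists_indep (N : ℕ) [NeZero N] (hk : ∀ r : ℕ, r.Prime → r ∣ N → (r : k) ≠ 0) :
    ∃ w : Fin (dedekindPsi N) → LaurentSeries k,
      (∀ i, w i ∈ Submonoid.closure (ppGens k N)) ∧ LinearIndependent (baseJ k) w := by
  obtain ⟨-, -, -, hfin, hdim⟩ := goodLevel (k := k) N hk
  haveI := hfin
  haveI : Algebra.IsAlgebraic (baseJ k) (towerField k N) := Algebra.IsAlgebraic.of_finite _ _
  have halg : ∀ x ∈ ppGens k N, IsAlgebraic (baseJ k) x := fun x hx => by
    have h := Algebra.IsAlgebraic.isAlgebraic (R := baseJ k)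
      (⟨x, IntermediateField.subset_adjoin _ _ hx⟩ : towerField k N)
    exact h.algHom (towerField k N).val
  have hspan : Submodule.span (baseJ k) (Submonoid.closure (ppGens k N) : Set (LaurentSeries k)) =
      Subalgebra.toSubmodule (towerField k N).toSubalgebra := by
    rw [IntermediateField.adjoin_toSubalgebra_of_isAlgebraic halg,
      Algebra.adjoin_eq_span]
  obtain ⟨b, hb, hbspan, hbli⟩ := exists_linearIndependent (baseJ k)
    (Submonoid.closure (ppGens k N) : Set (LaurentSeries k))
  have hcard : Module.finrank (baseJ k) (towerField k N) = Nat.card b := by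
    rw [← Module.finrank_eq_nat_card_basis (Module.Basis.span hbli), Subtype.range_coe_subtype,
      Set.ofPred_mem_eq, hbspan, hspan]
    rfl
  have hpos : 0 < Nat.card b := hcard ▸ Module.finrank_pos
  haveI : Finite b := (Nat.card_pos_iff.1 hpos).2
  haveI := Fintype.ofFinite b
  obtain ⟨f⟩ : Nonempty (Fin (dedekindPsi N) ↪ b) := by
    refine Function.Embedding.nonempty_of_card_le ?_
    rw [Fintype.card_fin, ← Nat.card_eq_fintype_card, ← hcard]
    exact hdim
  exact ⟨fun i => f i, fun i => hb (f i).2, hbli.comp f f.injective⟩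

end FA.ModField
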