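import Fermat.Agent.ModField.Laurent
import Fermat.Prelude.Def_ModularCurve_X0ModL

/-!
# Substitutions `T ↦ b T^e` in Laurent series and the series `j(b T^e)`
-/

set_option autoImplicit false
set_option linter.style.haveILetI false
set_option linter.unusedSectionVars false

noncomputable section

namespace FA.ModField

open HahnSeries ModularCurve

variable {R : Type*} [CommRing R]

theorem twist_qExpand (c : Rˣ) (e : ℕ) [NeZero e] (f : LaurentSeries R) :
    twist c (qExpand R e f) = qExpand R e (twist (c ^ e) f) := by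
  ext n
  by_cases h : (e : ℤ) ∣ n
  · obtain ⟨m, rfl⟩ := h
    rw [twist_coeff, qExpand_coeff_mul, qExpand_coeff_mul, twist_coeff, zpow_mul, zpow_natCast]
  · rw [twist_coeff, qExpand_coeff_of_not_dvd e f h, mul_zero, qExpand_coeff_of_not_dvd e _ h]

theorem coeffMap_twist {S : Type*} [CommRing S] (φ : R →+* S) (c : Rˣ) (f : LaurentSeries R) :
    coeffMap φ (twist c f) = twist (Units.map (φ : R →* S) c) (coeffMap φ f) := by
  ext n
  rw [coeffMap_coeff, twist_coeff, twist_coeff, coeffMap_coeff, map_mul, ← map_zpow,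
    Units.coe_map]
  rfl

theorem thetaFun_qExpand (e : ℕ) [NeZero e] (f : LaurentSeries R) :
    thetaFun (qExpand R e f) = HahnSeries.C (e : R) * qExpand R e (thetaFun f) := by
  ext n
  rw [HahnSeries.C_apply, coeff_single_zero_mul, thetaFun_coeff]
  by_cases h : (e : ℤ) ∣ n
  · obtain ⟨m, rfl⟩ := h
    rw [qExpand_coeff_mul, qExpand_coeff_mul, thetaFun_coeff]
    push_cast
    ring
  · rw [qExpand_coeff_of_not_dvd e f h, qExpand_coeff_of_not_dvd e _ h, mul_zero, mul_zero]

theorem coeffMap_thetaFun {S : Type*} [CommRing S] (φ : R →+* S) (f : LaurentSeries R) :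
    coeffMap φ (thetaFun f) = thetaFun (coeffMap φ f) := by
  ext n
  simp [coeffMap_coeff]

theorem coeffMap_injective' {S : Type*} [CommRing S] {φ : R →+* S} (hφ : Function.Injective φ) :
    Function.Injective (coeffMap φ) := fun _ _ h => HahnSeries.ext (funext fun n =>
  hφ (congrArg (fun s : LaurentSeries S => s.coeff n) h))

theorem coeffMap_C {S : Type*} [CommRing S] (φ : R →+* S) (r : R) :
    coeffMap φ (HahnSeries.C r) = HahnSeries.C (φ r) := by
  rw [HahnSeries.C_apply, HahnSeries.C_apply, coeffMap_single]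

/-! ### `j(b T^e)` -/

variable (R) in
/-- The series `j(b T^e)`. -/
def sj (b : Rˣ) (e : ℕ) [NeZero e] : LaurentSeries R := qExpand R e (twist b (jqModC R))

theorem sj_congr {b : Rˣ} {e e' : ℕ} [NeZero e] [NeZero e'] (h : e = e') :
    sj R b e = sj R b e' := by subst h; rfl

theorem sj_one (e : ℕ) [NeZero e] : sj R 1 e = qExpand R e (jqModC R) := by
  rw [sj, twist_one_apply]

theorem qExpand_sj (d : ℕ) [NeZero d] (b : Rˣ) (e : ℕ) [NeZero e] :
    qExpand R d (sj R b e) = sj R b (d * e) := qExpand_qExpand _ _ _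

theorem twist_sj (c : Rˣ) (b : Rˣ) (e : ℕ) [NeZero e] :
    twist c (sj R b e) = sj R (c ^ e * b) e := by
  rw [sj, twist_qExpand, twist_twist, sj]

theorem coeffMap_sj {S : Type*} [CommRing S] (φ : R →+* S) (b : Rˣ) (e : ℕ) [NeZero e] :
    coeffMap φ (sj R b e) = sj S (Units.map (φ : R →* S) b) e := by
  rw [sj, coeffMap_qExpand, coeffMap_twist, coeffMap_jqModC, sj]

theorem sj_coeff (b : Rˣ) (e : ℕ) [NeZero e] :
    (sj R b e).coeff (-(e : ℤ)) = ((b⁻¹ : Rˣ) : R) := by
  rw [sj, show -(e : ℤ) = (e : ℤ) * (-1) by ring, qExpand_coeff_mul, twist_coeff,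
    coeff_jqModC_neg_one, mul_one, zpow_neg_one]

theorem sj_ordGE (b : Rˣ) (e : ℕ) [NeZero e] : OrdGE (-(e : ℤ)) (sj R b e) := by
  intro i hi
  rw [sj]
  by_cases h : (e : ℤ) ∣ i
  · obtain ⟨m, rfl⟩ := h
    have he : (0 : ℤ) < e := by exact_mod_cast Nat.pos_of_ne_zero (NeZero.ne e)
    rw [qExpand_coeff_mul, twist_coeff, coeff_jqModC_of_lt R (by nlinarith), mul_zero]
  · exact qExpand_coeff_of_not_dvd e _ h

theorem sj_inj [Nontrivial R] {b b' : Rˣ} {e e' : ℕ} [NeZero e] [NeZero e']
    (h : sj R b e = sj R b' e') : b = b' ∧ e = e' := by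
  have key : ∀ (c c' : Rˣ) (d d' : ℕ) [NeZero d] [NeZero d'],
      sj R c d = sj R c' d' → d ≤ d' := by
    intro c c' d d' _ _ h
    by_contra hlt
    have h1 := sj_ordGE c' d' (-(d : ℤ)) (by omega)
    rw [← h, sj_coeff] at h1
    exact Units.ne_zero _ h1
  have he : e = e' := le_antisymm (key _ _ _ _ h) (key _ _ _ _ h.symm)
  subst he
  have h1 := congrArg (fun s : LaurentSeries R => s.coeff (-(e : ℤ))) h
  simp only [sj_coeff] at h1
  exact ⟨inv_injective (Units.ext h1), rfl⟩

theorem sj_ne_qExpand [Nontrivial R] (b : Rˣ) (e : ℕ) [NeZero e] (d : ℕ) [NeZero d]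
    (hde : ¬ d ∣ e) (f : LaurentSeries R) : sj R b e ≠ qExpand R d f := by
  intro h
  have h1 : (sj R b e).coeff (-(e : ℤ)) = 0 := by
    rw [h]
    exact qExpand_coeff_of_not_dvd d f (by rwa [dvd_neg, Int.natCast_dvd_natCast])
  rw [sj_coeff] at h1
  exact Units.ne_zero _ h1

/-! ### Evaluation of polynomials at `j(T^e)` -/

variable (R) in
/-- `P ↦ P(j(T^e))`. -/
def evalJ (e : ℕ) [NeZero e] : Polynomial R →+* LaurentSeries R :=
  Polynomial.eval₂RingHom HahnSeries.C (qExpand R e (jqModC R))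

@[simp]
theorem evalJ_C (e : ℕ) [NeZero e] (r : R) : evalJ R e (Polynomial.C r) = HahnSeries.C r := by
  simp [evalJ]

@[simp]
theorem evalJ_X (e : ℕ) [NeZero e] : evalJ R e Polynomial.X = qExpand R e (jqModC R) := by
  simp [evalJ]

theorem qExpand_evalJ (d e : ℕ) [NeZero d] [NeZero e] (P : Polynomial R) :
    qExpand R d (evalJ R e P) = evalJ R (d * e) P := by
  induction P using Polynomial.induction_on with
  | C a => rw [evalJ_C, evalJ_C, qExpand_C]
  | add p q hp hq => simp [hp, hq]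
  | monomial n a _ =>
    simp only [map_mul, map_pow, evalJ_C, evalJ_X, qExpand_C, qExpand_qExpand]

theorem coeffMap_evalJ {S : Type*} [CommRing S] (φ : R →+* S) (e : ℕ) [NeZero e]
    (P : Polynomial R) : coeffMap φ (evalJ R e P) = evalJ S e (P.map φ) := by
  induction P using Polynomial.induction_on with
  | C a => rw [evalJ_C, coeffMap_C, Polynomial.map_C, evalJ_C]
  | add p q hp hq => simp [hp, hq]
  | monomial n a _ =>
    simp only [Polynomial.map_mul, Polynomial.map_pow, Polynomial.map_C, Polynomial.map_X, map_mul,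
      map_pow, evalJ_C, evalJ_X, coeffMap_C, coeffMap_qExpand, coeffMap_jqModC]

theorem jpow_coeff (e : ℕ) [NeZero e] (n : ℕ) :
    (qExpand R e (jqModC R) ^ n).coeff (-((e : ℤ) * n)) = 1 := by
  rw [← map_pow, ← mul_neg, qExpand_coeff_mul]
  exact coeff_jqModC_pow_self R n

theorem jpow_coeff_lt (e : ℕ) [NeZero e] (n : ℕ) {i : ℤ} (hi : i < -((e : ℤ) * n)) :
    (qExpand R e (jqModC R) ^ n).coeff i = 0 := by
  rw [← map_pow]
  by_cases h : (e : ℤ) ∣ i
  · obtain ⟨m, rfl⟩ := h
    rw [qExpand_coeff_mul]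
    refine coeff_jqModC_pow_of_lt R (b := n) ?_
    have he : (0 : ℤ) < e := by exact_mod_cast Nat.pos_of_ne_zero (NeZero.ne e)
    nlinarith
  · exact qExpand_coeff_of_not_dvd e _ h

theorem evalJ_ordGE (e : ℕ) [NeZero e] (P : Polynomial R) :
    OrdGE (-((e : ℤ) * P.natDegree)) (evalJ R e P) := by
  intro i hi
  rw [evalJ, Polynomial.coe_eval₂RingHom, Polynomial.eval₂_eq_sum_range, coeff_sum]
  refine Finset.sum_eq_zero fun k hk => ?_
  rw [HahnSeries.C_apply, coeff_single_zero_mul, jpow_coeff_lt e k, mul_zero]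
  have h1 : (k : ℤ) ≤ P.natDegree := by
    exact_mod_cast Nat.lt_succ_iff.1 (Finset.mem_range.1 hk)
  have he : (0 : ℤ) < e := by exact_mod_cast Nat.pos_of_ne_zero (NeZero.ne e)
  nlinarith

theorem evalJ_coeff_lead (e : ℕ) [NeZero e] (P : Polynomial R) :
    (evalJ R e P).coeff (-((e : ℤ) * P.natDegree)) = P.leadingCoeff := by
  rw [evalJ, Polynomial.coe_eval₂RingHom, Polynomial.eval₂_eq_sum_range, coeff_sum,
    Finset.sum_eq_single P.natDegree]
  · rw [HahnSeries.C_apply, coeff_single_zero_mul, jpow_coeff, mul_one]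
    rfl
  · intro k hk hne
    rw [HahnSeries.C_apply, coeff_single_zero_mul, jpow_coeff_lt e k, mul_zero]
    have h1 : (k : ℤ) < P.natDegree := by
      exact_mod_cast lt_of_le_of_ne (Nat.lt_succ_iff.1 (Finset.mem_range.1 hk)) hne
    have he : (0 : ℤ) < e := by exact_mod_cast Nat.pos_of_ne_zero (NeZero.ne e)
    nlinarith
  · simp

theorem evalJ_injective (e : ℕ) [NeZero e] : Function.Injective (evalJ R e) := by
  rw [injective_iff_map_eq_zero]
  intro P hP
  by_contra h
  exact h (Polynomial.leadingCoeff_eq_zero.1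
    (by rw [← evalJ_coeff_lead e P, hP]; rfl))

end FA.ModField
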