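import Fermat.Agent.ModField.Degree
import Fermat.Agent.ModField.Igusa.Series
import Fermat.Agent.Dim.PsiSum

/-!
# The conjugates of `j(pz)` and of `p¹² Δ(pz)/Δ(z)` for a prime `p`

Both satisfy monic equations over `R[j]` with the expected roots, for `R = ℤ[ζ_p]` and hence over
every field containing a primitive `p`-th root of unity.
-/

set_option autoImplicit false
set_option linter.style.haveILetI false
set_option linter.unusedSectionVars false
set_option synthInstance.maxHeartbeats 200000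
set_option maxHeartbeats 1600000

noncomputable section

namespace FA.ModField

open UpperHalfPlane hiding I
open Complex HahnSeries CongruenceSubgroup ModularCurve
open scoped MatrixGroups Topology Manifold

/-! ### The series `Δ⁻¹` -/

/-- The series of `1/Δ`. -/
def dinvq (R : Type*) [CommRing R] : LaurentSeries R :=
  single (-1 : ℤ) 1 * ofPowerSeries ℤ R (dedekindEtaUnitInv.map (Int.castRingHom R))

theorem deltaq_mul_dinvq (R : Type*) [CommRing R] : deltaq R * dinvq R = 1 := by
  rw [deltaq, dinvq, mul_mul_mul_comm, single_mul_single, ← map_mul (ofPowerSeries ℤ R),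
    ← map_mul (PowerSeries.map (Int.castRingHom R)), dedekindEtaUnit_mul_inv, map_one, map_one,
    mul_one]
  simp

theorem coeffMap_deltaq {R S : Type*} [CommRing R] [CommRing S] (φ : R →+* S) :
    coeffMap φ (deltaq R) = deltaq S := by
  rw [deltaq, deltaq, map_mul, coeffMap_single, map_one, coeffMap_ofPowerSeries,
    ← RingHom.comp_apply (PowerSeries.map φ) (PowerSeries.map (Int.castRingHom R)),
    ← PowerSeries.map_comp, RingHom.ext_int (φ.comp (Int.castRingHom R)) (Int.castRingHom S)]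

theorem coeffMap_dinvq {R S : Type*} [CommRing R] [CommRing S] (φ : R →+* S) :
    coeffMap φ (dinvq R) = dinvq S := by
  rw [dinvq, dinvq, map_mul, coeffMap_single, map_one, coeffMap_ofPowerSeries,
    ← RingHom.comp_apply (PowerSeries.map φ) (PowerSeries.map (Int.castRingHom R)),
    ← PowerSeries.map_comp, RingHom.ext_int (φ.comp (Int.castRingHom R)) (Int.castRingHom S)]

theorem dinvq_coeff {R : Type*} [CommRing R] :
    OrdGE (-1) (dinvq R) ∧ (dinvq R).coeff (-1) = 1 := by
  constructor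
  · intro i hi
    rw [dinvq, coeff_single_mul, one_mul]
    exact ofPowerSeries_coeff_of_neg _ (by omega)
  · rw [dinvq, coeff_single_mul, one_mul, sub_self, show (0 : ℤ) = ((0 : ℕ) : ℤ) from rfl,
      ofPowerSeries_apply_coeff, PowerSeries.coeff_map, PowerSeries.coeff_zero_eq_constantCoeff,
      constantCoeff_dedekindEtaUnitInv, map_one]

theorem hasExp_inv_discriminant :
    HasExp (qp 1) (fun z => (ModularForm.discriminant z)⁻¹) (dinvq ℂ) := by
  have h := (hasExp_single (T := qp 1) (-1) 1).mul (qp_ne_zero 1) hasExp_inv_etaUnit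
  rw [dinvq]
  refine h.congr (funext fun z => ?_)
  obtain ⟨c, hc⟩ : ∃ c : ℂ, (∏' n : ℕ, (1 - qp 1 z ^ (n + 1))) = c := ⟨_, rfl⟩
  have hΔ : ModularForm.discriminant z = qp 1 z * c ^ 24 := by
    have hq : qp 1 z = Function.Periodic.qParam (1 : ℝ) (z : ℂ) := by simp [qp]
    rw [← hc, ModularForm.discriminant_eq_q_prod, ← hq,
      ← (ModularForm.multipliable_one_sub_pow (norm_qp_lt_one 1 z)).tprod_pow 24]
    simp only [ModularForm.eta_q, ← hq]
  simp only [Pi.mul_apply, hc, one_mul, zpow_neg_one, hΔ, mul_inv, inv_pow]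

/-! ### Representatives of the cosets of `Γ₀(p)` -/

/-- `(z + b) / p`. -/
def divH (p b : ℕ) [NeZero p] (z : ℍ) : ℍ :=
  ⟨((z : ℂ) + b) / p, by
    rw [Complex.div_natCast_im]
    exact div_pos (by simpa using z.im_pos) (by exact_mod_cast Nat.pos_of_ne_zero (NeZero.ne p))⟩

@[simp]
theorem coe_divH (p b : ℕ) [NeZero p] (z : ℍ) : (divH p b z : ℂ) = ((z : ℂ) + b) / p := rfl

theorem qp_divH (p b : ℕ) [NeZero p] (z : ℍ) :
    qp 1 (divH p b z) = ((zetaN p ^ b : ℂˣ) : ℂ) * qp p z ^ 1 := by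
  rw [qp_eq, qp_eq, pow_one, Units.val_pow_eq_pow_val, zetaN, Units.val_mk0, ← Complex.exp_nat_mul,
    ← Complex.exp_add, coe_divH]
  congr 1
  push_cast
  ring

theorem coe_T_pow_smul (b : ℕ) (z : ℍ) : ((ModularGroup.T ^ b • z : ℍ) : ℂ) = (z : ℂ) + b := by
  induction b with
  | zero => simp
  | succ b ih =>
    rw [pow_succ', mul_smul, modular_T_smul, coe_vadd, ih]
    push_cast
    ring

theorem scale_S_T_pow (p b : ℕ) [NeZero p] (z : ℍ) :
    scaleH p ((ModularGroup.S * ModularGroup.T ^ b) • z) = ModularGroup.S • divH p b z := by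
  ext
  rw [coe_scaleH, mul_smul, modular_S_smul, modular_S_smul]
  show (p : ℂ) * (-((ModularGroup.T ^ b • z : ℍ) : ℂ))⁻¹ = (-(divH p b z : ℂ))⁻¹
  rw [coe_T_pow_smul, coe_divH, inv_neg, inv_neg, inv_div, mul_neg, div_eq_mul_inv]

/-- Every matrix is in `Γ₀(p)` or congruent to some `S T^b`. -/
theorem exists_rep (p : ℕ) [Fact p.Prime] (γ : SL(2, ℤ)) :
    γ ∈ Gamma0 p ∨
      ∃ b : ℕ, b < p ∧ γ * (ModularGroup.S * ModularGroup.T ^ b)⁻¹ ∈ Gamma0 p := by
  by_cases h : ((γ 1 0 : ℤ) : ZMod p) = 0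
  · exact Or.inl (Gamma0_mem.2 h)
  refine Or.inr ⟨(((γ 1 1 : ℤ) : ZMod p) * ((γ 1 0 : ℤ) : ZMod p)⁻¹).val, ZMod.val_lt _,
    Gamma0_mem.2 ?_⟩
  set b := (((γ 1 1 : ℤ) : ZMod p) * ((γ 1 0 : ℤ) : ZMod p)⁻¹).val with hb
  have e : (ModularGroup.S * ModularGroup.T ^ b)⁻¹ =
      ModularGroup.T ^ (-(b : ℤ)) * ModularGroup.S⁻¹ := by
    rw [mul_inv_rev, zpow_neg, zpow_natCast]
  have e' : (γ * (ModularGroup.S * ModularGroup.T ^ b)⁻¹) 1 0 = (b : ℤ) * γ 1 0 - γ 1 1 := by
    rw [e, Matrix.SpecialLinearGroup.coe_mul, Matrix.SpecialLinearGroup.coe_mul,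
      ModularGroup.coe_T_zpow, Matrix.SpecialLinearGroup.coe_inv, ModularGroup.coe_S]
    simp [Matrix.adjugate_fin_two, Matrix.mul_apply, Fin.sum_univ_two]
    ring
  rw [e', Int.cast_sub, Int.cast_mul, Int.cast_natCast, hb, ZMod.natCast_val, ZMod.cast_id,
    mul_assoc, inv_mul_cancel₀ h, mul_one, sub_self]

theorem mem_modFuns_of_reps {p : ℕ} [Fact p.Prime] {f : ℍ → ℂ} (hm : MDiff f)
    (hinv : ∀ γ ∈ Gamma0 p, ∀ z, f (γ • z) = f z) {L : LaurentSeries ℂ} (h1 : HasExp (qp 1) f L)
    (hb : ∀ b : ℕ, ∃ M, HasExp (qp p) (fun z => f ((ModularGroup.S * ModularGroup.T ^ b) • z)) M) :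
    f ∈ modFuns p := by
  refine ⟨hm, hinv, ⟨L, h1⟩, fun γ => ?_⟩
  rcases exists_rep p γ with h | ⟨b, -, h⟩
  · have h' := h1.comp (U := qp p) id p 1 (fun z => by simp [qp_pow_self])
    exact ⟨_, h'.congr (funext fun z => (hinv γ h z).symm)⟩
  · obtain ⟨M, hM⟩ := hb b
    refine ⟨M, hM.congr (funext fun z => ?_)⟩
    rw [← hinv _ h ((ModularGroup.S * ModularGroup.T ^ b) • z), smul_smul, inv_mul_cancel_right]

/-! ### The two functions -/

/-- `p¹² Δ(pz)/Δ(z)`. -/
def unitFun (p : ℕ) [NeZero p] (z : ℍ) : ℂ :=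
  (p : ℂ) ^ 12 * (ModularForm.discriminant (scaleH p z) * (ModularForm.discriminant z)⁻¹)

theorem mdiff_comp_scale {f : ℍ → ℂ} (hf : MDiff f) (d : ℕ) [NeZero d] :
    MDiff (fun z => f (scaleH d z)) := by
  have him : ∀ w : ℂ, 0 < w.im → 0 < ((d : ℂ) * w).im := by
    intro w hw
    simp only [Complex.mul_im, Complex.natCast_re, Complex.natCast_im, zero_mul, add_zero]
    exact mul_pos (by exact_mod_cast Nat.pos_of_ne_zero (NeZero.ne d)) hw
  rw [UpperHalfPlane.mdifferentiable_iff]
  intro w hw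
  have h2 : DifferentiableAt ℂ (f ∘ ofComplex) ((d : ℂ) * w) :=
    (UpperHalfPlane.mdifferentiable_iff.1 hf).differentiableAt
      (isOpen_upperHalfPlaneSet.mem_nhds (him w hw))
  refine ((h2.comp w (differentiableAt_id.const_mul _)).differentiableWithinAt).congr ?_ ?_
  · intro x hx
    simp [Function.comp_apply, ofComplex_apply_of_im_pos hx,
      ofComplex_apply_of_im_pos (him x hx), scaleH]
  · simp [Function.comp_apply, ofComplex_apply_of_im_pos hw,
      ofComplex_apply_of_im_pos (him w hw), scaleH]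

theorem unitFun_smul (p : ℕ) [NeZero p] {γ : SL(2, ℤ)} (hγ : γ ∈ Gamma0 p) (z : ℍ) :
    unitFun p (γ • z) = unitFun p z := by
  rw [Gamma0_mem, ZMod.intCast_zmod_eq_zero_iff_dvd] at hγ
  obtain ⟨c, hc⟩ := hγ
  have hdet : γ 0 0 * γ 1 1 - γ 0 1 * γ 1 0 = 1 := by
    have := γ.det_coe; rwa [Matrix.det_fin_two] at this
  obtain ⟨γ', hγ'⟩ : ∃ γ' : SL(2, ℤ),
      (γ' : Matrix (Fin 2) (Fin 2) ℤ) = !![γ 0 0, (p : ℤ) * γ 0 1; c, γ 1 1] :=
    ⟨⟨_, by rw [Matrix.det_fin_two_of]; linear_combination hdet + γ 0 1 * hc⟩, rfl⟩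
  have hc' : ((γ 1 0 : ℤ) : ℂ) = (p : ℂ) * c := by exact_mod_cast hc
  have hsc : scaleH p (γ • z) = γ' • scaleH p z := by
    ext
    rw [coe_scaleH, coe_smul_int, coe_smul_int, hγ']
    simp only [Matrix.of_apply, Matrix.cons_val',
      Matrix.cons_val_zero, Matrix.cons_val_one, Matrix.empty_val', Matrix.cons_val_fin_one,
      coe_scaleH, Int.cast_mul, Int.cast_natCast, hc']
    rw [← mul_div_assoc]
    congr 1 <;> ring
  have hden : denom γ' (scaleH p z) = denom γ z := by
    rw [ModularGroup.denom_apply, ModularGroup.denom_apply, hγ']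
    simp only [Matrix.of_apply, Matrix.cons_val',
      Matrix.cons_val_zero, Matrix.cons_val_one, Matrix.empty_val', Matrix.cons_val_fin_one,
      coe_scaleH, hc']
    ring
  rw [unitFun, unitFun, hsc, discriminant_smul, discriminant_smul, hden, mul_inv,
    mul_mul_mul_comm (denom γ z ^ (12 : ℤ)),
    mul_inv_cancel₀ (zpow_ne_zero _ (denom_ne_zero _ _)), one_mul]

theorem unitFun_rep (p b : ℕ) [NeZero p] (z : ℍ) :
    unitFun p ((ModularGroup.S * ModularGroup.T ^ b) • z) =
      ModularForm.discriminant (divH p b z) * (ModularForm.discriminant z)⁻¹ := by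
  have hT : ModularForm.discriminant (ModularGroup.T ^ b • z) = ModularForm.discriminant z := by
    induction b with
    | zero => simp
    | succ b ih =>
      rw [pow_succ', mul_smul, discriminant_smul, ih, ModularGroup.denom_apply]
      simp [ModularGroup.coe_T]
  have hzb : (z : ℂ) + b ≠ 0 := by
    rw [← coe_T_pow_smul]
    exact UpperHalfPlane.ne_zero _
  have hp : (p : ℂ) ≠ 0 := by exact_mod_cast NeZero.ne p
  rw [unitFun, scale_S_T_pow, discriminant_smul, mul_smul, discriminant_smul, hT, denom_S',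
    denom_S', coe_T_pow_smul, coe_divH]
  have h12 : (12 : ℤ) = ((12 : ℕ) : ℤ) := rfl
  rw [h12, zpow_natCast, zpow_natCast, div_pow, mul_inv]
  field_simp

/-! ### Expansions -/

variable (R : Type*) [CommRing R]

/-- The conjugates of `j(pz)` in the parameter `q^(1/p)`. -/
def jRoot (p : ℕ) [NeZero p] (ζ : Rˣ) : Option (Fin p) → LaurentSeries R
  | none => sj R 1 (p * p)
  | some b => sj R (ζ ^ (b : ℕ)) 1

/-- The conjugates of `p¹² Δ(pz)/Δ(z)` in the parameter `q^(1/p)`. -/
def uRoot (p : ℕ) [NeZero p] (ζ : Rˣ) : Option (Fin p) → LaurentSeries R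
  | none => HahnSeries.C ((p : R) ^ 12) *
      (qExpand R (p * p) (deltaq R) * qExpand R p (dinvq R))
  | some b => twist (ζ ^ (b : ℕ)) (deltaq R) * qExpand R p (dinvq R)

variable {R}

theorem coeffMap_jRoot {S : Type*} [CommRing S] (φ : R →+* S) (p : ℕ) [NeZero p] (ζ : Rˣ)
    (i : Option (Fin p)) :
    coeffMap φ (jRoot R p ζ i) = jRoot S p (Units.map (φ : R →* S) ζ) i := by
  cases i with
  | none => rw [jRoot, jRoot, coeffMap_sj, map_one]
  | some b => rw [jRoot, jRoot, coeffMap_sj, map_pow]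

theorem coeffMap_uRoot {S : Type*} [CommRing S] (φ : R →+* S) (p : ℕ) [NeZero p] (ζ : Rˣ)
    (i : Option (Fin p)) :
    coeffMap φ (uRoot R p ζ i) = uRoot S p (Units.map (φ : R →* S) ζ) i := by
  cases i with
  | none =>
    simp only [uRoot, map_mul, map_pow, map_natCast, coeffMap_qExpand, coeffMap_deltaq,
      coeffMap_dinvq]
  | some b =>
    simp only [uRoot, map_mul, coeffMap_twist, map_pow, coeffMap_qExpand, coeffMap_deltaq,
      coeffMap_dinvq]

theorem hasExp_poly {X : Type*} {T : X → ℂ} (hT : ∀ x, T x ≠ 0) {g : X → ℂ} {M : LaurentSeries ℂ}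
    (h : HasExp T g M) (P : Polynomial ℂ) :
    HasExp T (fun x => P.eval (g x)) (Polynomial.eval₂ HahnSeries.C M P) := by
  induction P using Polynomial.induction_on' with
  | add a b ha hb =>
    rw [Polynomial.eval₂_add]
    exact (ha.add hb).congr (funext fun x => by simp)
  | monomial n a =>
    rw [Polynomial.eval₂_monomial]
    exact ((hasExp_C a).mul hT (h.pow hT n)).congr (funext fun x => by simp)

theorem hasExp_jfun_qp (p : ℕ) [NeZero p] :
    HasExp (qp p) jfun (qExpand ℂ p (jqModC ℂ)) := by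
  have h := hasExp_jfun.comp (U := qp p) id p 1 (fun z => by simp [qp_pow_self])
  rwa [twist_one_apply] at h

theorem hasExp_jRoot (p : ℕ) [Fact p.Prime] (i : Option (Fin p)) :
    ∃ γ : SL(2, ℤ), HasExp (qp p) (fun z => jfun (scaleH p (γ • z))) (jRoot ℂ p (zetaN p) i) := by
  cases i with
  | none =>
    refine ⟨1, ?_⟩
    have h := hasExp_jfun.comp (U := qp p) (scaleH p) (p * p) 1 (fun z => by
      rw [qp_scale, Units.val_one, one_mul, pow_mul, qp_pow_self])
    rw [jRoot, sj]
    exact h.congr (funext fun z => by simp)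
  | some b =>
    refine ⟨ModularGroup.S * ModularGroup.T ^ (b : ℕ), ?_⟩
    rw [jRoot, sj]
    exact (hasExp_jfun.comp (U := qp p) (divH p b) 1 _ (qp_divH p b)).congr
      (funext fun z => by rw [scale_S_T_pow, jfun_smul]; rfl)

theorem hasExp_uRoot (p : ℕ) [Fact p.Prime] (i : Option (Fin p)) :
    ∃ γ : SL(2, ℤ), HasExp (qp p) (fun z => unitFun p (γ • z)) (uRoot ℂ p (zetaN p) i) := by
  have hinv := hasExp_inv_discriminant.comp (U := qp p) id p 1 (fun z => by simp [qp_pow_self])
  rw [twist_one_apply] at hinv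
  cases i with
  | none =>
    refine ⟨1, ?_⟩
    have h := hasExp_discriminant.comp (U := qp p) (scaleH p) (p * p) 1 (fun z => by
      rw [qp_scale, Units.val_one, one_mul, pow_mul, qp_pow_self])
    rw [twist_one_apply] at h
    rw [uRoot]
    exact ((hasExp_C ((p : ℂ) ^ 12)).mul (qp_ne_zero p) (h.mul (qp_ne_zero p) hinv)).congr
      (funext fun z => by simp [unitFun])
  | some b =>
    refine ⟨ModularGroup.S * ModularGroup.T ^ (b : ℕ), ?_⟩
    have h := hasExp_discriminant.comp (U := qp p) (divH p b) 1 _ (qp_divH p b)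
    rw [qExpand_one_apply] at h
    rw [uRoot]
    exact (h.mul (qp_ne_zero p) hinv).congr (funext fun z => by rw [unitFun_rep]; rfl)

theorem unitFun_mem (p : ℕ) [Fact p.Prime] : unitFun p ∈ modFuns p := by
  have hinv := hasExp_inv_discriminant
  have h := hasExp_discriminant.comp (U := qp 1) (scaleH p) p 1 (fun z => by
    rw [qp_scale, Units.val_one, one_mul])
  have hm : MDiff (unitFun p) := by
    have h1 : MDiff (fun z => ModularForm.discriminant (scaleH p z)) :=
      mdiff_comp_scale CuspForm.discriminant.holo' p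
    exact mdifferentiable_const.mul (h1.mul mdiff_inv_discriminant)
  refine mem_modFuns_of_reps hm (fun γ hγ z => unitFun_smul p hγ z)
    (L := HahnSeries.C ((p : ℂ) ^ 12) * (qExpand ℂ p (twist 1 (deltaq ℂ)) * dinvq ℂ))
    (((hasExp_C ((p : ℂ) ^ 12)).mul (qp_ne_zero 1) (h.mul (qp_ne_zero 1) hinv)).congr
      (funext fun z => rfl)) fun b => ?_
  have h2 := hasExp_discriminant.comp (U := qp p) (divH p b) 1 _ (qp_divH p b)
  have h3 := hasExp_inv_discriminant.comp (U := qp p) id p 1 (fun z => by simp [qp_pow_self])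
  exact ⟨_, (h2.mul (qp_ne_zero p) h3).congr (funext fun z => by rw [unitFun_rep]; rfl)⟩

theorem jRoot_injective [Nontrivial R] (p : ℕ) [Fact p.Prime] {ζ : Rˣ}
    (hζ : IsPrimitiveRoot ζ p) : Function.Injective (jRoot R p ζ) := by
  have hp := (Fact.out : p.Prime).two_le
  intro i j h
  rcases i with - | b <;> rcases j with - | c
  · rfl
  all_goals simp only [jRoot] at h
  all_goals obtain ⟨h1, h2⟩ := sj_inj h
  · nlinarith
  · nlinarith
  · exact congrArg some (Fin.ext (hζ.pow_inj b.2 c.2 h1))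

theorem uRoot_injective [Nontrivial R] (p : ℕ) [Fact p.Prime] {ζ : Rˣ}
    (hζ : IsPrimitiveRoot ζ p) : Function.Injective (uRoot R p ζ) := by
  have hp := (Fact.out : p.Prime).two_le
  have hd : OrdGE (-(p : ℤ)) (qExpand R p (dinvq R)) ∧
      (qExpand R p (dinvq R)).coeff (-(p : ℤ)) = 1 := by
    constructor
    · intro i hi
      by_cases hdvd : (p : ℤ) ∣ i
      · obtain ⟨m, rfl⟩ := hdvd
        rw [qExpand_coeff_mul]
        refine dinvq_coeff.1 m ?_
        nlinarith
      · exact qExpand_coeff_of_not_dvd p _ hdvd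
    · rw [show -(p : ℤ) = (p : ℤ) * (-1) by ring, qExpand_coeff_mul, dinvq_coeff.2]
  have hsome : ∀ b : Fin p, (uRoot R p ζ (some b)).coeff (1 + -(p : ℤ)) = ((ζ ^ (b : ℕ) : Rˣ) : R) := by
    intro b
    rw [uRoot, coeff_mul_of_ordGE (twist_ordGE.2 deltaq_coeff.1) hd.1, hd.2, mul_one, twist_coeff,
      deltaq_coeff.2, mul_one, zpow_one]
  have hnone : (uRoot R p ζ none).coeff (1 + -(p : ℤ)) = 0 := by
    have h1 : OrdGE (p * p : ℕ) (qExpand R (p * p) (deltaq R)) := by
      intro i hi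
      by_cases hdvd : ((p * p : ℕ) : ℤ) ∣ i
      · obtain ⟨m, rfl⟩ := hdvd
        rw [qExpand_coeff_mul]
        refine deltaq_coeff.1 m ?_
        nlinarith
      · exact qExpand_coeff_of_not_dvd (p * p) _ hdvd
    rw [uRoot]
    refine ((ordGE_C _).mul (h1.mul hd.1)) _ ?_
    push_cast
    nlinarith
  intro i j h
  have h' := congrArg (fun s : LaurentSeries R => s.coeff (1 + -(p : ℤ))) h
  cases i <;> cases j <;> simp only [hsome, hnone] at h'
  · rfl
  · exact absurd h'.symm (Units.ne_zero _)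
  · exact absurd h' (Units.ne_zero _)
  · rename_i b c
    exact congrArg some (Fin.ext (hζ.pow_inj b.2 c.2 (Units.ext h')))

/-! ### The equations -/

theorem dedekindPsi_prime {p : ℕ} (hp : p.Prime) : dedekindPsi p = p + 1 := by
  simpa using FA.Dim.dedekindPsi_prime_pow hp 0

theorem exists_equation_complex (p : ℕ) [Fact p.Prime] {f : ℍ → ℂ} (hf : f ∈ modFuns p)
    (r : Option (Fin p) → LaurentSeries ℂ) (hinj : Function.Injective r)
    (hr : ∀ i, ∃ γ : SL(2, ℤ), HasExp (qp p) (fun z => f (γ • z)) (r i)) :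
    ∃ Φ : Polynomial (Polynomial ℂ),
      Φ.map (evalJ ℂ p) = ∏ i, (Polynomial.X - Polynomial.C (r i)) := by
  classical
  obtain ⟨P, hPn, hP⟩ := exists_modular_equation hf
  have hn : Nat.card (FA.Dim.Cos p) = p + 1 := by
    rw [FA.Dim.card_cos, dedekindPsi_prime Fact.out]
  rw [hn] at hPn hP
  set Φ : Polynomial (Polynomial ℂ) :=
    ∑ k ∈ Finset.range (p + 1 + 1), Polynomial.C (P k) * Polynomial.X ^ k
  refine ⟨Φ, ?_⟩
  have hcoeff : ∀ k, (Φ.map (evalJ ℂ p)).coeff k =
      if k ∈ Finset.range (p + 1 + 1) then evalJ ℂ p (P k) else 0 := by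
    intro k
    simp only [Φ, Polynomial.coeff_map, Polynomial.finsetSum_coeff, Polynomial.coeff_C_mul_X_pow]
    rw [map_sum]
    simp only [apply_ite (evalJ ℂ p), map_zero, Finset.sum_ite_eq]
  set Ψ := ∏ i, (Polynomial.X - Polynomial.C (r i)) with hΨ
  have hΨd : Ψ.natDegree = p + 1 := by
    rw [hΨ, Polynomial.natDegree_finsetProd_X_sub_C_eq_card, Finset.card_univ,
      Fintype.card_option, Fintype.card_fin]
  have hΨm : Ψ.Monic := Polynomial.monic_prod_X_sub_C _ _
  set E := Φ.map (evalJ ℂ p) - Ψ with hE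
  have hEdeg : E.natDegree < Fintype.card (Option (Fin p)) := by
    rw [Fintype.card_option, Fintype.card_fin, Nat.lt_succ_iff, Polynomial.natDegree_le_iff_coeff_eq_zero]
    intro k hk
    rw [hE, Polynomial.coeff_sub, hcoeff]
    rcases lt_or_eq_of_le (show p + 1 ≤ k by omega) with hlt | heq
    · rw [if_neg (by simp; omega), Polynomial.coeff_eq_zero_of_natDegree_lt (by omega), sub_zero]
    · subst heq
      rw [if_pos (by simp), hPn, map_one, ← hΨd, hΨm.coeff_natDegree, sub_self]
  have heval : ∀ i, E.eval (r i) = 0 := by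
    intro i
    have hzero : (Φ.map (evalJ ℂ p)).eval (r i) = 0 := by
      obtain ⟨γ, hγ⟩ := hr i
      have h : HasExp (qp p) (∑ k ∈ Finset.range (p + 1 + 1),
            fun z => (P k).eval (jfun z) * f (γ • z) ^ k)
          (∑ k ∈ Finset.range (p + 1 + 1), evalJ ℂ p (P k) * r i ^ k) :=
        hasExp_sum _ fun k _ =>
          (hasExp_poly (qp_ne_zero p) (hasExp_jfun_qp p) (P k)).mul (qp_ne_zero p)
            (hγ.pow (qp_ne_zero p) k)
      have h0 : (∑ k ∈ Finset.range (p + 1 + 1),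
            fun z => (P k).eval (jfun z) * f (γ • z) ^ k) = 0 := by
        funext z
        rw [Finset.sum_apply, Pi.zero_apply, ← hP (γ • z)]
        simp only [jfun_smul]
      rw [h0] at h
      simp only [Φ, Polynomial.map_sum, Polynomial.map_mul, Polynomial.map_pow, Polynomial.map_C,
        Polynomial.map_X, Polynomial.eval_finsetSum, Polynomial.eval_mul, Polynomial.eval_pow,
        Polynomial.eval_C, Polynomial.eval_X]
      exact hasExp_eq_zero (covers_qp p) h
    rw [hE, Polynomial.eval_sub, hzero, hΨ, Polynomial.eval_prod,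
      Finset.prod_eq_zero (Finset.mem_univ i) (by simp), sub_zero]
  exact sub_eq_zero.1 (Polynomial.eq_zero_of_natDegree_lt_card_of_eval_eq_zero E hinj heval hEdeg)

/-- A complex polynomial in `j` with coefficients in `R` has coefficients in `R`. -/
theorem descend_evalJ (φ : R →+* ℂ) (hφ : Function.Injective φ) (e : ℕ) [NeZero e]
    (L : LaurentSeries R) (P : Polynomial ℂ) (h : coeffMap φ L = evalJ ℂ e P) :
    L ∈ (evalJ R e).range := by
  suffices H : ∀ (n : ℕ) (L : LaurentSeries R) (P : Polynomial ℂ), P.natDegree ≤ n →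
      coeffMap φ L = evalJ ℂ e P → L ∈ (evalJ R e).range from H _ L P le_rfl h
  intro n
  induction n with
  | zero =>
    intro L P hP hL
    rw [Polynomial.eq_C_of_natDegree_le_zero hP, evalJ_C] at hL
    refine ⟨Polynomial.C (L.coeff 0), coeffMap_injective' hφ ?_⟩
    have hc := congrArg (fun s : LaurentSeries ℂ => s.coeff 0) hL
    simp only [coeffMap_coeff, HahnSeries.C_apply, coeff_single_same] at hc
    rw [evalJ_C, coeffMap_C, hc, hL]
  | succ n ih =>
    intro L P hP hL
    rcases lt_or_eq_of_le hP with h' | h'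
    · exact ih L P (Nat.lt_succ_iff.1 h') hL
    set c := L.coeff (-((e : ℤ) * P.natDegree))
    have hc : φ c = P.leadingCoeff := by
      rw [← evalJ_coeff_lead e P, ← hL, coeffMap_coeff]
    obtain ⟨Q, hQ⟩ := ih (L - evalJ R e (Polynomial.C c * Polynomial.X ^ P.natDegree)) P.eraseLead
      ((Polynomial.eraseLead_natDegree_le P).trans (by omega)) (by
        rw [map_sub, hL, coeffMap_evalJ, ← map_sub, Polynomial.map_mul, Polynomial.map_C,
          Polynomial.map_pow, Polynomial.map_X, hc, ← Polynomial.self_sub_C_mul_X_pow])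
    exact ⟨Q + Polynomial.C c * Polynomial.X ^ P.natDegree, by
      rw [map_add, hQ, sub_add_cancel]⟩

/-- Transfer of an equation from `ℂ` to any ring receiving `R`. -/
theorem exists_equation_transfer {k : Type*} [CommRing k] (φ : R →+* ℂ)
    (hφ : Function.Injective φ) (ψ : R →+* k) {ι : Type*} [Fintype ι] (e : ℕ) [NeZero e]
    (r : ι → LaurentSeries R)
    (h : ∃ Φ : Polynomial (Polynomial ℂ), Φ.map (evalJ ℂ e) =
      ∏ i, (Polynomial.X - Polynomial.C (coeffMap φ (r i)))) :
    ∃ Φ : Polynomial (Polynomial k), Φ.map (evalJ k e) =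
      ∏ i, (Polynomial.X - Polynomial.C (coeffMap ψ (r i))) := by
  obtain ⟨Φ, hΦ⟩ := h
  have hlift : (∏ i, (Polynomial.X - Polynomial.C (r i))) ∈ Polynomial.lifts (evalJ R e) := by
    rw [Polynomial.lifts_iff_coeff_lifts]
    intro n
    refine descend_evalJ φ hφ e _ (Φ.coeff n) ?_
    rw [← Polynomial.coeff_map, ← Polynomial.coeff_map, hΦ]
    simp [Polynomial.map_prod]
  obtain ⟨Φ₀, hΦ₀⟩ := hlift
  rw [Polynomial.coe_mapRingHom] at hΦ₀
  refine ⟨Φ₀.map (Polynomial.mapRingHom ψ), ?_⟩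
  have hcomp : (evalJ k e).comp (Polynomial.mapRingHom ψ) = (coeffMap ψ).comp (evalJ R e) :=
    RingHom.ext fun P => (coeffMap_evalJ ψ e P).symm
  rw [Polynomial.map_map, hcomp, ← Polynomial.map_map, hΦ₀]
  simp [Polynomial.map_prod]

/-- The equations over any field with a primitive `p`-th root of unity. -/
theorem exists_equations (k : Type*) [Field k] (p : ℕ) [Fact p.Prime] (ζ : kˣ)
    (hζ : IsPrimitiveRoot ζ p) :
    (∃ Φ : Polynomial (Polynomial k),
      Φ.map (evalJ k p) = ∏ i, (Polynomial.X - Polynomial.C (jRoot k p ζ i))) ∧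
    ∃ Φ : Polynomial (Polynomial k),
      Φ.map (evalJ k p) = ∏ i, (Polynomial.X - Polynomial.C (uRoot k p ζ i)) := by
  have hpos : 0 < p := (Fact.out : p.Prime).pos
  set f := Polynomial.cyclotomic p ℤ with hf
  set A := AdjoinRoot f
  have hroot1 : (AdjoinRoot.root f) ^ p = 1 := by
    have h := AdjoinRoot.mk_eq_zero.2 (Polynomial.cyclotomic.dvd_X_pow_sub_one p ℤ)
    rw [map_sub, map_pow, AdjoinRoot.mk_X, map_one, sub_eq_zero] at h
    exact h
  obtain ⟨u, hu⟩ : ∃ u : Aˣ, (u : A) = AdjoinRoot.root f :=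
    ⟨(IsUnit.of_pow_eq_one hroot1 hpos.ne').unit, rfl⟩
  have hrootC : f.eval₂ (Int.castRingHom ℂ) (zetaN p : ℂ) = 0 := by
    rw [← Polynomial.eval_map, hf, Polynomial.map_cyclotomic]
    exact (zetaN_prim p).isRoot_cyclotomic hpos
  have hrootk : f.eval₂ (Int.castRingHom k) (ζ : k) = 0 := by
    rw [← Polynomial.eval_map, hf, Polynomial.map_cyclotomic]
    exact (IsPrimitiveRoot.coe_units_iff.2 hζ).isRoot_cyclotomic hpos
  set φ : A →+* ℂ := AdjoinRoot.lift (Int.castRingHom ℂ) _ hrootC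
  set ψ : A →+* k := AdjoinRoot.lift (Int.castRingHom k) _ hrootk
  have hφ : Function.Injective φ := by
    rw [injective_iff_map_eq_zero]
    intro a ha
    obtain ⟨g, rfl⟩ := AdjoinRoot.mk_surjective a
    rw [AdjoinRoot.lift_mk] at ha
    refine AdjoinRoot.mk_eq_zero.2 ?_
    rw [hf, Polynomial.cyclotomic_eq_minpoly (zetaN_prim p) hpos]
    refine minpoly.isIntegrallyClosed_dvd ((zetaN_prim p).isIntegral hpos) ?_
    rw [Polynomial.aeval_def]
    rw [algebraMap_int_eq]
    exact ha
  have hφu : Units.map (φ : A →* ℂ) u = zetaN p := Units.ext (by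
    rw [Units.coe_map]
    show φ (u : A) = _
    rw [hu]
    exact AdjoinRoot.lift_root hrootC)
  have hψu : Units.map (ψ : A →* k) u = ζ := Units.ext (by
    rw [Units.coe_map]
    show ψ (u : A) = _
    rw [hu]
    exact AdjoinRoot.lift_root hrootk)
  have hC : IsPrimitiveRoot (zetaN p) p := IsPrimitiveRoot.coe_units_iff.1 (zetaN_prim p)
  constructor
  · have h := exists_equation_transfer φ hφ ψ p (jRoot A p u) (by
      simp only [coeffMap_jRoot, hφu]
      exact exists_equation_complex p (scale_mem_modFuns p p dvd_rfl) _ (jRoot_injective p hC)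
        (hasExp_jRoot p))
    simpa only [coeffMap_jRoot, hψu] using h
  · have h := exists_equation_transfer φ hφ ψ p (uRoot A p u) (by
      simp only [coeffMap_uRoot, hφu]
      exact exists_equation_complex p (unitFun_mem p) _ (uRoot_injective p hC)
        (hasExp_uRoot p))
    simpa only [coeffMap_uRoot, hψu] using h

end FA.ModField
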