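import Fermat.Agent.ModField.Igusa.Lattice
import Fermat.Agent.ModField.Igusa.Tower
import Fermat.Prelude.Def_ModularCurve_IgusaScheme

/-!
# The chart data for the modular function field at a prime not dividing the level
-/

set_option autoImplicit false
set_option linter.style.haveILetI false
set_option linter.unusedSectionVars false
set_option synthInstance.maxHeartbeats 200000
set_option maxHeartbeats 1600000

noncomputable section

namespace FA.ModField

open HahnSeries ModularCurve IntermediateField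

/-- Generators with integral coefficients. -/
def zGens (N : ℕ) : Set (LaurentSeries ℤ) :=
  {x | ∃ (d : ℕ) (_ : NeZero d), d ∣ N ∧ x = qExpand ℤ d (jqModC ℤ)}

theorem zIncl_gen (d : ℕ) [NeZero d] :
    zIncl (qExpand ℤ d (jqModC ℤ)) = qExpand ℚ d jq := by
  rw [zIncl, coeffMap_qExpand, coeffMap_jqModC, jqModC_rat]

theorem zIncl_mem_full {N : ℕ} [NeZero N] {x : LaurentSeries ℤ}
    (hx : x ∈ Submonoid.closure (zGens N)) : zIncl x ∈ modularFunctionFieldFull N := by
  induction hx using Submonoid.closure_induction with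
  | mem y hy =>
    obtain ⟨d, hne, hd, rfl⟩ := hy
    haveI := hne
    rw [zIncl_gen]
    exact jqd_mem_full N hd
  | one => rw [map_one]; exact one_mem _
  | mul y z _ _ hy hz => rw [map_mul]; exact mul_mem hy hz

theorem isIntFrac_full {N : ℕ} [NeZero N] (x : modularFunctionFieldFull N) :
    IsIntFrac (x : LaurentSeries ℚ) := by
  have h : modularFunctionFieldFull N ≤ intFracField := by
    rw [modularFunctionFieldFull, IntermediateField.adjoin_le_iff]
    rintro _ ⟨d, hne, hd, rfl⟩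
    haveI := hne
    rw [← zIncl_gen]
    exact isIntFrac_zIncl _
  exact h x.2

variable (ℓ : ℕ) [Fact ℓ.Prime]

/-- `ψ(N)` integral monomials with reductions independent over `𝔽_ℓ[j]`. -/
theorem exists_integral_indep (N : ℕ) [NeZero N] (hℓN : ¬ ℓ ∣ N) :
    ∃ w : Fin (dedekindPsi N) → LaurentSeries ℤ,
      (∀ i, w i ∈ Submonoid.closure (zGens N)) ∧
      ∀ P : Fin (dedekindPsi N) → Polynomial (ZMod ℓ),
        ∑ i, (P i).eval₂ HahnSeries.C (jqModC (ZMod ℓ)) * zRed ℓ (w i) = 0 → ∀ i, P i = 0 := by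
  classical
  set k := AlgebraicClosure (ZMod ℓ)
  set φ : ZMod ℓ →+* k := algebraMap (ZMod ℓ) k
  have hk : ∀ r : ℕ, r.Prime → r ∣ N → (r : k) ≠ 0 := by
    intro r hr hrN h
    rw [← map_natCast φ, map_eq_zero_iff φ φ.injective, ZMod.natCast_eq_zero_iff,
      Nat.prime_dvd_prime_iff_eq Fact.out hr] at h
    exact hℓN (h ▸ hrN)
  obtain ⟨w, hw, hli⟩ := exists_indep (k := k) N hk
  have hsub : (Submonoid.closure (ppGens k N) : Set (LaurentSeries k)) ⊆
      (coeffMap (Int.castRingHom k)) '' (Submonoid.closure (zGens N) : Set (LaurentSeries ℤ)) := by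
    intro x hx
    induction hx using Submonoid.closure_induction with
    | mem y hy =>
      obtain ⟨p, i, hne, -, hd, rfl⟩ := hy
      refine ⟨_, Submonoid.subset_closure ⟨p ^ i, hne, hd, rfl⟩, ?_⟩
      rw [coeffMap_qExpand, coeffMap_jqModC]
    | one => exact ⟨1, one_mem _, map_one _⟩
    | mul y z _ _ hy hz =>
      obtain ⟨a, ha, rfl⟩ := hy
      obtain ⟨b, hb, rfl⟩ := hz
      exact ⟨a * b, mul_mem ha hb, map_mul _ _ _⟩
  have hpre := fun i => hsub (hw i)
  choose w' hw' hww' using hpre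
  refine ⟨w', hw', fun P hP => ?_⟩
  have hcomp : ∀ a : LaurentSeries ℤ, coeffMap φ (zRed ℓ a) = coeffMap (Int.castRingHom k) a := by
    intro a
    rw [zRed, coeffMap_coeffMap]
    exact coeffMap_congr (RingHom.ext_int _ _) a
  have h := congrArg (coeffMap φ) hP
  simp only [map_sum, map_mul, map_zero, ← evalJ_one, coeffMap_evalJ, hcomp, hww'] at h
  have hmem : ∀ Q : Polynomial k, evalJ k 1 Q ∈ baseJ k := by
    intro Q
    rw [evalJ_one, Polynomial.eval₂_eq_sum_range]
    refine sum_mem fun n _ => mul_mem ?_ (pow_mem (mem_adjoin_simple_self k _) n)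
    rw [HahnSeries.C_apply, ← algebraMap_laurentSeries_eq_single]
    exact IntermediateField.algebraMap_mem _ _
  have h0 := Fintype.linearIndependent_iff.1 hli (fun i => ⟨_, hmem ((P i).map φ)⟩) h
  intro i
  have h1 : evalJ k 1 ((P i).map φ) = 0 := congrArg Subtype.val (h0 i)
  exact (Polynomial.map_eq_zero φ).1 (evalJ_injective 1 (h1.trans (map_zero _).symm))

variable (N : ℕ) [NeZero N]

theorem jFull_mem_gauss :
    ((IgusaScheme.jFull N : modularFunctionFieldFull N) : LaurentSeries ℚ) ∈ gaussRing ℓ := by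
  rw [IgusaScheme.coe_jFull, ← jqModC_rat, ← coeffMap_jqModC (Int.castRingHom ℚ)]
  exact zIncl_mem_gauss ℓ _

theorem red_jFull :
    gaussRed ℓ ⟨_, jFull_mem_gauss ℓ N⟩ = jqModC (ZMod ℓ) := by
  rw [gaussRed_eq ℓ _ (a := jqModC ℤ) (b := 1) (by rw [map_one]; exact one_ne_zero), map_one,
    div_one, zRed, coeffMap_jqModC]
  show (jq : LaurentSeries ℚ) * zIncl 1 = _
  rw [map_one, mul_one, zIncl, coeffMap_jqModC, jqModC_rat]

theorem jInv_mem_gauss :
    (((IgusaScheme.jFull N)⁻¹ : modularFunctionFieldFull N) : LaurentSeries ℚ) ∈ gaussRing ℓ := by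
  refine ⟨1, jqModC ℤ, ?_, ?_⟩
  · rw [zRed, coeffMap_jqModC]
    exact jqModC_ne_zero_of_nontrivial _
  · rw [IntermediateField.coe_inv, IgusaScheme.coe_jFull, zIncl, coeffMap_jqModC, map_one,
      jqModC_rat, inv_mul_cancel₀ jq_ne_zero]

theorem red_jInv :
    gaussRed ℓ ⟨_, jInv_mem_gauss ℓ N⟩ = (jqModC (ZMod ℓ))⁻¹ := by
  have h : (⟨_, jFull_mem_gauss ℓ N⟩ : gaussRing ℓ) * ⟨_, jInv_mem_gauss ℓ N⟩ = 1 :=
    Subtype.ext (by
      rw [Subring.coe_mul, Subring.coe_one, IntermediateField.coe_inv, IgusaScheme.coe_jFull,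
        mul_inv_cancel₀ jq_ne_zero])
  have h1 := congrArg (gaussRed ℓ) h
  rw [map_mul, map_one, red_jFull] at h1
  exact eq_inv_of_mul_eq_one_right h1

/-- Any two `ℚ`-algebra structures agree. -/
theorem ratAlgebra_transfer {F : Type} [Field F] (A B : Algebra ℚ F) (t : F) (n : ℕ)
    (h : letI := A; Module.finrank ℚ⟮t⟯ F = n ∧ FiniteDimensional ℚ⟮t⟯ F) :
    letI := B; Module.finrank ℚ⟮t⟯ F = n ∧ FiniteDimensional ℚ⟮t⟯ F := by
  obtain rfl : A = B := Subsingleton.elim _ _
  exact h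

theorem finrank_finite_full :
    Module.finrank ℚ⟮IgusaScheme.jFull N⟯ (modularFunctionFieldFull N) = dedekindPsi N ∧
      FiniteDimensional ℚ⟮IgusaScheme.jFull N⟯ (modularFunctionFieldFull N) :=
  ratAlgebra_transfer (F := modularFunctionFieldFull N) _ _
    (IgusaScheme.jFull N) (dedekindPsi N)
    ⟨finrank_jField_eq_psi (L := ℚ) (N := N), finite_jField (L := ℚ) (N := N)⟩

theorem finrank_full : Module.finrank ℚ⟮IgusaScheme.jFull N⟯ (modularFunctionFieldFull N) =
    dedekindPsi N := (finrank_finite_full N).1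

theorem finite_full : FiniteDimensional ℚ⟮IgusaScheme.jFull N⟯ (modularFunctionFieldFull N) :=
  (finrank_finite_full N).2

theorem adjoin_jInv : ℚ⟮(IgusaScheme.jFull N)⁻¹⟯ = ℚ⟮IgusaScheme.jFull N⟯ := by
  apply le_antisymm <;> rw [adjoin_simple_le_iff]
  · exact inv_mem (mem_adjoin_simple_self _ _)
  · have h := inv_mem (mem_adjoin_simple_self ℚ (IgusaScheme.jFull N)⁻¹)
    rwa [inv_inv] at h

/-- Chart data on both charts. -/
theorem exists_chartData (hℓN : ¬ ℓ ∣ N) :
    ∃ e : Fin (dedekindPsi N) → modularFunctionFieldFull N,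
      ChartData ℓ (modularFunctionFieldFull N) (IgusaScheme.jFull N) e ∧
      ChartData ℓ (modularFunctionFieldFull N) (IgusaScheme.jFull N)⁻¹ e := by
  classical
  obtain ⟨w, hw, hind⟩ := exists_integral_indep ℓ N hℓN
  let e : Fin (dedekindPsi N) → modularFunctionFieldFull N := fun i =>
    ⟨zIncl (w i), zIncl_mem_full (hw i)⟩
  have he : ∀ i, e i ∈ gaussSub ℓ (modularFunctionFieldFull N) := fun i => zIncl_mem_gauss ℓ _
  have hered : ∀ i, subRed ℓ _ ⟨e i, he i⟩ = zRed ℓ (w i) := fun i => gaussRed_zIncl ℓ _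
  have ht : IgusaScheme.jFull N ∈ gaussSub ℓ (modularFunctionFieldFull N) := jFull_mem_gauss ℓ N
  have ht' : (IgusaScheme.jFull N)⁻¹ ∈ gaussSub ℓ (modularFunctionFieldFull N) :=
    jInv_mem_gauss ℓ N
  have hred : subRed ℓ _ ⟨_, ht⟩ = jqModC (ZMod ℓ) := red_jFull ℓ N
  have hred' : subRed ℓ _ ⟨_, ht'⟩ = (jqModC (ZMod ℓ))⁻¹ := red_jInv ℓ N
  have hJ : jqModC (ZMod ℓ) ≠ 0 := jqModC_ne_zero_of_nontrivial _
  have hev : ∀ P : Polynomial (ZMod ℓ),
      P.eval₂ HahnSeries.C (jqModC (ZMod ℓ)) = 0 → P = 0 := fun P h =>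
    evalJ_injective (R := ZMod ℓ) 1 (by rw [map_zero, evalJ_one, h])
  -- transfer from `j` to `1/j`
  have hflip : ∀ (M : ℕ) (P : Polynomial (ZMod ℓ)), P.natDegree ≤ M →
      P.eval₂ HahnSeries.C (jqModC (ZMod ℓ))⁻¹ * jqModC (ZMod ℓ) ^ M =
        (P.reflect M).eval₂ HahnSeries.C (jqModC (ZMod ℓ)) := by
    intro M P hP
    letI : Invertible (jqModC (ZMod ℓ)) := invertibleOfNonzero hJ
    have h := Polynomial.eval₂_reflect_mul_pow (HahnSeries.C : ZMod ℓ →+* LaurentSeries (ZMod ℓ))
      (jqModC (ZMod ℓ)) M (P.reflect M) (Polynomial.natDegree_reflect_le.trans (by omega))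
    rw [invOf_eq_inv] at h
    have hrr : (P.reflect M).reflect M = P := by
      ext n
      rw [Polynomial.coeff_reflect, Polynomial.coeff_reflect, Polynomial.revAt_invol]
    rwa [hrr] at h
  have hrefl : ∀ (M : ℕ) (P : Polynomial (ZMod ℓ)), P.reflect M = 0 → P = 0 := by
    intro M P h
    ext n
    have := congrArg (fun Q : Polynomial (ZMod ℓ) => Q.coeff (Polynomial.revAt M n)) h
    simpa [Polynomial.coeff_reflect, Polynomial.revAt_invol] using this
  refine ⟨e, ⟨isIntFrac_full, ht, fun P hP => hev P (hred ▸ hP), he, fun P hP => hind P ?_,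
    finite_full N, by rw [finrank_full, Fintype.card_fin]⟩,
    ⟨isIntFrac_full, ht', fun P hP => ?_, he, fun P hP => ?_, ?_, ?_⟩⟩
  · simp only [← hered, ← hred]
    exact hP
  · rw [hred'] at hP
    apply hrefl P.natDegree
    apply hev
    rw [← hflip _ P le_rfl, hP, zero_mul]
  · set M := Finset.univ.sup fun i => (P i).natDegree
    intro i
    apply hrefl M
    refine hind (fun i => (P i).reflect M) ?_ i
    have h := congrArg (fun z => z * jqModC (ZMod ℓ) ^ M) hP
    simp only [zero_mul, Finset.sum_mul, hred', hered] at h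
    refine Eq.trans (Finset.sum_congr rfl fun j _ => ?_) h
    rw [← hflip M (P j) (Finset.le_sup (f := fun i => (P i).natDegree) (Finset.mem_univ j))]
    ring
  · rw [adjoin_jInv]
    exact finite_full N
  · rw [adjoin_jInv, finrank_full, Fintype.card_fin]

end FA.ModField
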