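import Fermat.Agent.ModField.Igusa.Lattice

/-!
# The special fibre of a chart

For a chart algebra `A` with parameters in the Gauss ring, reduction gives a map
`A ⊗ K → K((q))`. It is injective if the chart has chart data.
-/

set_option autoImplicit false
set_option linter.style.haveILetI false
set_option linter.unusedSectionVars false
set_option synthInstance.maxHeartbeats 200000
set_option maxHeartbeats 1600000

noncomputable section

namespace FA.ModField

open HahnSeries ModularCurve IntermediateField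
open scoped TensorProduct

variable (ℓ : ℕ) [Fact ℓ.Prime]

/-- Ring maps out of `ℤ_(ℓ)` into a field of characteristic `ℓ` agree. -/
theorem local_ringHom_unique {L : Type*} [Field L] [CharP L ℓ]
    (f g : ↥(GaloisRep.ratLocalizedAt ℓ) →+* L) : f = g := by
  ext r
  have hden : ((r : ℚ).den : L) ≠ 0 := by
    rw [Ne, CharP.cast_eq_zero_iff L ℓ]
    intro h
    have hcop : (r : ℚ).den.Coprime ℓ := r.2
    exact (Fact.out : ℓ.Prime).ne_one
      (Nat.dvd_one.1 (hcop ▸ Nat.dvd_gcd h dvd_rfl))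
  have heq : r * ((r : ℚ).den : ↥(GaloisRep.ratLocalizedAt ℓ)) = ((r : ℚ).num : ↥(GaloisRep.ratLocalizedAt ℓ)) := by
    apply Subtype.ext
    push_cast
    exact Rat.mul_den_eq_num _
  have hf := congrArg f heq
  have hg := congrArg g heq
  rw [map_mul, map_natCast, map_intCast] at hf hg
  exact mul_right_cancel₀ hden (hf.trans hg.symm)

variable {F : IntermediateField ℚ (LaurentSeries ℚ)}
variable [Algebra ↥(GaloisRep.ratLocalizedAt ℓ) F] [IsScalarTower ↥(GaloisRep.ratLocalizedAt ℓ) ℚ F]
variable (K : Type) [Field K] [CharP K ℓ] [Algebra ↥(GaloisRep.ratLocalizedAt ℓ) K]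
variable (A : Subalgebra ↥(GaloisRep.ratLocalizedAt ℓ) F) (hA : ∀ x ∈ A, x ∈ gaussSub ℓ F)

/-- Reduction on `A`, with coefficients pushed to `K`. -/
def chartRed : A →+* LaurentSeries K :=
  (coeffMap (ZMod.castHom (dvd_refl ℓ) K)).comp
    ((subRed ℓ F).comp ((A.val : A →+* F).codRestrict (gaussSub ℓ F) fun x => hA x x.2))

theorem chartRed_apply (x : A) :
    chartRed ℓ K A hA x = coeffMap (ZMod.castHom (dvd_refl ℓ) K) (subRed ℓ F ⟨x, hA x x.2⟩) := rfl

include hA in
theorem exists_fiber_hom :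
    ∃ φ : A ⊗[↥(GaloisRep.ratLocalizedAt ℓ)] K →+* LaurentSeries K,
      ∀ (a : A) (k : K), φ (a ⊗ₜ k) = chartRed ℓ K A hA a * HahnSeries.C k := by
  letI : Algebra ↥(GaloisRep.ratLocalizedAt ℓ) (LaurentSeries K) :=
    (HahnSeries.C.comp (algebraMap ↥(GaloisRep.ratLocalizedAt ℓ) K)).toAlgebra
  haveI : CharP (LaurentSeries K) ℓ :=
    charP_of_injective_ringHom (f := (HahnSeries.C : K →+* LaurentSeries K)) HahnSeries.C_injective ℓ
  let f : A →ₐ[↥(GaloisRep.ratLocalizedAt ℓ)] LaurentSeries K :=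
    { chartRed ℓ K A hA with
      commutes' := fun r => DFunLike.congr_fun
        (local_ringHom_unique ℓ ((chartRed ℓ K A hA).comp (algebraMap _ A)) (algebraMap _ _)) r }
  let g : K →ₐ[↥(GaloisRep.ratLocalizedAt ℓ)] LaurentSeries K :=
    { (HahnSeries.C : K →+* LaurentSeries K) with commutes' := fun _ => rfl }
  exact ⟨(Algebra.TensorProduct.productMap f g).toRingHom,
    fun a k => Algebra.TensorProduct.productMap_apply_tmul f g a k⟩

include hA in
theorem nontrivial_fiber : Nontrivial (A ⊗[↥(GaloisRep.ratLocalizedAt ℓ)] K) := by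
  obtain ⟨φ, -⟩ := exists_fiber_hom ℓ K A hA
  exact φ.domain_nontrivial

include hA in
theorem isDomain_fiber
    (hdiv : ∀ a : A, subRed ℓ F ⟨a, hA a a.2⟩ = 0 → (a : F) / (ℓ : F) ∈ A) :
    IsDomain (A ⊗[↥(GaloisRep.ratLocalizedAt ℓ)] K) := by
  classical
  obtain ⟨φ, hφ⟩ := exists_fiber_hom ℓ K A hA
  letI := ZMod.algebra K ℓ
  set β := Module.Basis.ofVectorSpace (ZMod ℓ) K
  have hrepr : ∀ z : A ⊗[↥(GaloisRep.ratLocalizedAt ℓ)] K, ∃ a : _ →₀ A,
      z = a.sum fun b x => x ⊗ₜ β b := by
    intro z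
    induction z with
    | zero => exact ⟨0, Finsupp.sum_zero_index.symm⟩
    | tmul x k =>
      refine ⟨(β.repr k).mapRange (fun c => c.val • x) (by simp), ?_⟩
      rw [Finsupp.sum_mapRange_index (h := fun b y => y ⊗ₜ[↥(GaloisRep.ratLocalizedAt ℓ)] β b)
        fun b => TensorProduct.zero_tmul _ _]
      conv_lhs => rw [← β.linearCombination_repr k, Finsupp.linearCombination_apply, Finsupp.sum,
        TensorProduct.tmul_sum]
      refine Finset.sum_congr rfl fun b _ => ?_
      show x ⊗ₜ ((β.repr k b) • β b) = ((β.repr k b).val • x) ⊗ₜ β b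
      rw [← TensorProduct.smul_tmul', ← TensorProduct.tmul_smul,
        ← Nat.cast_smul_eq_nsmul (ZMod ℓ), ZMod.natCast_zmod_val]
    | add z w hz hw =>
      obtain ⟨a, rfl⟩ := hz
      obtain ⟨c, rfl⟩ := hw
      exact ⟨a + c, (Finsupp.sum_add_index'
        (h := fun b y => y ⊗ₜ[↥(GaloisRep.ratLocalizedAt ℓ)] β b)
        (fun b => TensorProduct.zero_tmul _ _) fun b x y => TensorProduct.add_tmul _ _ _).symm⟩
  have hinj : Function.Injective φ := by
    rw [injective_iff_map_eq_zero]
    intro z hz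
    obtain ⟨a, rfl⟩ := hrepr z
    refine Finset.sum_eq_zero fun b hb => ?_
    have hred : subRed ℓ F ⟨a b, hA _ (a b).2⟩ = 0 := by
      ext n
      have h1 := congrArg (fun s : LaurentSeries K => s.coeff n) hz
      simp only [Finsupp.sum, map_sum, hφ, HahnSeries.coeff_sum, HahnSeries.coeff_zero] at h1
      rw [HahnSeries.coeff_zero]
      refine linearIndependent_iff'.1 β.linearIndependent a.support
        (fun b => (subRed ℓ F ⟨a b, hA _ (a b).2⟩).coeff n) ?_ b hb
      refine Eq.trans (Finset.sum_congr rfl fun c _ => ?_) h1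
      rw [chartRed_apply, mul_comm _ (HahnSeries.C _), HahnSeries.C_mul_eq_smul,
        HahnSeries.coeff_smul, smul_eq_mul, coeffMap_coeff, mul_comm, Algebra.smul_def]
      rfl
    set c : A := ⟨_, hdiv (a b) hred⟩
    have hc : a b = (ℓ : ↥(GaloisRep.ratLocalizedAt ℓ)) • c := by
      apply Subtype.ext
      rw [Subalgebra.coe_smul, Algebra.smul_def, map_natCast]
      show (a b : F) = (ℓ : F) * ((a b : F) / (ℓ : F))
      rw [mul_div_cancel₀]
      rw [Ne, ← map_natCast (algebraMap ℚ F), map_eq_zero, Nat.cast_eq_zero]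
      exact (Fact.out : ℓ.Prime).ne_zero
    show a b ⊗ₜ β b = 0
    rw [hc, TensorProduct.smul_tmul, Algebra.smul_def, map_natCast, CharP.cast_eq_zero, zero_mul,
      TensorProduct.tmul_zero]
  exact hinj.isDomain φ

end FA.ModField
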