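import Fermat.Agent.ModField.Igusa.Series
import Fermat.Prelude.Def_GaloisRep_Flat

/-!
# The Gauss valuation ring of fractions of integral Laurent series
-/

set_option autoImplicit false
set_option linter.style.haveILetI false
set_option linter.unusedSectionVars false

noncomputable section

namespace FA.ModField

open HahnSeries ModularCurve

/-- Integral series inside rational ones. -/
def zIncl : LaurentSeries ℤ →+* LaurentSeries ℚ := coeffMap (Int.castRingHom ℚ)

theorem zIncl_injective : Function.Injective zIncl := coeffMap_injective' Int.cast_injective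

variable (ℓ : ℕ) [Fact ℓ.Prime]

/-- Reduction of integral series. -/
def zRed : LaurentSeries ℤ →+* LaurentSeries (ZMod ℓ) := coeffMap (Int.castRingHom (ZMod ℓ))

theorem zRed_natCast_self : zRed ℓ (ℓ : LaurentSeries ℤ) = 0 := by
  rw [map_natCast, ← map_natCast (HahnSeries.C : ZMod ℓ →+* LaurentSeries (ZMod ℓ)),
    ZMod.natCast_self, map_zero]

/-- A series with zero reduction is divisible by `ℓ`. -/
theorem exists_eq_mul_of_zRed {a : LaurentSeries ℤ} (h : zRed ℓ a = 0) :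
    ∃ a' : LaurentSeries ℤ, a = (ℓ : LaurentSeries ℤ) * a' := by
  have hdvd : ∀ n, (ℓ : ℤ) ∣ a.coeff n := fun n =>
    (ZMod.intCast_zmod_eq_zero_iff_dvd _ _).1
      (congrArg (fun s : LaurentSeries (ZMod ℓ) => s.coeff n) h)
  refine ⟨⟨fun n => a.coeff n / (ℓ : ℤ), a.isPWO_support.mono fun n hn => ?_⟩, ?_⟩
  · simp only [Function.mem_support, ne_eq] at hn ⊢
    exact fun h0 => hn (by simp only [h0, Int.zero_ediv])
  · ext n
    rw [← map_natCast (HahnSeries.C : ℤ →+* LaurentSeries ℤ), HahnSeries.C_apply,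
      coeff_single_zero_mul]
    exact (Int.mul_ediv_cancel' (hdvd n)).symm

theorem exists_primitive_series {a : LaurentSeries ℤ} (ha : a ≠ 0) :
    ∃ (v : ℕ) (a' : LaurentSeries ℤ), zRed ℓ a' ≠ 0 ∧ a = (ℓ : LaurentSeries ℤ) ^ v * a' := by
  obtain ⟨i, hi⟩ : ∃ i, a.coeff i ≠ 0 := by
    by_contra hno
    push Not at hno
    exact ha (HahnSeries.ext (funext hno))
  induction hn : (a.coeff i).natAbs using Nat.strong_induction_on generalizing a with
  | _ n ih =>
    by_cases hr : zRed ℓ a = 0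
    · obtain ⟨a', ha'⟩ := exists_eq_mul_of_zRed ℓ hr
      have hc : a.coeff i = (ℓ : ℤ) * a'.coeff i := by
        rw [ha', ← map_natCast (HahnSeries.C : ℤ →+* LaurentSeries ℤ), HahnSeries.C_apply,
          coeff_single_zero_mul]
      have hi' : a'.coeff i ≠ 0 := fun h => hi (by rw [hc, h, mul_zero])
      have hlt : (a'.coeff i).natAbs < n := by
        rw [← hn, hc, Int.natAbs_mul, Int.natAbs_natCast]
        exact lt_mul_left (Int.natAbs_pos.2 hi') (Fact.out : ℓ.Prime).one_lt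
      obtain ⟨v, b, hb, hb'⟩ := ih _ hlt (fun h => hi' (by rw [h]; rfl)) hi' rfl
      exact ⟨v + 1, b, hb, by rw [ha', hb', pow_succ]; ring⟩
    · exact ⟨0, a, hr, by rw [pow_zero, one_mul]⟩

theorem natCast_prime_ne_zero : (ℓ : LaurentSeries ℚ) ≠ 0 := by
  rw [← map_natCast (HahnSeries.C : ℚ →+* LaurentSeries ℚ), Ne,
    map_eq_zero_iff _ (HahnSeries.C_injective), Nat.cast_eq_zero]
  exact (Fact.out : ℓ.Prime).ne_zero

/-! ### Fractions of integral series -/

/-- `x` is a fraction of integral series. -/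
def IsIntFrac (x : LaurentSeries ℚ) : Prop :=
  ∃ a b : LaurentSeries ℤ, b ≠ 0 ∧ x * zIncl b = zIncl a

theorem isIntFrac_zIncl (a : LaurentSeries ℤ) : IsIntFrac (zIncl a) :=
  ⟨a, 1, one_ne_zero, by rw [map_one, mul_one]⟩

theorem isIntFrac_const (r : ℚ) : IsIntFrac (algebraMap ℚ (LaurentSeries ℚ) r) := by
  refine ⟨HahnSeries.C r.num, HahnSeries.C (r.den : ℤ),
    fun h => r.den_nz (by exact_mod_cast HahnSeries.C_injective (h.trans (map_zero _).symm)), ?_⟩
  rw [algebraMap_laurentSeries_eq_single, ← HahnSeries.C_apply, zIncl, coeffMap_C, coeffMap_C,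
    ← map_mul]
  simp only [Int.coe_castRingHom, Int.cast_natCast, Rat.mul_den_eq_num]

/-- The field of fractions of integral series. -/
def intFracField : IntermediateField ℚ (LaurentSeries ℚ) where
  carrier := {x | IsIntFrac x}
  mul_mem' := by
    rintro x y ⟨a, b, hb, h⟩ ⟨c, d, hd, h'⟩
    exact ⟨a * c, b * d, mul_ne_zero hb hd, by rw [map_mul, map_mul, ← h, ← h']; ring⟩
  add_mem' := by
    rintro x y ⟨a, b, hb, h⟩ ⟨c, d, hd, h'⟩
    exact ⟨a * d + c * b, b * d, mul_ne_zero hb hd, by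
      rw [map_add, map_mul, map_mul, map_mul, ← h, ← h']; ring⟩
  algebraMap_mem' r := isIntFrac_const r
  inv_mem' := by
    rintro x ⟨a, b, hb, h⟩
    rcases eq_or_ne x 0 with rfl | hx
    · exact ⟨0, 1, one_ne_zero, by simp⟩
    refine ⟨b, a, fun ha => ?_, ?_⟩
    · rw [ha, map_zero, mul_eq_zero, map_eq_zero_iff _ zIncl_injective] at h
      exact h.elim hx hb
    · rw [← h, inv_mul_cancel_left₀ hx]

/-! ### The valuation ring -/

/-- The fractions with denominator of nonzero reduction. -/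
def gaussRing : Subring (LaurentSeries ℚ) where
  carrier := {x | ∃ a b : LaurentSeries ℤ, zRed ℓ b ≠ 0 ∧ x * zIncl b = zIncl a}
  mul_mem' := by
    rintro x y ⟨a, b, hb, h⟩ ⟨c, d, hd, h'⟩
    exact ⟨a * c, b * d, by rw [map_mul]; exact mul_ne_zero hb hd,
      by rw [map_mul, map_mul, ← h, ← h']; ring⟩
  one_mem' := ⟨1, 1, by rw [map_one]; exact one_ne_zero, by simp⟩
  add_mem' := by
    rintro x y ⟨a, b, hb, h⟩ ⟨c, d, hd, h'⟩
    exact ⟨a * d + c * b, b * d, by rw [map_mul]; exact mul_ne_zero hb hd, by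
      rw [map_add, map_mul, map_mul, map_mul, ← h, ← h']; ring⟩
  zero_mem' := ⟨0, 1, by rw [map_one]; exact one_ne_zero, by simp⟩
  neg_mem' := by
    rintro x ⟨a, b, hb, h⟩
    exact ⟨-a, b, hb, by rw [map_neg, neg_mul, h]⟩

theorem zIncl_mem_gauss (a : LaurentSeries ℤ) : zIncl a ∈ gaussRing ℓ :=
  ⟨a, 1, by rw [map_one]; exact one_ne_zero, by rw [map_one, mul_one]⟩

/-- Reduction on the valuation ring. -/
def gaussRedFun (x : gaussRing ℓ) : LaurentSeries (ZMod ℓ) :=
  zRed ℓ x.2.choose / zRed ℓ x.2.choose_spec.choose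

theorem gaussRedFun_eq (x : gaussRing ℓ) {a b : LaurentSeries ℤ} (hb : zRed ℓ b ≠ 0)
    (h : (x : LaurentSeries ℚ) * zIncl b = zIncl a) :
    gaussRedFun ℓ x = zRed ℓ a / zRed ℓ b := by
  obtain ⟨hb', h'⟩ := x.2.choose_spec.choose_spec
  set a' := x.2.choose
  set b' := x.2.choose_spec.choose
  show zRed ℓ a' / zRed ℓ b' = _
  rw [div_eq_div_iff hb' hb, ← map_mul, ← map_mul]
  congr 1
  apply zIncl_injective
  rw [map_mul, map_mul, ← h, ← h']
  ring

/-- Reduction as a ring homomorphism. -/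
def gaussRed : gaussRing ℓ →+* LaurentSeries (ZMod ℓ) where
  toFun := gaussRedFun ℓ
  map_one' := by
    rw [gaussRedFun_eq ℓ 1 (a := 1) (b := 1) (by rw [map_one]; exact one_ne_zero) (by simp),
      map_one, div_one]
  map_zero' := by
    rw [gaussRedFun_eq ℓ 0 (a := 0) (b := 1) (by rw [map_one]; exact one_ne_zero) (by simp),
      map_zero, zero_div]
  map_mul' x y := by
    obtain ⟨a, b, hb, h⟩ := x.2
    obtain ⟨c, d, hd, h'⟩ := y.2
    rw [gaussRedFun_eq ℓ x hb h, gaussRedFun_eq ℓ y hd h',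
      gaussRedFun_eq ℓ (x * y) (a := a * c) (b := b * d)
        (by rw [map_mul]; exact mul_ne_zero hb hd)
        (by rw [Subring.coe_mul, map_mul, map_mul, ← h, ← h']; ring),
      map_mul, map_mul, div_mul_div_comm]
  map_add' x y := by
    obtain ⟨a, b, hb, h⟩ := x.2
    obtain ⟨c, d, hd, h'⟩ := y.2
    rw [gaussRedFun_eq ℓ x hb h, gaussRedFun_eq ℓ y hd h',
      gaussRedFun_eq ℓ (x + y) (a := a * d + c * b) (b := b * d)
        (by rw [map_mul]; exact mul_ne_zero hb hd)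
        (by rw [Subring.coe_add, map_add, map_mul, map_mul, map_mul, ← h, ← h']; ring),
      map_mul, map_add, map_mul, map_mul, div_add_div _ _ hb hd]
    ring

theorem gaussRed_eq (x : gaussRing ℓ) {a b : LaurentSeries ℤ} (hb : zRed ℓ b ≠ 0)
    (h : (x : LaurentSeries ℚ) * zIncl b = zIncl a) :
    gaussRed ℓ x = zRed ℓ a / zRed ℓ b := gaussRedFun_eq ℓ x hb h

theorem gaussRed_zIncl (a : LaurentSeries ℤ) :
    gaussRed ℓ ⟨zIncl a, zIncl_mem_gauss ℓ a⟩ = zRed ℓ a := by
  rw [gaussRed_eq ℓ _ (a := a) (b := 1) (by rw [map_one]; exact one_ne_zero) (by simp), map_one,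
    div_one]

theorem gaussRed_natCast_self : gaussRed ℓ (ℓ : gaussRing ℓ) = 0 := by
  rw [map_natCast, ← map_natCast (HahnSeries.C : ZMod ℓ →+* LaurentSeries (ZMod ℓ)),
    ZMod.natCast_self, map_zero]

theorem inv_prime_notMem : ((ℓ : LaurentSeries ℚ))⁻¹ ∉ gaussRing ℓ := by
  intro h
  have h1 : (⟨_, h⟩ : gaussRing ℓ) * (ℓ : gaussRing ℓ) = 1 := Subtype.ext (by
    simp [inv_mul_cancel₀ (natCast_prime_ne_zero ℓ)])
  have h2 := congrArg (gaussRed ℓ) h1
  rw [map_mul, gaussRed_natCast_self, mul_zero, map_one] at h2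
  exact zero_ne_one h2

/-- An element with zero reduction is divisible by `ℓ`. -/
theorem gauss_div_prime {x : gaussRing ℓ} (h : gaussRed ℓ x = 0) :
    (x : LaurentSeries ℚ) / ℓ ∈ gaussRing ℓ := by
  obtain ⟨a, b, hb, hx⟩ := x.2
  rw [gaussRed_eq ℓ x hb hx, div_eq_zero_iff, or_iff_left hb] at h
  obtain ⟨a', rfl⟩ := exists_eq_mul_of_zRed ℓ h
  refine ⟨a', b, hb, ?_⟩
  rw [div_mul_eq_mul_div, hx, map_mul, map_natCast, mul_div_cancel_left₀ _ (natCast_prime_ne_zero ℓ)]

/-- Fractions outside the valuation ring have inverses of zero reduction. -/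
theorem gauss_inv_of_notMem {x : LaurentSeries ℚ} (hx : IsIntFrac x) (h : x ∉ gaussRing ℓ) :
    ∃ hi : x⁻¹ ∈ gaussRing ℓ, gaussRed ℓ ⟨x⁻¹, hi⟩ = 0 := by
  obtain ⟨a, b, hb, hab⟩ := hx
  have hx0 : x ≠ 0 := fun h0 => h (h0 ▸ (gaussRing ℓ).zero_mem)
  have ha : a ≠ 0 := fun h0 => by
    rw [h0, map_zero, mul_eq_zero, map_eq_zero_iff _ zIncl_injective] at hab
    exact hab.elim hx0 hb
  obtain ⟨u, a', ha', rfl⟩ := exists_primitive_series ℓ ha
  obtain ⟨v, b', hb', rfl⟩ := exists_primitive_series ℓ hb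
  rw [map_mul, map_mul, map_pow, map_pow, map_natCast] at hab
  have hl := natCast_prime_ne_zero ℓ
  rcases le_or_gt v u with huv | huv
  · obtain ⟨w, rfl⟩ := Nat.exists_eq_add_of_le huv
    refine absurd ⟨(ℓ : LaurentSeries ℤ) ^ w * a', b', hb', ?_⟩ h
    rw [map_mul, map_pow, map_natCast]
    apply mul_left_cancel₀ (pow_ne_zero v hl)
    rw [_root_.pow_add] at hab
    linear_combination hab
  · obtain ⟨w, rfl⟩ := Nat.exists_eq_add_of_le huv
    have heq : x⁻¹ * zIncl a' = zIncl ((ℓ : LaurentSeries ℤ) ^ (w + 1) * b') := by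
      rw [map_mul, map_pow, map_natCast]
      apply mul_left_cancel₀ (pow_ne_zero u hl)
      rw [show u.succ + w = u + (w + 1) by omega, _root_.pow_add] at hab
      linear_combination (-x⁻¹) * hab +
        ((ℓ : LaurentSeries ℚ) ^ u * (ℓ : LaurentSeries ℚ) ^ (w + 1) * zIncl b') *
          mul_inv_cancel₀ hx0
    have hmem : x⁻¹ ∈ gaussRing ℓ := Exists.intro ((ℓ : LaurentSeries ℤ) ^ (w + 1) * b')
      (Exists.intro a' (And.intro ha' heq))
    refine ⟨hmem, ?_⟩
    rw [gaussRed_eq ℓ ⟨x⁻¹, hmem⟩ ha' heq, map_mul, map_pow, zRed_natCast_self, zero_pow (Nat.succ_ne_zero w),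
      zero_mul, zero_div]

theorem gauss_mem_or_inv {x : LaurentSeries ℚ} (hx : IsIntFrac x) :
    x ∈ gaussRing ℓ ∨ x⁻¹ ∈ gaussRing ℓ :=
  or_iff_not_imp_left.2 fun h => (gauss_inv_of_notMem ℓ hx h).1

/-! ### Constants -/

theorem const_mem_gauss {r : ℚ} (hr : r ∈ GaloisRep.ratLocalizedAt ℓ) :
    algebraMap ℚ (LaurentSeries ℚ) r ∈ gaussRing ℓ := by
  refine ⟨HahnSeries.C r.num, HahnSeries.C (r.den : ℤ), ?_, ?_⟩
  · rw [zRed, coeffMap_C, Ne, map_eq_zero_iff _ HahnSeries.C_injective]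
    simp only [Int.coe_castRingHom, Int.cast_natCast]
    rw [ZMod.natCast_eq_zero_iff]
    intro hdvd
    have hcop : r.den.Coprime ℓ := hr
    exact (Fact.out : ℓ.Prime).one_lt.ne'
      (Nat.eq_one_of_dvd_coprimes hcop hdvd dvd_rfl)
  · rw [algebraMap_laurentSeries_eq_single, ← HahnSeries.C_apply, zIncl, coeffMap_C, coeffMap_C,
      ← map_mul]
    simp only [Int.coe_castRingHom, Int.cast_natCast, Rat.mul_den_eq_num]

theorem mem_ratLocalizedAt_of_mul {r : ℚ} {c n : ℤ} (hc : ¬ (ℓ : ℤ) ∣ c) (h : (c : ℚ) * r = n) :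
    r ∈ GaloisRep.ratLocalizedAt ℓ := by
  show r.den.Coprime ℓ
  rw [Nat.coprime_comm, (Fact.out : ℓ.Prime).coprime_iff_not_dvd]
  intro hdvd
  have hmul : c * r.num = n * (r.den : ℤ) := by
    have h2 : ((c * r.num : ℤ) : ℚ) = ((n * (r.den : ℤ) : ℤ) : ℚ) := by
      push_cast
      rw [← Rat.mul_den_eq_num r, ← h]
      ring
    exact_mod_cast h2
  have hdvd' : (r.den : ℤ) ∣ c := by
    refine Int.dvd_of_dvd_mul_left_of_gcd_one (Dvd.intro_left n hmul.symm) ?_
    rw [Int.gcd, Int.natAbs_natCast]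
    exact r.reduced.symm
  exact hc ((Int.natCast_dvd_natCast.2 hdvd).trans hdvd')

/-! ### Polynomials in an element of transcendental reduction -/

theorem gauss_aeval_int (t : gaussRing ℓ) (P : Polynomial ℤ) :
    gaussRed ℓ (P.eval₂ (Int.castRingHom _) t) =
      (P.map (Int.castRingHom (ZMod ℓ))).eval₂ HahnSeries.C (gaussRed ℓ t) := by
  rw [Polynomial.hom_eval₂, Polynomial.eval₂_map]
  congr 1
  exact RingHom.ext_int _ _

theorem coe_eval₂_int (t : gaussRing ℓ) (P : Polynomial ℤ) :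
    ((P.eval₂ (Int.castRingHom _) t : gaussRing ℓ) : LaurentSeries ℚ) =
      Polynomial.aeval (t : LaurentSeries ℚ) (P.map (Int.castRingHom ℚ)) := by
  rw [← Subring.subtype_apply, Polynomial.hom_eval₂, Polynomial.aeval_def, Polynomial.eval₂_map]
  congr 1
  exact RingHom.ext_int _ _

theorem exists_int_multiple (R : Polynomial ℚ) :
    ∃ (c : ℤ) (P : Polynomial ℤ), c ≠ 0 ∧
      P.map (Int.castRingHom ℚ) = Polynomial.C (c : ℚ) * R := by
  obtain ⟨b, hb0, hb⟩ := IsLocalization.integerNormalization_spec (nonZeroDivisors ℤ) R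
  refine ⟨b, IsLocalization.integerNormalization (nonZeroDivisors ℤ) R,
    nonZeroDivisors.ne_zero hb0, ?_⟩
  rw [← algebraMap_int_eq, hb, zsmul_eq_mul, ← Polynomial.C_eq_intCast]

theorem exists_primitive_poly (Q : Polynomial ℤ) (hQ : Q ≠ 0) :
    ∃ (v : ℕ) (Q' : Polynomial ℤ), Q'.map (Int.castRingHom (ZMod ℓ)) ≠ 0 ∧
      Q = Polynomial.C ((ℓ : ℤ) ^ v) * Q' := by
  induction hn : Q.leadingCoeff.natAbs using Nat.strong_induction_on generalizing Q with
  | _ n ih =>
    by_cases hr : Q.map (Int.castRingHom (ZMod ℓ)) = 0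
    · obtain ⟨Q', rfl⟩ : Polynomial.C (ℓ : ℤ) ∣ Q := by
        rw [Polynomial.C_dvd_iff_dvd_coeff]
        intro i
        have := congrArg (fun T : Polynomial (ZMod ℓ) => T.coeff i) hr
        simp only [Polynomial.coeff_map, Polynomial.coeff_zero] at this
        exact (ZMod.intCast_zmod_eq_zero_iff_dvd _ _).1 this
      have hQ' : Q' ≠ 0 := right_ne_zero_of_mul hQ
      have hlt : Q'.leadingCoeff.natAbs < n := by
        rw [← hn, Polynomial.leadingCoeff_mul, Polynomial.leadingCoeff_C, Int.natAbs_mul,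
          Int.natAbs_natCast]
        exact lt_mul_left (Int.natAbs_pos.2 (Polynomial.leadingCoeff_ne_zero.2 hQ'))
          (Fact.out : ℓ.Prime).one_lt
      obtain ⟨v, Q'', h1, h2⟩ := ih _ hlt Q' hQ' rfl
      exact ⟨v + 1, Q'', h1, by rw [h2, ← mul_assoc, ← map_mul, pow_succ']⟩
    · exact ⟨0, Q, hr, by rw [pow_zero, map_one, one_mul]⟩

variable (t : gaussRing ℓ)
  (htr : ∀ P : Polynomial (ZMod ℓ), P.eval₂ HahnSeries.C (gaussRed ℓ t) = 0 → P = 0)

include htr in
/-- A rational polynomial with integral value at `t` has integral coefficients. -/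
theorem coeff_mem_of_aeval_mem (R : Polynomial ℚ)
    (h : Polynomial.aeval (t : LaurentSeries ℚ) R ∈ gaussRing ℓ) (i : ℕ) :
    R.coeff i ∈ GaloisRep.ratLocalizedAt ℓ := by
  obtain ⟨c, P, hc, hP⟩ := exists_int_multiple R
  induction hn : c.natAbs using Nat.strong_induction_on generalizing c P with
  | _ n ih =>
    by_cases hl : (ℓ : ℤ) ∣ c
    · obtain ⟨c', rfl⟩ := hl
      have he : (P.eval₂ (Int.castRingHom _) t : gaussRing ℓ) =
          ((ℓ : gaussRing ℓ) * (c' : gaussRing ℓ)) * ⟨_, h⟩ := by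
        apply Subtype.ext
        rw [coe_eval₂_int, hP, map_mul, Polynomial.aeval_C, Subring.coe_mul, Subring.coe_mul]
        push_cast
        simp
      have h0 : P.map (Int.castRingHom (ZMod ℓ)) = 0 := by
        apply htr
        rw [← gauss_aeval_int, he, map_mul, map_mul, gaussRed_natCast_self, zero_mul, zero_mul]
      obtain ⟨P', rfl⟩ : Polynomial.C (ℓ : ℤ) ∣ P := by
        rw [Polynomial.C_dvd_iff_dvd_coeff]
        intro j
        have := congrArg (fun T : Polynomial (ZMod ℓ) => T.coeff j) h0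
        simp only [Polynomial.coeff_map, Polynomial.coeff_zero] at this
        exact (ZMod.intCast_zmod_eq_zero_iff_dvd _ _).1 this
      have hc' : c' ≠ 0 := right_ne_zero_of_mul hc
      have hlt : c'.natAbs < n := by
        rw [← hn, Int.natAbs_mul, Int.natAbs_natCast]
        exact lt_mul_left (Int.natAbs_pos.2 hc') (Fact.out : ℓ.Prime).one_lt
      refine ih _ hlt c' P' hc' ?_ rfl
      apply mul_left_cancel₀ (a := Polynomial.C ((ℓ : ℤ) : ℚ))
      · rw [Ne, Polynomial.C_eq_zero, Int.cast_natCast, Nat.cast_eq_zero]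
        exact (Fact.out : ℓ.Prime).ne_zero
      · rw [← mul_assoc, ← map_mul, ← Int.cast_mul, ← hP, Polynomial.map_mul, Polynomial.map_C,
          Int.coe_castRingHom]
    · refine mem_ratLocalizedAt_of_mul ℓ hl (n := P.coeff i) ?_
      rw [← Polynomial.coeff_C_mul, ← hP, Polynomial.coeff_map, Int.coe_castRingHom]

omit htr in
/-- The reduction of an integral constant is a constant. -/
theorem gaussRed_const {r : ℚ} (hr : r ∈ GaloisRep.ratLocalizedAt ℓ) :
    ∃ c : ZMod ℓ, gaussRed ℓ ⟨_, const_mem_gauss ℓ hr⟩ = HahnSeries.C c := by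
  refine ⟨(r.num : ZMod ℓ) / (r.den : ZMod ℓ), ?_⟩
  have hb : zRed ℓ (HahnSeries.C (r.den : ℤ)) ≠ 0 := by
    rw [zRed, coeffMap_C, Ne, map_eq_zero_iff _ HahnSeries.C_injective]
    simp only [Int.coe_castRingHom, Int.cast_natCast]
    rw [ZMod.natCast_eq_zero_iff]
    intro hdvd
    have hcop : r.den.Coprime ℓ := hr
    exact (Fact.out : ℓ.Prime).one_lt.ne' (Nat.eq_one_of_dvd_coprimes hcop hdvd dvd_rfl)
  rw [gaussRed_eq ℓ _ (a := HahnSeries.C r.num) (b := HahnSeries.C (r.den : ℤ)) hb, zRed,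
    coeffMap_C, coeffMap_C, ← map_div₀]
  · simp
  · show algebraMap ℚ (LaurentSeries ℚ) r * zIncl (HahnSeries.C (r.den : ℤ)) = _
    rw [algebraMap_laurentSeries_eq_single, ← HahnSeries.C_apply, zIncl, coeffMap_C, coeffMap_C,
      ← map_mul]
    simp only [Int.coe_castRingHom, Int.cast_natCast, Rat.mul_den_eq_num]

include htr in
/-- Integral rational functions of `t` reduce to rational functions of the reduction of `t`. -/
theorem gaussRed_ratio {x : gaussRing ℓ} (P Q : Polynomial ℚ) (hQ : Q ≠ 0)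
    (h : (x : LaurentSeries ℚ) * Polynomial.aeval (t : LaurentSeries ℚ) Q =
      Polynomial.aeval (t : LaurentSeries ℚ) P) :
    ∃ P₀ Q₀ : Polynomial (ZMod ℓ), Q₀ ≠ 0 ∧
      gaussRed ℓ x * Q₀.eval₂ HahnSeries.C (gaussRed ℓ t) =
        P₀.eval₂ HahnSeries.C (gaussRed ℓ t) := by
  classical
  obtain ⟨c, Q₁, hc, hQ₁⟩ := exists_int_multiple Q
  have hQ₁0 : Q₁ ≠ 0 := by
    rintro rfl
    rw [Polynomial.map_zero, eq_comm, mul_eq_zero, Polynomial.C_eq_zero, Int.cast_eq_zero] at hQ₁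
    exact hQ₁.elim hc hQ
  obtain ⟨v, Q₂, hQ₂, rfl⟩ := exists_primitive_poly ℓ Q₁ hQ₁0
  set lv : ℚ := (((ℓ : ℤ) ^ v : ℤ) : ℚ) with hlv
  have hlv0 : lv ≠ 0 := by
    rw [hlv]
    exact_mod_cast pow_ne_zero v (Fact.out : ℓ.Prime).ne_zero
  set R : Polynomial ℚ := Polynomial.C ((c : ℚ) / lv) * P with hR
  set y : gaussRing ℓ := x * Q₂.eval₂ (Int.castRingHom _) t with hy
  have hQ₂' : Q₂.map (Int.castRingHom ℚ) = Polynomial.C ((c : ℚ) / lv) * Q := by
    apply mul_left_cancel₀ (a := Polynomial.C lv) (by rwa [Ne, Polynomial.C_eq_zero])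
    rw [← mul_assoc, ← map_mul, mul_div_cancel₀ _ hlv0, ← hQ₁, Polynomial.map_mul,
      Polynomial.map_C, hlv, Int.coe_castRingHom]
  have hval : Polynomial.aeval (t : LaurentSeries ℚ) R = (y : LaurentSeries ℚ) := by
    rw [hy, Subring.coe_mul, coe_eval₂_int, hQ₂', hR, map_mul, map_mul, ← h]
    ring
  have hcoef := coeff_mem_of_aeval_mem ℓ t htr R (hval ▸ y.2)
  have hconst := fun i => gaussRed_const ℓ (hcoef i)
  choose c₀ hc₀ using hconst
  refine ⟨∑ i ∈ Finset.range (R.natDegree + 1), Polynomial.C (c₀ i) * Polynomial.X ^ i,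
    Q₂.map (Int.castRingHom (ZMod ℓ)), hQ₂, ?_⟩
  rw [← gauss_aeval_int, ← map_mul, ← hy, Polynomial.eval₂_finsetSum]
  have hsum : y = ∑ i ∈ Finset.range (R.natDegree + 1),
      (⟨_, const_mem_gauss ℓ (hcoef i)⟩ : gaussRing ℓ) * t ^ i := by
    apply Subtype.ext
    rw [← hval, Polynomial.aeval_eq_sum_range]
    simp only [AddSubmonoidClass.coe_finsetSum, Subring.coe_mul, SubmonoidClass.coe_pow,
      Algebra.smul_def]
  rw [hsum, map_sum]
  refine Finset.sum_congr rfl fun i _ => ?_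
  rw [map_mul, map_pow, hc₀, Polynomial.eval₂_mul, Polynomial.eval₂_C, Polynomial.eval₂_X_pow]

end FA.ModField
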