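import Mathlib.AlgebraicGeometry.Limits
import Mathlib.AlgebraicGeometry.Properties
import Mathlib.AlgebraicGeometry.Pullbacks

/-!
# Integrality of a base change of a scheme glued from two charts
-/

set_option autoImplicit false
set_option linter.style.haveILetI false

noncomputable section

namespace FA.ModField

open AlgebraicGeometry CategoryTheory CategoryTheory.Limits

universe v

variable {X Y S : Scheme.{v}} (f : X ⟶ S) (g : Y ⟶ S)

/-- The image of the base change of an open chart is an irreducible open subset, with reduced stalks. -/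
theorem chart_pullback_props {U : Scheme.{v}} (i : U ⟶ X) [IsOpenImmersion i]
    [IsIntegral (pullback (i ≫ f) g)] :
    IsIrreducible ((pullback.fst f g).base ⁻¹' Set.range i.base) ∧
      ∀ x ∈ (pullback.fst f g).base ⁻¹' Set.range i.base,
        _root_.IsReduced ((pullback f g).presheaf.stalk x) := by
  set p := pullback.fst f g
  set u := pullback.snd i p
  have hr : Set.range u.base = p.base ⁻¹' Set.range i.base :=
    IsOpenImmersion.range_pullbackSnd i p
  haveI : Nonempty ↥(pullback i p) :=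
    ⟨(pullbackRightPullbackFstIso f g i).inv.base (Classical.arbitrary _)⟩
  haveI : IsIntegral (pullback i p) :=
    isIntegral_of_isOpenImmersion (pullbackRightPullbackFstIso f g i).hom
  refine ⟨?_, ?_⟩
  · rw [← hr, ← Set.image_univ]
    exact (IrreducibleSpace.isIrreducible_univ _).image _ u.continuous.continuousOn
  · intro x hx
    rw [← hr] at hx
    obtain ⟨y, rfl⟩ := hx
    exact isReduced_of_injective (u.stalkMap y).hom
      (ConcreteCategory.bijective_of_isIso (u.stalkMap y)).injective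

/-- Base change of two glued charts is integral if the charts become integral and still meet. -/
theorem isIntegral_pullback_of_charts {U V W : Scheme.{v}} (i : U ⟶ X) (k : V ⟶ X)
    [IsOpenImmersion i] [IsOpenImmersion k] (a : W ⟶ U) (b : W ⟶ V) (h : a ≫ i = b ≫ k)
    (hcov : ∀ x : X, x ∈ Set.range i.base ∨ x ∈ Set.range k.base)
    [IsIntegral (pullback (i ≫ f) g)] [IsIntegral (pullback (k ≫ f) g)]
    [hW : Nonempty ↥(pullback (a ≫ i ≫ f) g)] : IsIntegral (pullback f g) := by
  set p := pullback.fst f g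
  obtain ⟨hU, hUr⟩ := chart_pullback_props f g i
  obtain ⟨hV, hVr⟩ := chart_pullback_props f g k
  set A : Set ↥(pullback f g) := p.base ⁻¹' Set.range i.base
  set B : Set ↥(pullback f g) := p.base ⁻¹' Set.range k.base
  have hAB : ∀ x, x ∈ A ∨ x ∈ B := fun x => hcov (p.base x)
  haveI : ∀ x, _root_.IsReduced ((pullback f g).presheaf.stalk x) := fun x =>
    (hAB x).elim (hUr x) (hVr x)
  haveI : AlgebraicGeometry.IsReduced (pullback f g) := isReduced_of_isReduced_stalk _
  obtain ⟨z⟩ := hW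
  let m : pullback (a ≫ i ≫ f) g ⟶ pullback f g :=
    pullback.lift (pullback.fst _ _ ≫ a ≫ i) (pullback.snd _ _)
      (by simp only [Category.assoc]; exact pullback.condition)
  have hm : m ≫ p = pullback.fst _ _ ≫ a ≫ i := pullback.lift_fst _ _ _
  have hmA : m.base z ∈ A := by
    show p.base (m.base z) ∈ Set.range i.base
    rw [← Scheme.Hom.comp_apply, hm, Scheme.Hom.comp_apply, Scheme.Hom.comp_apply]
    exact ⟨_, rfl⟩
  have hmB : m.base z ∈ B := by
    show p.base (m.base z) ∈ Set.range k.base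
    rw [← Scheme.Hom.comp_apply, hm, h, Scheme.Hom.comp_apply, Scheme.Hom.comp_apply]
    exact ⟨_, rfl⟩
  have hAo : IsOpen A := i.isOpenEmbedding.isOpen_range.preimage p.continuous
  have hBo : IsOpen B := k.isOpenEmbedding.isOpen_range.preimage p.continuous
  have hmeet : ∀ O : Set ↥(pullback f g), IsOpen O → O.Nonempty → (A ∩ (O ∩ B)).Nonempty := by
    rintro O hO ⟨x, hx⟩
    rcases hAB x with hxA | hxB
    · exact hU.2 O B hO hBo ⟨x, hxA, hx⟩ ⟨_, hmA, hmB⟩
    · obtain ⟨y, hyB, hyO, hyA⟩ := hV.2 O A hO hAo ⟨x, hxB, hx⟩ ⟨_, hmB, hmA⟩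
      exact ⟨y, hyA, hyO, hyB⟩
  haveI : Nonempty ↥(pullback f g) := ⟨m.base z⟩
  haveI : PreirreducibleSpace ↥(pullback f g) := ⟨by
    rintro O₁ O₂ h₁ h₂ ⟨x, -, hx⟩ ⟨y, -, hy⟩
    obtain ⟨c, hcA, hc1, hcB⟩ := hmeet O₁ h₁ ⟨x, hx⟩
    obtain ⟨d, hdA, hd2, hdB⟩ := hmeet O₂ h₂ ⟨y, hy⟩
    obtain ⟨w, -, hw1, hw2⟩ := hU.2 O₁ O₂ h₁ h₂ ⟨c, hcA, hc1⟩ ⟨d, hdA, hd2⟩
    exact ⟨w, trivial, hw1, hw2⟩⟩
  haveI : IrreducibleSpace ↥(pullback f g) := ⟨inferInstance⟩
  exact isIntegral_of_irreducibleSpace_of_isReduced _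

end FA.ModField
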