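import Fermat.Agent.ModField.Igusa.Gauss

/-!
# The integral closure of `ℤ_(ℓ)[t]` when the reduction of a basis stays independent

If `F` has a basis over `ℚ(t)` of integral series whose reductions are independent over `𝔽_ℓ(t)`,
an element of the integral closure of `ℤ_(ℓ)[t]` with zero reduction is `ℓ` times such an element.
-/

set_option autoImplicit false
set_option linter.style.haveILetI false
set_option linter.unusedSectionVars false
set_option synthInstance.maxHeartbeats 200000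
set_option maxHeartbeats 1600000

noncomputable section

namespace FA.ModField

open HahnSeries IntermediateField

variable (ℓ : ℕ) [Fact ℓ.Prime] (F : IntermediateField ℚ (LaurentSeries ℚ))

/-- The elements of `F` with integral reduction. -/
def gaussSub : Subring F := (gaussRing ℓ).comap (F.val : F →+* LaurentSeries ℚ)

theorem mem_gaussSub {x : F} : x ∈ gaussSub ℓ F ↔ (x : LaurentSeries ℚ) ∈ gaussRing ℓ := Iff.rfl

/-- Reduction on `gaussSub`. -/
def subRed : gaussSub ℓ F →+* LaurentSeries (ZMod ℓ) :=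
  (gaussRed ℓ).comp (((F.val : F →+* LaurentSeries ℚ).comp (gaussSub ℓ F).subtype).codRestrict
    (gaussRing ℓ) fun x => x.2)

theorem subRed_apply (x : gaussSub ℓ F) :
    subRed ℓ F x = gaussRed ℓ ⟨((x : F) : LaurentSeries ℚ), x.2⟩ := rfl

theorem coe_aeval {F : IntermediateField ℚ (LaurentSeries ℚ)} (t : F) (R : Polynomial ℚ) :
    ((Polynomial.aeval t R : F) : LaurentSeries ℚ) = Polynomial.aeval (t : LaurentSeries ℚ) R := by
  simp only [Polynomial.aeval_def, ← IntermediateField.algebraMap_apply, Polynomial.hom_eval₂]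
  congr 1
  exact RingHom.ext_rat _ _

/-- The hypotheses on a chart parameter `t` and a family `e`. -/
structure ChartData (t : F) {ι : Type*} [Fintype ι] (e : ι → F) : Prop where
  frac : ∀ x : F, IsIntFrac (x : LaurentSeries ℚ)
  t_mem : t ∈ gaussSub ℓ F
  t_transc : ∀ P : Polynomial (ZMod ℓ),
    P.eval₂ HahnSeries.C (subRed ℓ F ⟨t, t_mem⟩) = 0 → P = 0
  e_mem : ∀ i, e i ∈ gaussSub ℓ F
  indep : ∀ P : ι → Polynomial (ZMod ℓ),
    ∑ i, (P i).eval₂ HahnSeries.C (subRed ℓ F ⟨t, t_mem⟩) * subRed ℓ F ⟨e i, e_mem i⟩ = 0 →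
      ∀ i, P i = 0
  finite : FiniteDimensional ℚ⟮t⟯ F
  rank : Module.finrank ℚ⟮t⟯ F = Fintype.card ι

namespace ChartData

variable {ℓ F} {t : F} {ι : Type*} [Fintype ι] {e : ι → F} (D : ChartData ℓ F t e)

include D

theorem red_transc : ∀ P : Polynomial (ZMod ℓ),
    P.eval₂ HahnSeries.C (gaussRed ℓ ⟨(t : LaurentSeries ℚ), D.t_mem⟩) = 0 → P = 0 :=
  D.t_transc

/-- The integral elements of `ℚ(t)`. -/
def base : ValuationSubring ℚ⟮t⟯ where
  toSubring := (gaussSub ℓ F).comap (algebraMap ℚ⟮t⟯ F)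
  mem_or_inv_mem' c := by
    rcases gauss_mem_or_inv ℓ (D.frac (c : F)) with h | h
    · exact Or.inl h
    · refine Or.inr ?_
      show ((algebraMap ℚ⟮t⟯ F c⁻¹ : F) : LaurentSeries ℚ) ∈ gaussRing ℓ
      exact h

theorem mem_base {c : ℚ⟮t⟯} : c ∈ D.base ↔ (c : F) ∈ gaussSub ℓ F := Iff.rfl

theorem red_ratio {c : ℚ⟮t⟯} (hc : (c : F) ∈ gaussSub ℓ F) :
    ∃ P Q : Polynomial (ZMod ℓ), Q ≠ 0 ∧
      subRed ℓ F ⟨(c : F), hc⟩ * Q.eval₂ HahnSeries.C (subRed ℓ F ⟨t, D.t_mem⟩) =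
        P.eval₂ HahnSeries.C (subRed ℓ F ⟨t, D.t_mem⟩) := by
  obtain ⟨P, Q, hPQ⟩ := (IntermediateField.mem_adjoin_simple_iff ℚ (c : F)).1 c.2
  have hcoe : ∀ R : Polynomial ℚ, ((Polynomial.aeval t R : F) : LaurentSeries ℚ) =
      Polynomial.aeval (t : LaurentSeries ℚ) R := fun R => coe_aeval t R
  rcases eq_or_ne (Polynomial.aeval t Q) 0 with hQ | hQ
  · have hc0 : (⟨(c : F), hc⟩ : gaussSub ℓ F) = 0 :=
      Subtype.ext (by rw [hPQ, hQ, div_zero]; rfl)
    exact ⟨0, 1, one_ne_zero, by rw [hc0]; simp⟩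
  have hQ0 : Q ≠ 0 := fun h => hQ (by rw [h, map_zero])
  refine gaussRed_ratio ℓ ⟨(t : LaurentSeries ℚ), D.t_mem⟩ D.red_transc (x := ⟨_, hc⟩) P Q hQ0 ?_
  show ((c : F) : LaurentSeries ℚ) * _ = _
  rw [← hcoe, ← hcoe, ← MulMemClass.coe_mul, hPQ, div_mul_cancel₀ _ hQ]

/-- An integral combination of the family has integral coefficients. -/
theorem coeff_mem (c : ι → ℚ⟮t⟯) (h : (∑ i, (c i : F) * e i) ∈ gaussSub ℓ F) :
    ∀ i, c i ∈ D.base := by
  classical
  intro i₀
  haveI : Nonempty ι := ⟨i₀⟩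
  obtain ⟨m, -, hm⟩ := Finset.exists_max_image (Finset.univ : Finset ι)
    (fun i => D.base.valuation (c i)) Finset.univ_nonempty
  by_cases hmem : c m ∈ D.base
  · rw [← ValuationSubring.valuation_le_one_iff] at hmem ⊢
    exact (hm i₀ (Finset.mem_univ _)).trans hmem
  exfalso
  have hm0 : c m ≠ 0 := fun h0 => hmem (h0 ▸ D.base.zero_mem)
  set u : ℚ⟮t⟯ := (c m)⁻¹ with hu
  obtain ⟨humem', hured⟩ := gauss_inv_of_notMem ℓ (D.frac (c m : F)) hmem
  have humem : (u : F) ∈ gaussSub ℓ F := humem'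
  have hured' : subRed ℓ F ⟨(u : F), humem⟩ = 0 := hured
  have hcu : ∀ i, ((c i * u : ℚ⟮t⟯) : F) ∈ gaussSub ℓ F := by
    intro i
    rw [← D.mem_base, ← ValuationSubring.valuation_le_one_iff, hu, map_mul, map_inv₀]
    have hpos : D.base.valuation (c m) ≠ 0 := (Valuation.ne_zero_iff _).2 hm0
    exact mul_inv_le_one_of_le₀ (hm i (Finset.mem_univ _)) zero_le
  have hratio := fun i => D.red_ratio (hcu i)
  choose P Q hQ hPQ using hratio
  have hzero : ∑ i, subRed ℓ F ⟨_, hcu i⟩ * subRed ℓ F ⟨e i, D.e_mem i⟩ = 0 := by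
    have heq : (∑ i, (⟨_, hcu i⟩ : gaussSub ℓ F) * ⟨e i, D.e_mem i⟩) =
        (⟨_, humem⟩ : gaussSub ℓ F) * ⟨_, h⟩ := by
      apply Subtype.ext
      simp only [AddSubmonoidClass.coe_finsetSum, MulMemClass.coe_mul, Finset.mul_sum]
      exact Finset.sum_congr rfl fun i _ => by ring
    have h1 := congrArg (subRed ℓ F) heq
    rw [map_sum, map_mul (subRed ℓ F) ⟨(u : F), humem⟩, hured', zero_mul] at h1
    simpa only [map_mul] using h1
  set ev : Polynomial (ZMod ℓ) →+* LaurentSeries (ZMod ℓ) :=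
    Polynomial.eval₂RingHom HahnSeries.C (subRed ℓ F ⟨t, D.t_mem⟩) with hev
  have hcomb : ∑ i, ev (P i * ∏ j ∈ Finset.univ.erase i, Q j) * subRed ℓ F ⟨e i, D.e_mem i⟩ = 0 := by
    have h1 := congrArg (fun z => z * ev (∏ j, Q j)) hzero
    simp only [zero_mul, Finset.sum_mul] at h1
    refine Eq.trans (Finset.sum_congr rfl fun i _ => ?_) h1
    rw [← Finset.mul_prod_erase Finset.univ Q (Finset.mem_univ i), map_mul, map_mul]
    rw [show ev (P i) = subRed ℓ F ⟨_, hcu i⟩ * ev (Q i) from (hPQ i).symm]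
    ring
  have hPm := D.indep _ hcomb m
  rw [mul_eq_zero, Finset.prod_eq_zero_iff] at hPm
  have hPm0 : P m = 0 := hPm.resolve_right fun ⟨j, _, hj⟩ => hQ j hj
  have h1 : (⟨_, hcu m⟩ : gaussSub ℓ F) = 1 := Subtype.ext (by
    show ((c m * u : ℚ⟮t⟯) : F) = 1
    rw [hu, mul_inv_cancel₀ hm0]; rfl)
  have h2 := hPQ m
  rw [h1, map_one, one_mul, hPm0, Polynomial.eval₂_zero] at h2
  exact hQ m (D.t_transc _ h2)

theorem linearIndependent : LinearIndependent ℚ⟮t⟯ e := by
  rw [Fintype.linearIndependent_iff]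
  intro g hg i
  by_contra hgi
  set lam : ℚ⟮t⟯ := ((ℓ : ℚ⟮t⟯) * g i)⁻¹ with hlam
  have h : ∑ j, ((g j * lam : ℚ⟮t⟯) : F) * e j = 0 := by
    have h1 := congrArg (fun z => (lam : F) * z) hg
    simp only [mul_zero, Finset.mul_sum] at h1
    refine Eq.trans (Finset.sum_congr rfl fun j _ => ?_) h1
    rw [Algebra.smul_def, IntermediateField.algebraMap_apply, MulMemClass.coe_mul]
    ring
  have hmem := D.coeff_mem (fun j => g j * lam) (h ▸ (gaussSub ℓ F).zero_mem) i
  simp only [hlam, mul_inv, mul_left_comm (g i), mul_inv_cancel₀ hgi, mul_one] at hmem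
  refine inv_prime_notMem ℓ ?_
  have h' : (((ℓ : ℚ⟮t⟯)⁻¹ : ℚ⟮t⟯) : F) ∈ gaussSub ℓ F := hmem
  rw [mem_gaussSub] at h'
  simpa using h'

theorem span_eq_top : Submodule.span ℚ⟮t⟯ (Set.range e) = ⊤ := by
  haveI := D.finite
  haveI : Nonempty ι := by
    rw [← Fintype.card_pos_iff, ← D.rank]
    exact Module.finrank_pos
  exact D.linearIndependent.span_eq_top_of_card_eq_finrank D.rank.symm

theorem exists_combination (y : F) : ∃ c : ι → ℚ⟮t⟯, y = ∑ i, (c i : F) * e i := by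
  have hy : y ∈ Submodule.span ℚ⟮t⟯ (Set.range e) := by rw [D.span_eq_top]; trivial
  obtain ⟨c, hc⟩ := (Submodule.mem_span_range_iff_exists_fun _).1 hy
  refine ⟨c, hc.symm.trans (Finset.sum_congr rfl fun i _ => ?_)⟩
  rw [Algebra.smul_def, IntermediateField.algebraMap_apply]

/-- Integral elements are integral over the integral elements of `ℚ(t)`. -/
theorem minpoly_coeff_mem {y : F} (hy : y ∈ gaussSub ℓ F) (n : ℕ) :
    (minpoly ℚ⟮t⟯ y).coeff n ∈ D.base := by
  classical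
  letI : Algebra D.base F := ((algebraMap ℚ⟮t⟯ F).comp D.base.subtype).toAlgebra
  haveI : IsScalarTower D.base ℚ⟮t⟯ F := IsScalarTower.of_algebraMap_eq fun _ => rfl
  let S : Subalgebra D.base F :=
    { (gaussSub ℓ F).toSubsemiring with algebraMap_mem' := fun c => c.2 }
  have hS : Subalgebra.toSubmodule S = Submodule.span D.base (Set.range e) := by
    refine le_antisymm (fun z hz => ?_)
      (Submodule.span_le.2 (Set.range_subset_iff.2 fun i => D.e_mem i))
    obtain ⟨c, rfl⟩ := D.exists_combination z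
    have hc := D.coeff_mem c hz
    refine Submodule.sum_mem _ fun i _ => ?_
    have h : (c i : F) * e i = (⟨c i, hc i⟩ : D.base) • e i := by rw [Algebra.smul_def]; rfl
    rw [h]
    exact Submodule.smul_mem _ _ (Submodule.subset_span (Set.mem_range_self i))
  have hfg : (Subalgebra.toSubmodule S).FG := hS ▸ Submodule.fg_span (Set.finite_range e)
  have hint : IsIntegral D.base y := IsIntegral.of_mem_of_fg S hfg y hy
  rw [minpoly.isIntegrallyClosed_eq_field_fractions' ℚ⟮t⟯ hint, Polynomial.coeff_map]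
  exact ((minpoly D.base y).coeff n).2

theorem t_transcendental : Transcendental ℚ t := by
  rw [transcendental_iff]
  intro P hP
  by_contra hP0
  obtain ⟨n, hn⟩ : ∃ n, P.coeff n ≠ 0 := by
    by_contra hno
    push Not at hno
    exact hP0 (Polynomial.ext fun n => by simp [hno n])
  have hmem : Polynomial.aeval (t : LaurentSeries ℚ)
      (Polynomial.C (((ℓ : ℚ) * P.coeff n)⁻¹) * P) ∈ gaussRing ℓ := by
    rw [map_mul, ← coe_aeval t P, hP, ZeroMemClass.coe_zero, mul_zero]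
    exact (gaussRing ℓ).zero_mem
  have h := coeff_mem_of_aeval_mem ℓ ⟨_, D.t_mem⟩ D.red_transc _ hmem n
  rw [Polynomial.coeff_C_mul, mul_inv, mul_assoc, inv_mul_cancel₀ hn, mul_one] at h
  have hden : ((ℓ : ℚ)⁻¹).den = ℓ := Rat.inv_natCast_den_of_pos (Fact.out : ℓ.Prime).pos
  have hcop : ((ℓ : ℚ)⁻¹).den.Coprime ℓ := h
  rw [hden, Nat.coprime_self] at hcop
  exact (Fact.out : ℓ.Prime).ne_one hcop

theorem coeff_adjoin_rat {y : F} (hy : IsIntegral (Algebra.adjoin ℚ ({t} : Set F)) y) (n : ℕ) :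
    ∃ R : Polynomial ℚ, ((minpoly ℚ⟮t⟯ y).coeff n : F) = Polynomial.aeval t R := by
  open scoped algebraAdjoinAdjoin in
  haveI : IsIntegrallyClosed (Algebra.adjoin ℚ ({t} : Set F)) := by
    refine IsIntegrallyClosed.of_equiv (R := Polynomial ℚ) ?_
    exact ((AlgEquiv.ofInjective (Polynomial.aeval t)
      (transcendental_iff_injective.1 D.t_transcendental)).trans
        (Subalgebra.equivOfEq _ _ (Algebra.adjoin_singleton_eq_range_aeval ℚ t).symm)).toRingEquiv
  open scoped algebraAdjoinAdjoin in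
  rw [minpoly.isIntegrallyClosed_eq_field_fractions' ℚ⟮t⟯ hy, Polynomial.coeff_map]
  obtain ⟨R, hR⟩ := (Algebra.adjoin_singleton_eq_range_aeval ℚ t).le
    ((minpoly (Algebra.adjoin ℚ ({t} : Set F)) y).coeff n).2
  exact ⟨R, hR.symm⟩

variable [Algebra ↥(GaloisRep.ratLocalizedAt ℓ) F] [IsScalarTower ↥(GaloisRep.ratLocalizedAt ℓ) ℚ F]

omit D in
theorem coe_algebraMap_rat (r : ℚ) :
    ((algebraMap ℚ F r : F) : LaurentSeries ℚ) = algebraMap ℚ (LaurentSeries ℚ) r :=
  (DFunLike.congr_fun (RingHom.ext_rat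
    ((F.val : F →+* LaurentSeries ℚ).comp (algebraMap ℚ F)) (algebraMap ℚ (LaurentSeries ℚ))) r)

omit D in
theorem algebraMap_local (r : ↥(GaloisRep.ratLocalizedAt ℓ)) :
    (algebraMap ↥(GaloisRep.ratLocalizedAt ℓ) F r : F) = algebraMap ℚ F (r : ℚ) := by
  rw [IsScalarTower.algebraMap_apply ↥(GaloisRep.ratLocalizedAt ℓ) ℚ F]
  rfl

omit D in
theorem adjoin_le_gauss {T : Set F} (hT : T ⊆ gaussSub ℓ F) {x : F}
    (hx : x ∈ Algebra.adjoin ↥(GaloisRep.ratLocalizedAt ℓ) T) : x ∈ gaussSub ℓ F := by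
  induction hx using Algebra.adjoin_induction with
  | mem y hy => exact hT hy
  | algebraMap r =>
    rw [algebraMap_local r, mem_gaussSub, coe_algebraMap_rat]
    exact const_mem_gauss ℓ r.2
  | add y z _ _ hy hz => exact add_mem hy hz
  | mul y z _ _ hy hz => exact mul_mem hy hz

/-- Elements integral over integral elements are integral. -/
theorem integral_mem_gauss {T : Set F} (hT : T ⊆ gaussSub ℓ F) {x : F}
    (hx : IsIntegral (Algebra.adjoin ↥(GaloisRep.ratLocalizedAt ℓ) T) x) : x ∈ gaussSub ℓ F := by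
  by_contra hmem
  obtain ⟨hi', hred⟩ := gauss_inv_of_notMem ℓ (D.frac x) hmem
  have hi : x⁻¹ ∈ gaussSub ℓ F := hi'
  have hred' : subRed ℓ F ⟨x⁻¹, hi⟩ = 0 := hred
  have hx0 : x ≠ 0 := fun h => hmem (h ▸ (gaussSub ℓ F).zero_mem)
  obtain ⟨p, hp, hpx⟩ := hx
  let f : Algebra.adjoin ↥(GaloisRep.ratLocalizedAt ℓ) T → gaussSub ℓ F := fun c => ⟨(c : F), adjoin_le_gauss hT c.2⟩
  set n := p.natDegree with hn
  have hsum : (∑ i ∈ Finset.range n, f (p.coeff i) * ⟨x⁻¹, hi⟩ ^ (n - i)) + 1 =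
      (0 : gaussSub ℓ F) := by
    apply Subtype.val_injective
    rw [Subring.coe_add, Subring.coe_one, AddSubmonoidClass.coe_finsetSum, ZeroMemClass.coe_zero]
    simp only [Subring.coe_mul, SubmonoidClass.coe_pow]
    have h1 := hpx
    rw [Polynomial.eval₂_eq_sum_range, Finset.sum_range_succ, hp.coeff_natDegree, map_one,
      one_mul, ← hn] at h1
    have h2 := congrArg (fun z => z * x⁻¹ ^ n) h1
    simp only [zero_mul, add_mul, Finset.sum_mul, ← mul_pow, mul_inv_cancel₀ hx0, one_pow] at h2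
    refine Eq.trans ?_ h2
    congr 1
    refine Finset.sum_congr rfl fun i hi' => ?_
    show (p.coeff i : F) * x⁻¹ ^ (n - i) = (p.coeff i : F) * x ^ i * x⁻¹ ^ n
    obtain ⟨d, hd⟩ := Nat.exists_eq_add_of_le (Finset.mem_range.1 hi').le
    rw [hd, Nat.add_sub_cancel_left, _root_.pow_add, mul_assoc, ← mul_assoc (x ^ i), ← mul_pow,
      mul_inv_cancel₀ hx0, one_pow, one_mul]
  have h3 := congrArg (subRed ℓ F) hsum
  rw [map_add, map_sum, map_one, map_zero, Finset.sum_eq_zero, zero_add] at h3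
  · exact one_ne_zero h3
  · intro i hi'
    rw [map_mul, map_pow, hred', zero_pow (by have := Finset.mem_range.1 hi'; omega), mul_zero]

theorem mem_adjoin_of_gauss {R : Polynomial ℚ}
    (h : Polynomial.aeval t R ∈ gaussSub ℓ F) :
    Polynomial.aeval t R ∈ Algebra.adjoin ↥(GaloisRep.ratLocalizedAt ℓ) ({t} : Set F) := by
  have h' : Polynomial.aeval (t : LaurentSeries ℚ) R ∈ gaussRing ℓ := by
    rw [← coe_aeval t R]
    exact h
  have hc := coeff_mem_of_aeval_mem ℓ ⟨_, D.t_mem⟩ D.red_transc R h'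
  rw [Polynomial.aeval_eq_sum_range]
  refine sum_mem fun i _ => ?_
  have ht : t ∈ Algebra.adjoin (GaloisRep.ratLocalizedAt ℓ) ({t} : Set F) :=
    Algebra.subset_adjoin (Set.mem_singleton t)
  have h1 : R.coeff i • t ^ i =
      algebraMap (GaloisRep.ratLocalizedAt ℓ) F ⟨R.coeff i, hc i⟩ * t ^ i := by
    rw [algebraMap_local (⟨R.coeff i, hc i⟩ : GaloisRep.ratLocalizedAt ℓ)]
    exact Rat.smul_def (R.coeff i) (t ^ i) |>.trans (by rw [eq_ratCast])
  rw [h1]
  exact mul_mem (Subalgebra.algebraMap_mem _ _) (pow_mem ht i)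

/-- An element of the integral closure with zero reduction is divisible by `ℓ` in it. -/
theorem integral_div_prime {x : F} (hx : IsIntegral (Algebra.adjoin ↥(GaloisRep.ratLocalizedAt ℓ) ({t} : Set F)) x)
    (hmem : x ∈ gaussSub ℓ F) (hred : subRed ℓ F ⟨x, hmem⟩ = 0) :
    IsIntegral (Algebra.adjoin ↥(GaloisRep.ratLocalizedAt ℓ) ({t} : Set F)) (x / (ℓ : F)) := by
  set y := x / (ℓ : F) with hy
  have hymem : y ∈ gaussSub ℓ F := by
    rw [mem_gaussSub, hy]
    have := gauss_div_prime ℓ (x := ⟨_, hmem⟩) hred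
    simpa using this
  have hincl : ∀ z ∈ Algebra.adjoin ↥(GaloisRep.ratLocalizedAt ℓ) ({t} : Set F), z ∈ Algebra.adjoin ℚ ({t} : Set F) := by
    intro z hz
    induction hz using Algebra.adjoin_induction with
    | mem w hw => exact Algebra.subset_adjoin hw
    | algebraMap r => rw [algebraMap_local r]; exact Subalgebra.algebraMap_mem _ _
    | add w v _ _ hw hv => exact add_mem hw hv
    | mul w v _ _ hw hv => exact mul_mem hw hv
  have hyint : IsIntegral (Algebra.adjoin ℚ ({t} : Set F)) y := by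
    let g : Algebra.adjoin ↥(GaloisRep.ratLocalizedAt ℓ) ({t} : Set F) →+* Algebra.adjoin ℚ ({t} : Set F) :=
      (algebraMap _ F).codRestrict (Algebra.adjoin ℚ ({t} : Set F)).toSubsemiring
        fun z => hincl z z.2
    have hx' : IsIntegral (Algebra.adjoin ℚ ({t} : Set F)) x :=
      hx.map_of_comp_eq g (RingHom.id F) (by ext z; rfl)
    have hl : IsIntegral (Algebra.adjoin ℚ ({t} : Set F)) ((ℓ : F)⁻¹) := by
      have : algebraMap (Algebra.adjoin ℚ ({t} : Set F)) F (algebraMap ℚ _ (ℓ : ℚ)⁻¹) = (ℓ : F)⁻¹ := by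
        rw [← IsScalarTower.algebraMap_apply, map_inv₀, map_natCast]
      exact this ▸ isIntegral_algebraMap
    rw [hy, div_eq_mul_inv]
    exact hx'.mul hl
  haveI := D.finite
  have hcoef : ∀ n, (((minpoly ℚ⟮t⟯ y).coeff n : ℚ⟮t⟯) : F) ∈
      Algebra.adjoin ↥(GaloisRep.ratLocalizedAt ℓ) ({t} : Set F) := by
    intro n
    obtain ⟨R, hR⟩ := D.coeff_adjoin_rat hyint n
    have h := D.minpoly_coeff_mem hymem n
    rw [D.mem_base, hR] at h
    rw [hR]
    exact D.mem_adjoin_of_gauss h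
  have hl : (minpoly ℚ⟮t⟯ y).map (algebraMap ℚ⟮t⟯ F) ∈
      Polynomial.lifts (algebraMap (Algebra.adjoin ↥(GaloisRep.ratLocalizedAt ℓ) ({t} : Set F)) F) := by
    rw [Polynomial.lifts_iff_coeff_lifts]
    intro n
    rw [Polynomial.coeff_map]
    exact ⟨⟨_, hcoef n⟩, rfl⟩
  obtain ⟨p, hp, -, hpm⟩ := Polynomial.lifts_and_degree_eq_and_monic hl
    ((minpoly.monic (IsIntegral.of_finite _ y)).map _)
  refine ⟨p, hpm, ?_⟩
  rw [← Polynomial.eval_map, hp, Polynomial.eval_map, ← Polynomial.aeval_def]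
  exact minpoly.aeval _ _

end ChartData

end FA.ModField
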