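import Fermat.Agent.ModField.Igusa.Roots

/-!
# No root of the level `p` equation in the field of level `M` prime to `p`
-/

set_option autoImplicit false
set_option linter.style.haveILetI false
set_option linter.unusedSectionVars false
set_option synthInstance.maxHeartbeats 200000
set_option maxHeartbeats 1600000

noncomputable section

namespace FA.ModField

open HahnSeries ModularCurve IntermediateField

variable {k : Type} [Field k] [IsAlgClosed k]

/-- If the modular equation at `r` holds between `x` and `a`, then in any embedding it holds. -/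
theorem root_of_hom {E : Type*} [Field E] (incl : E →+* LaurentSeries k)
    (θ : LaurentSeries k →+* LaurentSeries k) (cE : k →+* E)
    (hincl : ∀ r, θ (incl (cE r)) = HahnSeries.C r) {Ω : Type*} [Field Ω] (τ : E →+* Ω)
    (iota : LaurentSeries k →+* Ω) (hτ : ∀ r, τ (cE r) = iota (HahnSeries.C r))
    (Φ : Polynomial (Polynomial k)) {ι : Type*} [Fintype ι] {a x : E} {s1 s2 : LaurentSeries k}
    {R1 R2 : ι → LaurentSeries k}
    (h1 : θ (incl a) = s1) (hΦ1 : Φ.map (evalSer k s1) = ∏ i, (Polynomial.X - Polynomial.C (R1 i)))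
    (hx : ∃ i, θ (incl x) = R1 i)
    (h2 : τ a = iota s2) (hΦ2 : Φ.map (evalSer k s2) = ∏ i, (Polynomial.X - Polynomial.C (R2 i))) :
    ∃ i, τ x = iota (R2 i) := by
  classical
  set ev : Polynomial k →+* E := Polynomial.eval₂RingHom cE a with hev
  have hcomp1 : (θ.comp incl).comp ev = evalSer k s1 := by
    apply Polynomial.ringHom_ext
    · intro r; simp [hev, hincl]
    · simp [hev, h1]
  have hcomp2 : τ.comp ev = iota.comp (evalSer k s2) := by
    apply Polynomial.ringHom_ext
    · intro r; simp [hev, hτ]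
    · simp [hev, h2]
  have hzero : (Φ.map ev).eval x = 0 := by
    apply (θ.comp incl).injective
    rw [map_zero, ← Polynomial.eval_map_apply, Polynomial.map_map, hcomp1, hΦ1,
      Polynomial.eval_prod]
    obtain ⟨i, hi⟩ := hx
    exact Finset.prod_eq_zero (Finset.mem_univ i) (by simp [hi])
  have h := congrArg τ hzero
  rw [map_zero, ← Polynomial.eval_map_apply, Polynomial.map_map, hcomp2, ← Polynomial.map_map,
    hΦ2, Polynomial.map_prod, Polynomial.eval_prod, Finset.prod_eq_zero_iff] at h
  obtain ⟨i, -, hi⟩ := h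
  exact ⟨i, sub_eq_zero.1 (by simpa using hi)⟩

/-- The conjugates of the generators of level `M` in `q^(1/(Mp))` are series `j(b T^e)` with `p ∣ e`. -/
theorem gen_conjugates (M : ℕ) [NeZero M] (p : ℕ) [Fact p.Prime] (_hpM : ¬ p ∣ M)
    (hk : ∀ r : ℕ, r.Prime → r ∣ M → (r : k) ≠ 0) {Ω : Type*} [Field Ω]
    (iota : LaurentSeries k →+* Ω) (τ : towerField k M →+* Ω)
    (hτ : ∀ c : baseJ k, τ (algebraMap (baseJ k) (towerField k M) c) =
      iota (qExpand k (M * p) (c : LaurentSeries k))) (r : ℕ) (hr : r.Prime) :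
    ∀ (i : ℕ) (hne : NeZero (r ^ i)), r ^ i ∣ M → ∀ (x : towerField k M),
      (x : LaurentSeries k) = @qExpand k _ (r ^ i) hne (jqModC k) →
        ∃ (b : kˣ) (e : ℕ) (_ : NeZero e), M * p ∣ e * r ^ i ∧ τ x = iota (sj k b e) := by
  intro i
  induction i with
  | zero =>
    intro hne _ x hx
    refine ⟨1, M * p, inferInstance, by simp, ?_⟩
    have hj : jqModC k ∈ baseJ k := mem_adjoin_simple_self k _
    have hxc : x = algebraMap (baseJ k) (towerField k M) ⟨jqModC k, hj⟩ := by
      apply Subtype.ext
      rw [hx, qExpand_congr (pow_zero r), qExpand_one_apply]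
      rfl
    rw [hxc, hτ, sj_one]
  | succ i ih =>
    intro hne hdvd x hx
    haveI : Fact r.Prime := ⟨hr⟩
    have hdvd' : r ^ i ∣ M := dvd_trans (pow_dvd_pow r (Nat.le_succ i)) hdvd
    obtain ⟨b, e, he0, hMe, hb⟩ := ih inferInstance hdvd' ⟨_, mem_towerField hr hdvd'⟩ rfl
    have hre : r ∣ e := by
      obtain ⟨u, hu⟩ := hdvd
      obtain ⟨w, hw⟩ := hMe
      refine ⟨u * p * w, ?_⟩
      have hpos : 0 < r ^ i := pow_pos hr.pos i
      apply Nat.eq_of_mul_eq_mul_right hpos
      rw [hw, hu, pow_succ]
      ring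
    obtain ⟨d, rfl⟩ := hre
    haveI : NeZero d := ⟨(Nat.mul_ne_zero_iff.1 he0.out).2⟩
    have hrk : (r : k) ≠ 0 := hk r hr ((dvd_pow_self r (Nat.succ_ne_zero i)).trans hdvd)
    obtain ⟨ζ, hζ⟩ := exists_zeta r hrk
    obtain ⟨Φ, -, hΦ⟩ := exists_phi r ζ hζ
    obtain ⟨c0, hc0⟩ := IsAlgClosed.exists_pow_nat_eq (b : k) hr.pos
    obtain ⟨c, hc⟩ : ∃ c : kˣ, c ^ r = b := by
      have hne0 : c0 ≠ 0 := fun h => by simp [h, hr.ne_zero, eq_comm] at hc0
      exact ⟨Units.mk0 c0 hne0, Units.ext (by simpa using hc0)⟩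
    set incl : towerField k M →+* LaurentSeries k := (towerField k M).val.toRingHom
    set cE : k →+* towerField k M :=
      (algebraMap (baseJ k) (towerField k M)).comp (algebraMap k (baseJ k)) with hcE
    have hcEval : ∀ s : k, incl (cE s) = HahnSeries.C s := fun s => by
      show algebraMap k (LaurentSeries k) s = _
      rw [algebraMap_laurentSeries_eq_single, HahnSeries.C_apply]
    obtain ⟨j, hj⟩ := root_of_hom incl (qExpand k r) cE
      (fun s => by rw [hcEval, qExpand_C]) τ iota
      (fun s => by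
        rw [hcE, RingHom.comp_apply, hτ]
        show iota (qExpand k (M * p) (algebraMap k (LaurentSeries k) s)) = _
        rw [algebraMap_laurentSeries_eq_single, qExpand_single, mul_zero, HahnSeries.C_apply])
      Φ (a := ⟨_, mem_towerField hr hdvd'⟩) (x := x)
      (s1 := sj k (1 ^ r) (r ^ i * r)) (R1 := subRoot r ζ 1 (r ^ i))
      (s2 := sj k (c ^ r) (d * r)) (R2 := subRoot r ζ c d)
      (by
        show qExpand k r (qExpand k (r ^ i) (jqModC k)) = _
        rw [← sj_one, qExpand_sj, one_pow, sj_congr (mul_comm r (r ^ i))])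
      (hΦ 1 (r ^ i))
      ⟨none, by
        show qExpand k r (x : LaurentSeries k) = _
        rw [hx, ← sj_one, qExpand_sj, subRoot, one_pow,
          sj_congr (by ring : r * r ^ (i + 1) = r ^ i * (r * r))]⟩
      (by rw [hb, hc, sj_congr (mul_comm r d)])
      (hΦ c d)
    cases j with
    | none =>
      refine ⟨_, _, inferInstance, ?_, hj⟩
      exact hMe.trans ⟨r * r, by ring⟩
    | some b' =>
      refine ⟨_, _, inferInstance, ?_, hj⟩
      rwa [show d * r ^ (i + 1) = r * d * r ^ i by ring]

/-- The modular equation at `p` has no root in the field of level `M` prime to `p`. -/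
theorem no_root (M : ℕ) [NeZero M] (p : ℕ) [Fact p.Prime] (hpM : ¬ p ∣ M)
    (hk : ∀ r : ℕ, r.Prime → r ∣ M * p → (r : k) ≠ 0)
    (hfin : FiniteDimensional (baseJ k) (towerField k M)) (ζ : kˣ) (hζ : IsPrimitiveRoot ζ p)
    (y : towerField k M) (i₀ : Option (Fin p))
    (hy : qExpand k p (y : LaurentSeries k) = subRoot p ζ 1 1 i₀) : False := by
  classical
  haveI := hfin
  let K := baseJ k
  let E := towerField k M
  obtain ⟨Φ, hΦm, hΦ⟩ := exists_phi p ζ hζ
  set Ω := AlgebraicClosure (LaurentSeries k)
  set iota : LaurentSeries k →+* Ω := algebraMap (LaurentSeries k) Ω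
  letI : Algebra K Ω := ((iota.comp (qExpand k (M * p))).comp K.val.toRingHom).toAlgebra
  have hj : jqModC k ∈ K := mem_adjoin_simple_self k _
  set jK : K := ⟨jqModC k, hj⟩
  set cK : k →+* K := algebraMap k K
  have hcK : ∀ s : k, (cK s : LaurentSeries k) = HahnSeries.C s := fun s => by
    show algebraMap k (LaurentSeries k) s = _
    rw [algebraMap_laurentSeries_eq_single, HahnSeries.C_apply]
  set q : Polynomial K := Φ.map (Polynomial.eval₂RingHom cK jK) with hq
  set θ : K →+* LaurentSeries k := (qExpand k p).comp K.val.toRingHom with hθdef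
  have hqθ : q.map θ = ∏ i, (Polynomial.X - Polynomial.C (subRoot p ζ 1 1 i)) := by
    rw [hq, Polynomial.map_map, ← hΦ 1 1]
    congr 1
    apply Polynomial.ringHom_ext
    · intro r
      simp only [RingHom.comp_apply, Polynomial.coe_eval₂RingHom, Polynomial.eval₂_C, hθdef]
      show qExpand k p (cK r : LaurentSeries k) = _
      rw [hcK, qExpand_C]
    · simp only [RingHom.comp_apply, Polynomial.coe_eval₂RingHom, Polynomial.eval₂_X, hθdef]
      show qExpand k p (jqModC k) = _
      rw [← sj_one, one_pow, sj_congr (one_mul p)]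
  have hqroot : Polynomial.aeval y q = 0 := by
    apply ((qExpand k p).comp E.val.toRingHom).injective
    rw [map_zero, Polynomial.aeval_def, Polynomial.hom_eval₂, RingHom.comp_assoc,
      show E.val.toRingHom.comp (algebraMap K E) = K.val.toRingHom from rfl, ← Polynomial.eval_map,
      ← hθdef, hqθ, Polynomial.eval_prod]
    refine Finset.prod_eq_zero (Finset.mem_univ i₀) ?_
    simp only [Polynomial.eval_sub, Polynomial.eval_X, Polynomial.eval_C, RingHom.comp_apply]
    rw [sub_eq_zero]
    exact hy
  have hqsep : q.Separable := by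
    rw [← Polynomial.separable_map θ, hqθ, Polynomial.separable_prod_X_sub_C_iff]
    exact subRoot_injective p hζ 1 1
  have hint : IsIntegral K y := IsIntegral.of_finite K y
  have hsep : (minpoly K y).Separable := hqsep.of_dvd (minpoly.dvd K y hqroot)
  -- all conjugates of `y` coincide
  haveI : Algebra.IsAlgebraic K E := Algebra.IsAlgebraic.of_finite K E
  have hconj : ∀ τ : E →ₐ[K] Ω, τ y = iota (sj k 1 (M * (p * p))) := by
    intro τ
    have hτ : ∀ c : K, τ.toRingHom (algebraMap K E c) = iota (qExpand k (M * p) (c : LaurentSeries k)) :=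
      fun c => τ.commutes c
    have hrange : ∀ z : E, τ z ∈ (iota.comp (qExpand k p)).fieldRange := by
      rintro ⟨z, hz⟩
      induction (show z ∈ IntermediateField.adjoin (baseJ k) (ppGens k M) from hz) using IntermediateField.adjoin_induction with
      | mem w hw =>
        obtain ⟨r, i, hne, hr, hdvd, hw'⟩ := hw
        obtain ⟨b, e, he0, hMe, hb⟩ := gen_conjugates M p hpM
          (fun r hr h => hk r hr (h.mul_right p)) iota τ.toRingHom hτ r hr i hne hdvd ⟨w, _⟩ hw'
        have hpe : p ∣ e := by
          by_cases hi : i = 0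
          · subst hi
            rw [pow_zero, mul_one] at hMe
            exact (dvd_mul_left p M).trans hMe
          have hrp : r ≠ p := fun h => hpM (h ▸ (dvd_pow_self r hi).trans hdvd)
          exact (Nat.Coprime.pow_right i
            ((Nat.coprime_primes Fact.out hr).2 (Ne.symm hrp))).dvd_of_dvd_mul_right
            ((dvd_mul_left p M).trans hMe)
        obtain ⟨d, rfl⟩ := hpe
        haveI : NeZero d := ⟨(Nat.mul_ne_zero_iff.1 he0.out).2⟩
        exact ⟨sj k b d, by
          rw [RingHom.comp_apply, qExpand_sj]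
          exact hb.symm⟩
      | algebraMap c =>
        refine ⟨qExpand k M (c : LaurentSeries k), ?_⟩
        rw [RingHom.comp_apply, qExpand_qExpand, qExpand_congr (mul_comm p M)]
        exact (hτ c).symm
      | add u v hu hv hu' hv' =>
        have h := add_mem (hu' hu) (hv' hv)
        rw [← map_add] at h
        exact h
      | inv u hu hu' =>
        have h := inv_mem (hu' hu)
        rw [← map_inv₀] at h
        exact h
      | mul u v hu hv hu' hv' =>
        have h := mul_mem (hu' hu) (hv' hv)
        rw [← map_mul] at h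
        exact h
    set cE : k →+* E := (algebraMap K E).comp cK with hcE
    obtain ⟨i, hi⟩ := root_of_hom (Ω := Ω) E.val.toRingHom (qExpand k p) cE
      (fun s => by
        show qExpand k p (cK s : LaurentSeries k) = _
        rw [hcK, qExpand_C])
      τ.toRingHom iota
      (fun s => by
        rw [hcE, RingHom.comp_apply, hτ, hcK, qExpand_C])
      Φ (a := algebraMap K E jK) (x := y) (s1 := sj k (1 ^ p) (1 * p)) (R1 := subRoot p ζ 1 1)
      (s2 := sj k (1 ^ p) (M * p)) (R2 := subRoot p ζ 1 M)
      (by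
        show qExpand k p (jqModC k) = _
        rw [← sj_one, one_pow, sj_congr (one_mul p)])
      (hΦ 1 1) ⟨i₀, hy⟩
      (by rw [hτ, one_pow, sj_one])
      (hΦ 1 M)
    cases i with
    | none =>
      rw [subRoot, one_pow] at hi
      exact hi
    | some b =>
      obtain ⟨f, hf⟩ := hrange y
      rw [show τ y = τ.toRingHom y from rfl, hi] at hf
      exact absurd (iota.injective hf).symm (sj_ne_qExpand _ M p hpM f)
  have hroots : (minpoly K y).rootSet Ω ⊆ {iota (sj k 1 (M * (p * p)))} := by
    rw [← Algebra.IsAlgebraic.range_eval_eq_rootSet_minpoly Ω y]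
    rintro _ ⟨τ, rfl⟩
    exact hconj τ
  have hdeg : (minpoly K y).natDegree = 1 := by
    have h1 := Polynomial.card_rootSet_eq_natDegree (K := Ω) hsep (IsAlgClosed.splits _)
    have h2 : Fintype.card ((minpoly K y).rootSet Ω) ≤ 1 :=
      Fintype.card_le_one_iff_subsingleton.2 ⟨fun a b => Subtype.ext
        ((Set.mem_singleton_iff.1 (hroots a.2)).trans (Set.mem_singleton_iff.1 (hroots b.2)).symm)⟩
    have h3 := minpoly.natDegree_pos hint
    omega
  obtain ⟨c, hc⟩ := minpoly.natDegree_eq_one_iff.1 hdeg
  obtain ⟨τ⟩ : Nonempty (E →ₐ[K] Ω) := ⟨IsAlgClosed.lift⟩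
  have h1 := hconj τ
  rw [← hc, AlgHom.commutes] at h1
  have h2 : (c : LaurentSeries k) = qExpand k p (jqModC k) := by
    apply qExpand_injective (R := k) (M * p)
    apply iota.injective
    rw [← sj_one, qExpand_sj, sj_congr (by ring : M * p * p = M * (p * p))]
    exact h1
  obtain ⟨P, Q, hPQ⟩ := (IntermediateField.mem_adjoin_simple_iff k (c : LaurentSeries k)).1 c.2
  have hJ : qExpand k p (jqModC k) ≠ 0 := fun h0 =>
    jqModC_ne_zero_of_nontrivial k (qExpand_injective (R := k) p (h0.trans (map_zero _).symm))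
  rw [h2] at hPQ
  have hQ : Q ≠ 0 := by
    rintro rfl
    rw [map_zero, div_zero] at hPQ
    exact hJ hPQ
  have haev : ∀ R : Polynomial k, Polynomial.aeval (jqModC k) R = evalJ k 1 R := fun R => by
    rw [evalJ_one, Polynomial.aeval_def]
    congr 1
    exact RingHom.ext fun s => by rw [algebraMap_laurentSeries_eq_single, HahnSeries.C_apply]
  rw [haev, haev] at hPQ
  refine jq_p_not_rational p (hk p Fact.out (dvd_mul_left p M)) ζ hζ P Q hQ ?_
  rw [hPQ, div_mul_cancel₀ _ fun h0 => hQ (evalJ_injective 1 (h0.trans (map_zero _).symm))]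

end FA.ModField
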