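import Fermat.Agent.ModField.Igusa.LevelP

/-!
# `j(q^p)` is not a rational function of `j(q)` when `p` is prime to the characteristic
-/

set_option autoImplicit false
set_option linter.style.haveILetI false
set_option linter.unusedSectionVars false
set_option synthInstance.maxHeartbeats 200000
set_option maxHeartbeats 1600000

noncomputable section

namespace FA.ModField

open UpperHalfPlane hiding I
open Complex HahnSeries ModularCurve

theorem thetaJ_pow_six_complex :
    thetaFun (jqModC ℂ) ^ 6 =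
      jqModC ℂ ^ 4 * (jqModC ℂ - HahnSeries.C 1728) ^ 3 * deltaq ℂ := by
  have h1 : HasExp (qp 1) (Derivative.normalizedDerivOfComplex jfun ^ 6)
      (thetaFun (jqModC ℂ) ^ 6) := by
    have h := (hasExp_jfun.normalizedDeriv).pow (qp_ne_zero 1) 6
    rwa [Nat.cast_one, inv_one, map_one, one_mul] at h
  have h2 := ((hasExp_jfun.pow (qp_ne_zero 1) 4).mul (qp_ne_zero 1)
    ((hasExp_jfun.sub (hasExp_C (T := qp 1) 1728)).pow (qp_ne_zero 1) 3)).mul (qp_ne_zero 1)
    hasExp_discriminant
  refine h1.unique (covers_qp 1) (h2.congr (funext fun z => ?_))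
  simp only [Pi.mul_apply, Pi.pow_apply, Pi.sub_apply]
  rw [D_jfun, jfun_sub_1728, jfun]
  have hne := ModularForm.discriminant_ne_zero z
  field_simp

theorem thetaJ_pow_six (R : Type*) [CommRing R] :
    thetaFun (jqModC R) ^ 6 =
      jqModC R ^ 4 * (jqModC R - HahnSeries.C 1728) ^ 3 * deltaq R := by
  have hZ : thetaFun (jqModC ℤ) ^ 6 =
      jqModC ℤ ^ 4 * (jqModC ℤ - HahnSeries.C 1728) ^ 3 * deltaq ℤ := by
    apply coeffMap_injective' (φ := Int.castRingHom ℂ) Int.cast_injective
    simp only [map_mul, map_pow, map_sub, coeffMap_thetaFun, coeffMap_jqModC, coeffMap_deltaq,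
      map_ofNat]
    exact thetaJ_pow_six_complex
  have h := congrArg (coeffMap (Int.castRingHom R)) hZ
  simpa only [map_mul, map_pow, map_sub, coeffMap_thetaFun, coeffMap_jqModC, coeffMap_C,
    coeffMap_deltaq, map_ofNat] using h

theorem evalJ_one (R : Type*) [CommRing R] (P : Polynomial R) :
    evalJ R 1 P = P.eval₂ HahnSeries.C (jqModC R) := by
  rw [evalJ, Polynomial.coe_eval₂RingHom, qExpand_one_apply]

theorem thetaFun_evalJ {R : Type*} [CommRing R] (P : Polynomial R) :
    thetaFun (evalJ R 1 P) = evalJ R 1 P.derivative * thetaFun (jqModC R) := by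
  induction P using Polynomial.induction_on with
  | C a => rw [evalJ_C, thetaFun_C, Polynomial.derivative_C, map_zero, zero_mul]
  | add p q hp hq => rw [map_add, thetaFun_add, hp, hq, map_add, map_add, add_mul]
  | monomial n a ih =>
    have h : evalJ R 1 (Polynomial.C a * Polynomial.X ^ (n + 1)) =
        evalJ R 1 (Polynomial.C a * Polynomial.X ^ n) * jqModC R := by
      rw [pow_succ, ← mul_assoc, map_mul, evalJ_X, qExpand_one_apply]
    rw [h, thetaFun_mul, ih, pow_succ, ← mul_assoc, Polynomial.derivative_mul (g := Polynomial.X),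
      Polynomial.derivative_X, mul_one, map_add, map_mul _ _ (Polynomial.X : Polynomial R),
      evalJ_X, qExpand_one_apply]
    ring

theorem jq_p_not_rational {k : Type*} [Field k] (p : ℕ) [Fact p.Prime] (hpk : (p : k) ≠ 0)
    (ζ : kˣ) (hζ : IsPrimitiveRoot ζ p) (P Q : Polynomial k) (hQ : Q ≠ 0) :
    qExpand k p (jqModC k) * evalJ k 1 Q ≠ evalJ k 1 P := by
  intro h
  set J := jqModC k with hJ
  set x := qExpand k p J with hx
  have hp2 : 2 ≤ p := (Fact.out : p.Prime).two_le
  have hxc : x.coeff (-(p : ℤ)) = 1 := by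
    rw [hx, hJ, show -(p : ℤ) = (p : ℤ) * (-1) by ring, qExpand_coeff_mul, jqModC_coeff_neg_one]
  have hx1728 : x ≠ HahnSeries.C 1728 := fun h0 => by
    have h1 := congrArg (fun s : LaurentSeries k => s.coeff (-(p : ℤ))) h0
    simp only [hxc, HahnSeries.C_apply, coeff_single_of_ne (show -(p : ℤ) ≠ 0 by omega)] at h1
    exact one_ne_zero h1
  have hx0 : x ≠ 0 := fun h0 => by simp [h0] at hxc
  have hQ0 : evalJ k 1 Q ≠ 0 := fun h0 => hQ (evalJ_injective 1 (h0.trans (map_zero _).symm))
  have hP : P ≠ 0 := by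
    rintro rfl
    rw [map_zero] at h
    exact mul_ne_zero hx0 hQ0 h
  have hPQ : P - Polynomial.C 1728 * Q ≠ 0 := by
    intro h0
    rw [sub_eq_zero] at h0
    rw [h0, map_mul, evalJ_C] at h
    exact hx1728 (mul_right_cancel₀ hQ0 h)
  -- differentiate
  set W := P.derivative * Q - P * Q.derivative with hW
  have hθ : HahnSeries.C (p : k) * qExpand k p (thetaFun J) * evalJ k 1 Q * evalJ k 1 Q =
      evalJ k 1 W * thetaFun J := by
    have h1 := congrArg thetaFun h
    rw [thetaFun_mul, thetaFun_evalJ, thetaFun_evalJ, ← hJ, thetaFun_qExpand] at h1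
    rw [hW, map_sub, map_mul, map_mul]
    linear_combination evalJ k 1 Q * h1 - evalJ k 1 Q.derivative * thetaFun J * h
  have hθJ : thetaFun J ^ 6 = J ^ 4 * (J - HahnSeries.C 1728) ^ 3 * deltaq k := thetaJ_pow_six k
  have hθx : qExpand k p (thetaFun J) ^ 6 =
      x ^ 4 * (x - HahnSeries.C 1728) ^ 3 * qExpand k p (deltaq k) := by
    rw [← map_pow, hθJ, map_mul, map_mul, map_pow, map_pow, map_sub, qExpand_C, hx]
  set D := HahnSeries.C ((p : k) ^ 12) * (qExpand k p (deltaq k) * dinvq k) with hD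
  set B := P ^ 4 * (P - Polynomial.C 1728 * Q) ^ 3 * Q ^ 5 with hB
  set A := Polynomial.C ((p : k) ^ 6) * (W ^ 6 *
    (Polynomial.X ^ 4 * (Polynomial.X - Polynomial.C 1728) ^ 3)) with hA
  have hB0 : B ≠ 0 := mul_ne_zero (mul_ne_zero (pow_ne_zero _ hP) (pow_ne_zero _ hPQ))
    (pow_ne_zero _ hQ)
  have hDB : D * evalJ k 1 B = evalJ k 1 A := by
    have h6 : (HahnSeries.C (p : k) * qExpand k p (thetaFun J) * evalJ k 1 Q * evalJ k 1 Q) ^ 6 =
        (evalJ k 1 W * thetaFun J) ^ 6 := congrArg (· ^ 6) hθ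
    rw [mul_pow, mul_pow, mul_pow, mul_pow, hθx, hθJ] at h6
    have hJX : evalJ k 1 Polynomial.X = J := by rw [evalJ_X, qExpand_one_apply]
    have hΔ := deltaq_mul_dinvq k
    simp only [hA, hB, map_mul, map_pow, map_sub, evalJ_C, hJX, hD]
    rw [← h]
    linear_combination (HahnSeries.C (p : k) ^ 6 * dinvq k) * h6 +
      (HahnSeries.C (p : k) ^ 6 * (evalJ k 1 W) ^ 6 * J ^ 4 * (J - HahnSeries.C 1728) ^ 3) * hΔ
  -- `D` is integral over `k[j]`
  obtain ⟨Φ, hΦ⟩ := (exists_equations k p ζ hζ).2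
  have hmonic : Φ.Monic := Polynomial.monic_of_injective (evalJ_injective p)
    (hΦ ▸ Polynomial.monic_prod_X_sub_C _ _)
  have hroot : Φ.eval₂ (evalJ k 1) D = 0 := by
    apply qExpand_injective (R := k) p
    rw [Polynomial.hom_eval₂, map_zero,
      show (qExpand k p).comp (evalJ k 1) = evalJ k p from RingHom.ext fun R => by
        rw [RingHom.comp_apply, qExpand_evalJ]
        simp only [mul_one]]
    rw [← Polynomial.eval_map, hΦ, Polynomial.eval_prod]
    refine Finset.prod_eq_zero (Finset.mem_univ none) ?_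
    simp only [uRoot, hD, map_mul, qExpand_C, qExpand_qExpand, Polynomial.eval_sub,
      Polynomial.eval_X, Polynomial.eval_C, Polynomial.eval_mul, sub_self]
  set lift : RatFunc k →+* LaurentSeries k := IsFractionRing.lift (evalJ_injective (R := k) 1)
  have hliftC : ∀ R : Polynomial k, lift (algebraMap _ _ R) = evalJ k 1 R := fun R =>
    IsFractionRing.lift_algebraMap _ R
  set r : RatFunc k := algebraMap _ _ A / algebraMap _ _ B with hr
  have hr' : lift r = D := by
    rw [hr, map_div₀, hliftC, hliftC, ← hDB, mul_div_assoc,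
      div_self (fun h0 => hB0 (evalJ_injective 1 (h0.trans (map_zero _).symm))), mul_one]
  have hint : IsIntegral (Polynomial k) r := ⟨Φ, hmonic, lift.injective (by
    rw [Polynomial.hom_eval₂, map_zero, hr',
      show lift.comp (algebraMap (Polynomial k) (RatFunc k)) = evalJ k 1 from RingHom.ext hliftC,
      hroot])⟩
  obtain ⟨P₀, hP₀⟩ := IsIntegrallyClosed.algebraMap_eq_of_integral hint
  have hDP : D = evalJ k 1 P₀ := by rw [← hr', ← hP₀, hliftC]
  -- orders
  have hg : OrdGE (p : ℤ) (qExpand k p (deltaq k)) ∧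
      (qExpand k p (deltaq k)).coeff (p : ℤ) = 1 := by
    constructor
    · intro i hi
      by_cases hdvd : (p : ℤ) ∣ i
      · obtain ⟨m, rfl⟩ := hdvd
        rw [qExpand_coeff_mul]
        refine deltaq_coeff.1 m ?_
        nlinarith
      · exact qExpand_coeff_of_not_dvd p _ hdvd
    · calc (qExpand k p (deltaq k)).coeff (p : ℤ)
          = (qExpand k p (deltaq k)).coeff ((p : ℤ) * 1) := by rw [mul_one]
        _ = 1 := by rw [qExpand_coeff_mul, deltaq_coeff.2]
  have hDord : OrdGE ((p : ℤ) + -1) D := by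
    have := (ordGE_C ((p : k) ^ 12)).mul (hg.1.mul dinvq_coeff.1)
    rw [zero_add] at this
    exact this
  have hDc : D.coeff ((p : ℤ) + -1) = (p : k) ^ 12 := by
    rw [hD, HahnSeries.C_apply, coeff_single_zero_mul, coeff_mul_of_ordGE hg.1 dinvq_coeff.1,
      hg.2, dinvq_coeff.2, mul_one, mul_one]
  have h1 := hDord (-(((1 : ℕ) : ℤ) * P₀.natDegree)) (by omega)
  rw [hDP, evalJ_coeff_lead, Polynomial.leadingCoeff_eq_zero] at h1
  rw [hDP, h1, map_zero, coeff_zero] at hDc
  exact pow_ne_zero 12 hpk hDc.symm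

end FA.ModField
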