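import Fermat.Agent.ModField.Igusa.NotRational

/-!
# The modular equation at a prime after substitution, and the fields generated by `j(q^(p^i))`
-/

set_option autoImplicit false
set_option linter.style.haveILetI false
set_option linter.unusedSectionVars false
set_option synthInstance.maxHeartbeats 200000
set_option maxHeartbeats 1600000

noncomputable section

namespace FA.ModField

open HahnSeries ModularCurve IntermediateField

variable (k : Type) [Field k]

/-- `P ↦ P(x)` for a Laurent series `x`. -/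
abbrev evalSer (x : LaurentSeries k) : Polynomial k →+* LaurentSeries k :=
  Polynomial.eval₂RingHom HahnSeries.C x

variable {k}

theorem comp_evalSer (θ : LaurentSeries k →+* LaurentSeries k)
    (hθ : ∀ r, θ (HahnSeries.C r) = HahnSeries.C r) (x : LaurentSeries k) :
    θ.comp (evalSer k x) = evalSer k (θ x) := by
  apply Polynomial.ringHom_ext
  · intro r
    simp only [RingHom.comp_apply, Polynomial.coe_eval₂RingHom, Polynomial.eval₂_C, hθ]
  · simp

theorem evalJ_eq_evalSer (e : ℕ) [NeZero e] :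
    evalJ k e = evalSer k (qExpand k e (jqModC k)) := rfl

/-- A root of unity of order `p`. -/
theorem exists_zeta [IsAlgClosed k] (p : ℕ) [Fact p.Prime] (hpk : (p : k) ≠ 0) :
    ∃ ζ : kˣ, IsPrimitiveRoot ζ p := by
  haveI : NeZero (p : k) := ⟨hpk⟩
  obtain ⟨z, hz⟩ := HasEnoughRootsOfUnity.exists_primitiveRoot k p
  obtain ⟨u, rfl⟩ : IsUnit z := hz.isUnit (Fact.out : p.Prime).ne_zero
  exact ⟨u, IsPrimitiveRoot.coe_units_iff.1 hz⟩

/-- The roots of the modular equation at `j(c^p T^(dp))`. -/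
def subRoot (p : ℕ) [NeZero p] (ζ c : kˣ) (d : ℕ) [NeZero d] : Option (Fin p) → LaurentSeries k
  | none => sj k (c ^ (p * p)) (d * (p * p))
  | some b => sj k (c * ζ ^ (b : ℕ)) d

/-- The modular equation, in every specialisation. -/
theorem exists_phi (p : ℕ) [Fact p.Prime] (ζ : kˣ) (hζ : IsPrimitiveRoot ζ p) :
    ∃ Φ : Polynomial (Polynomial k), Φ.Monic ∧ ∀ (c : kˣ) (d : ℕ) [NeZero d],
      Φ.map (evalSer k (sj k (c ^ p) (d * p))) =
        ∏ i, (Polynomial.X - Polynomial.C (subRoot p ζ c d i)) := by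
  obtain ⟨Φ, hΦ⟩ := (exists_equations k p ζ hζ).1
  refine ⟨Φ, Polynomial.monic_of_injective (evalJ_injective p)
    (hΦ ▸ Polynomial.monic_prod_X_sub_C _ _), fun c d _ => ?_⟩
  set θ : LaurentSeries k →+* LaurentSeries k := (qExpand k d).comp (twist c) with hθ
  have hθC : ∀ r, θ (HahnSeries.C r) = HahnSeries.C r := fun r => by
    rw [hθ, RingHom.comp_apply, twist_C, qExpand_C]
  have hθs : ∀ (b : kˣ) (e : ℕ) [NeZero e], θ (sj k b e) = sj k (c ^ e * b) (d * e) := by
    intro b e _
    rw [hθ, RingHom.comp_apply, twist_sj, qExpand_sj]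
  have hbase : θ (qExpand k p (jqModC k)) = sj k (c ^ p) (d * p) := by
    rw [← sj_one, hθs, mul_one]
  rw [← hbase, ← comp_evalSer θ hθC, ← evalJ_eq_evalSer, ← Polynomial.map_map, hΦ,
    Polynomial.map_prod]
  refine Finset.prod_congr rfl fun i _ => ?_
  rw [Polynomial.map_sub, Polynomial.map_X, Polynomial.map_C]
  congr 2
  cases i with
  | none => rw [jRoot, hθs, subRoot, mul_one]
  | some b => rw [jRoot, hθs, subRoot, pow_one, sj_congr (mul_one d)]

theorem subRoot_injective (p : ℕ) [Fact p.Prime] {ζ : kˣ} (hζ : IsPrimitiveRoot ζ p) (c : kˣ)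
    (d : ℕ) [NeZero d] : Function.Injective (subRoot p ζ c d) := by
  have hp := (Fact.out : p.Prime).two_le
  have hd : 0 < d := Nat.pos_of_ne_zero (NeZero.ne d)
  rintro (_ | b) (_ | b') h
  · rfl
  · obtain ⟨-, h2⟩ := sj_inj h
    exfalso
    nlinarith [Nat.mul_le_mul hp hp]
  · obtain ⟨-, h2⟩ := sj_inj h
    exfalso
    nlinarith [Nat.mul_le_mul hp hp]
  · exact congrArg some (Fin.ext (hζ.pow_inj b.2 b'.2 (mul_left_cancel (sj_inj h).1)))

/-! ### The tower fields -/

variable (k)

/-- `k(j)`. -/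
abbrev baseJ : IntermediateField k (LaurentSeries k) := k⟮jqModC k⟯

/-- The series `j(q^(p^i))`, `p^i ∣ N`. -/
def ppGens (N : ℕ) : Set (LaurentSeries k) :=
  {x | ∃ (p i : ℕ) (_ : NeZero (p ^ i)), p.Prime ∧ p ^ i ∣ N ∧
    x = qExpand k (p ^ i) (jqModC k)}

/-- The field generated over `k(j)` by the `j(q^(p^i))`, `p^i ∣ N`. -/
abbrev towerField (N : ℕ) : IntermediateField (baseJ k) (LaurentSeries k) :=
  IntermediateField.adjoin (baseJ k) (ppGens k N)

variable {k}

theorem mem_towerField {N p i : ℕ} [NeZero (p ^ i)] (hp : p.Prime) (h : p ^ i ∣ N) :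
    qExpand k (p ^ i) (jqModC k) ∈ towerField k N :=
  IntermediateField.subset_adjoin _ _ ⟨p, i, inferInstance, hp, h, rfl⟩

theorem ppGens_mul_prime {M p e : ℕ} (hp : p.Prime) [NeZero (p ^ (e + 1))]
    (he : p ^ e ∣ M) (he' : ¬ p ^ (e + 1) ∣ M) :
    ppGens k (M * p) = ppGens k M ∪ {qExpand k (p ^ (e + 1)) (jqModC k)} := by
  ext x
  constructor
  · rintro ⟨r, i, hne, hr, hdvd, rfl⟩
    by_cases h : r ^ i ∣ M
    · exact Or.inl ⟨r, i, hne, hr, h, rfl⟩
    right
    have hrp : r = p := by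
      by_contra hrp
      exact h ((Nat.Coprime.pow_left i ((Nat.coprime_primes hr hp).2 hrp)).dvd_of_dvd_mul_right hdvd)
    subst hrp
    have hi : i = e + 1 := by
      apply le_antisymm
      · by_contra hlt
        have h2 : r ^ (e + 1) * r ∣ M * r := by
          rw [← pow_succ]
          exact dvd_trans (pow_dvd_pow r (by omega)) hdvd
        exact he' (Nat.dvd_of_mul_dvd_mul_right hr.pos h2)
      · by_contra hlt
        exact h (dvd_trans (pow_dvd_pow r (by omega)) he)
    subst hi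
    exact Set.mem_singleton _
  · rintro (⟨r, i, hne, hr, hdvd, rfl⟩ | hx)
    · exact ⟨r, i, hne, hr, hdvd.mul_right _, rfl⟩
    · rw [Set.mem_singleton_iff] at hx
      exact ⟨p, e + 1, inferInstance, hp, by rw [pow_succ]; exact Nat.mul_dvd_mul_right he p, hx⟩

end FA.ModField
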