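import Fermat.Agent.ModField.Igusa.Chart
import Fermat.Agent.ModField.Igusa.Fiber
import Fermat.Agent.ModField.Igusa.Glue

/-!
# The special fibre of the Igusa scheme at a prime not dividing the level is integral
-/

set_option autoImplicit false
set_option linter.style.haveILetI false
set_option synthInstance.maxHeartbeats 400000
set_option maxHeartbeats 1600000

noncomputable section

namespace FA.ModField

open AlgebraicGeometry CategoryTheory CategoryTheory.Limits ModularCurve ModularCurve.IgusaScheme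
open scoped TensorProduct

variable (N : ℕ) [NeZero N] (ℓ : ℕ) [Fact ℓ.Prime]

theorem chartAlg_le_gauss (hℓN : ¬ ℓ ∣ N) {T : Set (modularFunctionFieldFull N)}
    (hT : T ⊆ gaussSub ℓ (modularFunctionFieldFull N)) :
    ∀ x ∈ chartAlg N ℓ T, x ∈ gaussSub ℓ (modularFunctionFieldFull N) := by
  intro x hx
  obtain ⟨e, hD, -⟩ := exists_chartData ℓ N hℓN
  exact hD.integral_mem_gauss hT hx

theorem isDomain_chart_fiber (hℓN : ¬ ℓ ∣ N) (K : Type) [Field K] [CharP K ℓ]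
    [Algebra ↥(GaloisRep.ratLocalizedAt ℓ) K] {t : modularFunctionFieldFull N}
    {ι : Type} [Fintype ι] {e : ι → modularFunctionFieldFull N}
    (hD : ChartData ℓ (modularFunctionFieldFull N) t e) :
    IsDomain (↥(chartAlg N ℓ {t}) ⊗[↥(GaloisRep.ratLocalizedAt ℓ)] K) := by
  have hA := chartAlg_le_gauss N ℓ hℓN (Set.singleton_subset_iff.2 hD.t_mem)
  exact isDomain_fiber ℓ K (chartAlg N ℓ {t}) hA fun a ha => hD.integral_div_prime a.2 (hA a a.2) ha

theorem isIntegral_igusa_fiber (hℓN : ¬ ℓ ∣ N) (K : Type) [Field K] [CharP K ℓ]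
    [Algebra ↥(GaloisRep.ratLocalizedAt ℓ) K] :
    IsIntegral ↑(pullback (igusaTo N ℓ)
      (Spec.map (CommRingCat.ofHom (algebraMap ↥(GaloisRep.ratLocalizedAt ℓ) K)))) := by
  obtain ⟨e, hD, hD'⟩ := exists_chartData ℓ N hℓN
  set g := Spec.map (CommRingCat.ofHom (algebraMap ↥(GaloisRep.ratLocalizedAt ℓ) K))
  haveI hF : IsDomain (↥(chartAlgFin N ℓ) ⊗[↥(GaloisRep.ratLocalizedAt ℓ)] K) :=
    isDomain_chart_fiber N ℓ hℓN K hD
  haveI hI : IsDomain (↥(chartAlgInf N ℓ) ⊗[↥(GaloisRep.ratLocalizedAt ℓ)] K) :=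
    isDomain_chart_fiber N ℓ hℓN K hD'
  haveI hM : Nontrivial (↥(chartAlgMid N ℓ) ⊗[↥(GaloisRep.ratLocalizedAt ℓ)] K) :=
    nontrivial_fiber ℓ K (chartAlgMid N ℓ) (chartAlg_le_gauss N ℓ hℓN
      (Set.insert_subset hD.t_mem (Set.singleton_subset_iff.2 hD'.t_mem)))
  haveI hFi : IsIntegral (pullback (ιFin N ℓ ≫ igusaTo N ℓ) g) := by
    rw [ιFin_igusaTo]
    let eF := pullbackSpecIso ↥(GaloisRep.ratLocalizedAt ℓ) ↥(chartAlgFin N ℓ) K
    haveI : Nonempty ↥(pullback (Spec.map (CommRingCat.ofHom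
        (algebraMap ↥(GaloisRep.ratLocalizedAt ℓ) ↥(chartAlgFin N ℓ)))) g) :=
      ⟨eF.inv.base (Classical.arbitrary _)⟩
    exact isIntegral_of_isOpenImmersion eF.hom
  haveI hIi : IsIntegral (pullback (ιInf N ℓ ≫ igusaTo N ℓ) g) := by
    rw [ιInf_igusaTo]
    let eI := pullbackSpecIso ↥(GaloisRep.ratLocalizedAt ℓ) ↥(chartAlgInf N ℓ) K
    haveI : Nonempty ↥(pullback (Spec.map (CommRingCat.ofHom
        (algebraMap ↥(GaloisRep.ratLocalizedAt ℓ) ↥(chartAlgInf N ℓ)))) g) :=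
      ⟨eI.inv.base (Classical.arbitrary _)⟩
    exact isIntegral_of_isOpenImmersion eI.hom
  haveI : Nonempty ↥(pullback (fFin N ℓ ≫ ιFin N ℓ ≫ igusaTo N ℓ) g) := by
    have hcomp : fFin N ℓ ≫ ιFin N ℓ ≫ igusaTo N ℓ =
        Spec.map (CommRingCat.ofHom (algebraMap ↥(GaloisRep.ratLocalizedAt ℓ) ↥(chartAlgMid N ℓ))) := by
      rw [ιFin_igusaTo, fFin, ← Spec.map_comp, ← CommRingCat.ofHom_comp]
      congr 2
    rw [hcomp]
    exact ⟨(pullbackSpecIso ↥(GaloisRep.ratLocalizedAt ℓ) ↥(chartAlgMid N ℓ) K).inv.base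
      (Classical.arbitrary _)⟩
  exact isIntegral_pullback_of_charts (igusaTo N ℓ) g (ιFin N ℓ) (ιInf N ℓ) (fFin N ℓ) (fInf N ℓ)
    (glue_condition N ℓ) (mem_range_ιFin_or_mem_range_ιInf N ℓ)

end FA.ModField
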